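import Mathlib
import Fermat.Agent.H45.SS.Model
import Fermat.Agent.H7.SS.GaussSD

/-!
# P-SS row 649 (SSH-8, CUSPS) : the two MODEL LEAVES (helper67)

Level `M q`, `q` prime, `q ∤ M`.  `E₀ = ModelField K₁ (M q)`, `E' = ModelField K₁ M`,
`α = heckeAlphaBar K₁ M q : E' → E₀` (same `q`-expansion), `x = j`, `x_q = j(t^q)`.
`V_∞` is the Gauss valuation ring of `q`-expansions (`Fermat.Agent.H7.SS.InV`, `InM`).

* `ModelCuspRhoStatement M q` (CUSP-RHO) : `ρ = j(t^q) / j(t)^q` is integral over `A₀[1/j]`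
  (the pole of `j(t^q)` at every cusp has order at most `q` times the pole order of `j`).
  PROOF SKETCH: modular polynomial `Φ ∈ ℤ[X][Y]` of level `q`
  (`Fermat.Agent.H27.HeckeDataOver.Φ_factor`): over the base `J = j(t^q)` the roots of `Φ(J, Y)`
  are `j(t^(q²))` (order `-q²`) and `j(ζ^b t)` (order `-1`), all of order `≥ q · ord J = -q²`;
  hence the coefficient `φ_k(J)` of `Y^k` has order `≥ -q² (q + 1 - k)`, i.e.
  `natDegree φ_k ≤ q (q + 1 - k)`; so `G(Y) = Σ_k reflect (q (q + 1 - k)) φ_k · Y^k ∈ ℤ[X][Y]` is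
  monic and `G(1/j, ρ) = j^(-q (q+1)) Φ(j, j(t^q)) = 0`.
* `ModelFracStatement M q` (FRAC) : the residue field of `V_∞` at level `M q` is generated by
  level `M` : every `z` in the Gauss closure `C(x)` is congruent modulo `𝔪_∞` to a quotient
  `a' / c'` of level `M`.
  PROOF SKETCH: the two-sided family of `Fermat.Agent.H66.SS` (`famInf`: `θ^i`, `i < ψ(M)`, and
  `θ^i (j_q - j^q) j_q^k`) spans `C(x)` over the Gauss ring of `K₁(x)` (two-sided Gauss
  independence + degree), and the second group lies in `𝔪_∞` (Frobenius congruence).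
-/

set_option autoImplicit false

noncomputable section

namespace Fermat.Agent.H67.SS

open Polynomial ModularCurve AlgebraicCurve
open Fermat.Agent.H22.KL Fermat.Agent.H82.SS Fermat.Agent.H7.SS

/-- **CUSP-RHO**: `ρ = x⁻¹ ^ q * x_q` is integral over `A₀[x⁻¹]` (`x = j`, `x_q = j(t^q)`). -/
def ModelCuspRhoStatement (M q : ℕ) [NeZero M] [NeZero q] : Prop :=
  ∀ (K₁ : Type) [Field K₁] [Algebra ℚ K₁] [FiniteDimensional ℚ K₁]
    (A₀ : Type) [CommRing A₀] [IsDomain A₀] [IsDiscreteValuationRing A₀]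
    [Algebra A₀ K₁] [IsFractionRing A₀ K₁]
    [Algebra A₀ (ModelField K₁ (M * q))] [IsScalarTower A₀ K₁ (ModelField K₁ (M * q))]
    (x xq : ModelField K₁ (M * q)),
    (x : LaurentSeries K₁) = coeffEmb K₁ jq →
    (xq : LaurentSeries K₁) = qExpand K₁ q (coeffEmb K₁ jq) →
    x⁻¹ ^ q * xq ∈ chartClosure A₀ (ModelField K₁ (M * q)) x⁻¹

/-- **FRAC**: every element of the Gauss closure of level `M q` is congruent modulo the maximal
ideal of the Gauss valuation of `q`-expansions to a quotient `a' / c'` of level `M`. -/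
def ModelFracStatement (M q : ℕ) [NeZero M] [NeZero q] : Prop :=
  ∀ (K₁ : Type) [Field K₁] [Algebra ℚ K₁] [FiniteDimensional ℚ K₁]
    (A₀ : Type) [CommRing A₀] [IsDomain A₀] [IsDiscreteValuationRing A₀]
    [Algebra A₀ K₁] [IsFractionRing A₀ K₁]
    [Algebra A₀ (ModelField K₁ (M * q))] [IsScalarTower A₀ K₁ (ModelField K₁ (M * q))],
    ¬ IsUnit ((q : ℕ) : A₀) →
    ∀ (ϖ : A₀), Irreducible ϖ →
    ∀ (x : ModelField K₁ (M * q)), (x : LaurentSeries K₁) = coeffEmb K₁ jq →
    ∀ (W : ModelField K₁ (M * q) ≃ₐ[K₁] ModelField K₁ (M * q)), IsAtkinLehnerModel K₁ M q W →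
    ∀ z ∈ gaussClosure A₀ (ModelField K₁ (M * q)) ϖ x,
      ∃ a' c' : ModelField K₁ M,
        InV (A₀ := A₀) (laurentBaseChange K₁ (modularFunctionFieldFull M))
          (a' : LaurentSeries K₁) ∧
        InV (A₀ := A₀) (laurentBaseChange K₁ (modularFunctionFieldFull M))
          (c' : LaurentSeries K₁) ∧
        ¬ InM (A₀ := A₀) (laurentBaseChange K₁ (modularFunctionFieldFull M))
          (c' : LaurentSeries K₁) ∧
        InM (A₀ := A₀) (laurentBaseChange K₁ (modularFunctionFieldFull (M * q)))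
          ((heckeAlphaBar K₁ M q c' * z - heckeAlphaBar K₁ M q a' : ModelField K₁ (M * q)) :
            LaurentSeries K₁)

end Fermat.Agent.H67.SS
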