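import Mathlib
import Fermat.Agent.H45.SS.Model

/-!
# P-SS row 649 (SSH-8, CUSPS) : the remaining LEAVES, exact Lean form (helper67)

Level `M q`, `q` prime, `q ∤ M` (ALL primes, also `q = 2, 3`).  `E₀ = ModelField K₁ (M q)`,
`E' = ModelField K₁ M`, `α = heckeAlphaBar K₁ M q`, `β = heckeBetaBar K₁ M q : E' → E₀`,
`x' ∈ E'` with `q`-expansion `j`, `x = α x'`, `x_q = β x' = j(t^q)`; charts `x'⁻¹`, `x⁻¹`.

* `IntLocLeadingStatement`, `IntLocScaleStatement` (INT-LOC, abstract, Mathlib + `H22.KL`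
  definitions only): local integrality at the cuspidal points.
* `ModelCuspChartStatement M q` (CUSP-CHART): transcendence, finiteness, good basis and the
  CUSP-ONLY branch hypothesis at level `M` in the chart `x'⁻¹` (needs only `μ_M ⊆ K₁`; this is
  why `R = M` and why `q = 2, 3` are allowed), and integrality of `j(t^q)` over `A₀[j]`.
* `ModelCuspGaussStatement M q` (CUSP-GAUSS): the valuation ring `V = V_∞` of `q`-expansions
  at level `M q` and its relation to the Gauss closures of both levels, the Frobenius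
  congruence, and FRAC in valuation language.

The final theorem of the row (module `Fermat.Agent.H67.SS.CuspFinal`) is
`IntLocLeadingStatement → IntLocScaleStatement → ModelCuspChartStatement M q →
 ModelCuspGaussStatement M q → ModelCuspRhoStatement M q →
 Fermat.Agent.H45.SSPlaceGenCuspStatement M q jq M`.
-/

set_option autoImplicit false

noncomputable section

namespace Fermat.Agent.H67.SS

open Polynomial ModularCurve AlgebraicCurve
open Fermat.Agent.H22.KL Fermat.Agent.H82.SS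

/-- **INT-LOC (a)**: if `x` is integral over `A[x_q]`, then `h · x_q⁻¹` is integral over
`A[x⁻¹]` for some `h = 1 + x⁻¹ p(x⁻¹)`.
(Write `x^m + Σ_{i<m} c_i(x_q) x^i = 0`, multiply by `x⁻¹ ^ m * x_q⁻¹ ^ D`, `D` at least the
degrees of the `c_i`: this is a polynomial relation of degree `≤ D` for `x_q⁻¹` over `A[x⁻¹]`
whose coefficient of degree `D` is `h = 1 + Σ_{i<m} c_i(0) x⁻¹ ^ (m - i)`; then
`isIntegral_leadingCoeff_smul`, or `h = 0`.) -/
def IntLocLeadingStatement : Prop :=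
  ∀ (A : Type) [CommRing A] (E : Type) [Field E] [Algebra A E] (x xq : E),
    x ≠ 0 → xq ≠ 0 → x ∈ chartClosure A E xq →
    ∃ p : A[X], (1 + x⁻¹ * aeval x⁻¹ p) * xq⁻¹ ∈ chartClosure A E x⁻¹

/-- **INT-LOC (b)**: if `h` and `h w` are integral over `A[y]` and `s` is integral over `A[w]`,
then `h ^ d * s` is integral over `A[y]` for some `d`.
(`s^n + Σ_{i<n} p_i(w) s^i = 0`; for `d` at least the degrees of the `p_i` the elements
`h ^ d * p_i(w)` lie in `B(y)`, and `h ^ d * s` is a root of the monic polynomial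
`Y^n + Σ_{i<n} h ^ (d (n - i)) p_i(w) Y^i` over `B(y)`, which is integrally closed in `E`.) -/
def IntLocScaleStatement : Prop :=
  ∀ (A : Type) [CommRing A] (E : Type) [Field E] [Algebra A E] (y w h s : E),
    h ∈ chartClosure A E y → h * w ∈ chartClosure A E y → s ∈ chartClosure A E w →
    ∃ d : ℕ, h ^ d * s ∈ chartClosure A E y

/-- **CUSP-CHART**: the chart facts at the cusps (levels `M` and `M q`). -/
def ModelCuspChartStatement (M q : ℕ) [NeZero M] [NeZero q] : Prop :=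
  ∀ (K₁ : Type) [Field K₁] [Algebra ℚ K₁] [FiniteDimensional ℚ K₁]
    (A₀ : Type) [CommRing A₀] [IsDomain A₀] [IsDiscreteValuationRing A₀]
    [Algebra A₀ K₁] [IsFractionRing A₀ K₁]
    [Algebra A₀ (ModelField K₁ M)] [IsScalarTower A₀ K₁ (ModelField K₁ M)]
    [Algebra A₀ (ModelField K₁ (M * q))] [IsScalarTower A₀ K₁ (ModelField K₁ (M * q))],
    ¬ IsUnit ((q : ℕ) : A₀) →
    (∃ ζ : K₁, IsPrimitiveRoot ζ M) →
    ∀ (ϖ : A₀), Irreducible ϖ →
    ∀ (x' : ModelField K₁ M), (x' : LaurentSeries K₁) = coeffEmb K₁ jq →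
      Transcendental A₀ x'⁻¹ ∧
      Transcendental A₀ (heckeAlphaBar K₁ M q x')⁻¹ ∧
      (∃ n : ℕ, Nonempty (Module.Basis (Fin n) (chartField A₀ (ModelField K₁ M) x'⁻¹)
        (ModelField K₁ M))) ∧
      (∃ n : ℕ, Nonempty (Module.Basis (Fin n)
        (chartField A₀ (ModelField K₁ (M * q)) (heckeAlphaBar K₁ M q x')⁻¹)
        (ModelField K₁ (M * q)))) ∧
      GoodBasis A₀ (ModelField K₁ M) ϖ x'⁻¹ ∧
      BranchHypAt A₀ (ModelField K₁ M) ϖ x'⁻¹ (X : A₀[X]) ∧
      heckeBetaBar K₁ M q x' ∈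
        chartClosure A₀ (ModelField K₁ (M * q)) (heckeAlphaBar K₁ M q x')

/-- **CUSP-GAUSS**: the Gauss valuation ring `V = V_∞` of `q`-expansions of level `M q`:
`V ∩ W⁻¹ V = C(x⁻¹)`, `α⁻¹ V = C'(x'⁻¹)`, `ϖ` is a uniformiser of `V`, Frobenius congruence
`j(t^q) ≡ j(t)^q`, and FRAC (the residue field of `V` is generated by level `M`). -/
def ModelCuspGaussStatement (M q : ℕ) [NeZero M] [NeZero q] : Prop :=
  ∀ (K₁ : Type) [Field K₁] [Algebra ℚ K₁] [FiniteDimensional ℚ K₁]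
    (A₀ : Type) [CommRing A₀] [IsDomain A₀] [IsDiscreteValuationRing A₀]
    [Algebra A₀ K₁] [IsFractionRing A₀ K₁]
    [Algebra A₀ (ModelField K₁ M)] [IsScalarTower A₀ K₁ (ModelField K₁ M)]
    [Algebra A₀ (ModelField K₁ (M * q))] [IsScalarTower A₀ K₁ (ModelField K₁ (M * q))],
    ¬ IsUnit ((q : ℕ) : A₀) →
    ∀ (ϖ : A₀), Irreducible ϖ →
    ∀ (x' : ModelField K₁ M), (x' : LaurentSeries K₁) = coeffEmb K₁ jq →
    ∀ (W : ModelField K₁ (M * q) ≃ₐ[K₁] ModelField K₁ (M * q)), IsAtkinLehnerModel K₁ M q W →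
    ∃ V : ValuationSubring (ModelField K₁ (M * q)),
      (∀ z : ModelField K₁ (M * q), z ∈ V → W z ∈ V →
        z ∈ gaussClosure A₀ (ModelField K₁ (M * q)) ϖ (heckeAlphaBar K₁ M q x')⁻¹) ∧
      (∀ z ∈ gaussClosure A₀ (ModelField K₁ (M * q)) ϖ (heckeAlphaBar K₁ M q x')⁻¹,
        z ∈ V ∧ W z ∈ V) ∧
      (∀ z' : ModelField K₁ M, heckeAlphaBar K₁ M q z' ∈ V →
        z' ∈ gaussClosure A₀ (ModelField K₁ M) ϖ x'⁻¹) ∧
      (∀ z' ∈ gaussClosure A₀ (ModelField K₁ M) ϖ x'⁻¹, heckeAlphaBar K₁ M q z' ∈ V) ∧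
      algebraMap A₀ (ModelField K₁ (M * q)) ϖ ∈ V.nonunits ∧
      (∀ z ∈ V.nonunits, z / algebraMap A₀ (ModelField K₁ (M * q)) ϖ ∈ V) ∧
      heckeBetaBar K₁ M q x' - heckeAlphaBar K₁ M q x' ^ q ∈ V.nonunits ∧
      (∀ z ∈ V, ∃ z' : ModelField K₁ M, heckeAlphaBar K₁ M q z' ∈ V ∧
        z - heckeAlphaBar K₁ M q z' ∈ V.nonunits)

end Fermat.Agent.H67.SS
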