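import Mathlib

/-!
# P-SS row 649 (SSH-8), part 1a (helper67): the abstract local DVR theorem (Mathlib only)

* `exists_localGenerator` (General lemma G): a noetherian domain `D` of dimension `≤ 1` which is
  integrally closed locally at a nonzero maximal ideal `P` is a discrete valuation ring at `P`;
  elementwise: `P` is locally principal and divisibility is total locally at `P`.
* `localDVR_abstract` : `P → B → O` rings, `p0 ∈ P` prime with `P / p0` a PID, `B` integral over
  `P`, `O / p0 O` a field which is the fraction field of `B / p0 B`, and `B / p0 B` integrally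
  closed in it locally at the maximal ideal `𝔪`.  Then `𝔪 B_𝔪 = (p0, U)` and divisibility modulo
  `p0` is total locally at `𝔪`.
-/

set_option autoImplicit false
set_option linter.style.haveILetI false
set_option linter.unusedSectionVars false

namespace Fermat.Agent.H67.SS

open IsLocalRing Polynomial

/-- **General lemma G** (Mathlib only).  `D` a noetherian domain of dimension `≤ 1` with
fraction field `κ`, `P` a nonzero maximal ideal at which `D` is integrally closed (local form).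
Then `D_P` is a discrete valuation ring; elementwise: `P` is locally principal and the
divisibility relation is total locally at `P`. -/
theorem exists_localGenerator {D : Type*} [CommRing D] [IsDomain D] [IsNoetherianRing D]
    [Ring.DimensionLEOne D]
    {κ : Type*} [Field κ] [Algebra D κ] [IsFractionRing D κ]
    (P : Ideal D) [hP : P.IsMaximal] (hP0 : P ≠ ⊥)
    (hcl : ∀ x : κ, IsIntegral D x →
      ∃ s : D, s ∉ P ∧ ∃ b : D, algebraMap D κ s * x = algebraMap D κ b) :
    ∃ u ∈ P, u ≠ 0 ∧ (∀ s ∈ P, ∃ b : D, b ∉ P ∧ ∃ t : D, b * s = t * u) ∧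
      (∀ a c : D, (∃ t d : D, d ∉ P ∧ d * a = t * c) ∨ (∃ t d : D, d ∉ P ∧ d * c = t * a)) := by
  classical
  haveI : P.IsPrime := hP.isPrime
  let R := Localization.AtPrime P
  have hle : P.primeCompl ≤ nonZeroDivisors D := by
    intro s hs
    exact mem_nonZeroDivisors_of_ne_zero (fun h => hs (h ▸ P.zero_mem))
  haveI : IsDomain R := IsLocalization.isDomain_of_le_nonZeroDivisors R hle
  haveI : IsNoetherianRing R := IsLocalization.isNoetherianRing P.primeCompl R inferInstance
  haveI : Ring.DimensionLEOne R := Ring.DimensionLEOne.localization R hle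
  have hinjR : Function.Injective (algebraMap D R) := IsLocalization.injective R hle
  have hinjκ : Function.Injective (algebraMap D κ) := IsFractionRing.injective D κ
  letI : Algebra R κ := (IsLocalization.lift (M := P.primeCompl) (S := R)
    (g := algebraMap D κ) (fun s => by
      have : (s : D) ≠ 0 := fun h => s.2 (h ▸ P.zero_mem)
      exact IsUnit.mk0 _ ((map_ne_zero_iff _ hinjκ).mpr this))).toAlgebra
  haveI : IsScalarTower D R κ := IsScalarTower.of_algebraMap_eq (fun x => by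
    simp [RingHom.algebraMap_toAlgebra])
  haveI : IsFractionRing R κ :=
    IsFractionRing.isFractionRing_of_isDomain_of_isLocalization P.primeCompl R κ
  -- `R` is integrally closed
  have hic : IsIntegrallyClosed R := by
    rw [isIntegrallyClosed_iff κ]
    intro x hx
    obtain ⟨⟨s, hs⟩, hsx⟩ :=
      IsIntegral.exists_multiple_integral_of_isLocalization P.primeCompl x hx
    obtain ⟨s', hs', b, hb⟩ := hcl _ hsx
    have hss : s' * s ∈ P.primeCompl := P.primeCompl.mul_mem hs' hs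
    refine ⟨IsLocalization.mk' R b ⟨s' * s, hss⟩, ?_⟩
    have h1 := congrArg (algebraMap R κ) (IsLocalization.mk'_spec R b ⟨s' * s, hss⟩)
    rw [map_mul, ← IsScalarTower.algebraMap_apply, ← IsScalarTower.algebraMap_apply] at h1
    have h2 : algebraMap D κ (s' * s) ≠ 0 := by
      rw [map_ne_zero_iff _ hinjκ]
      exact fun h => hss (h ▸ P.zero_mem)
    have h3 : algebraMap D κ (s' * s) * x = algebraMap D κ b := by
      rw [← hb, map_mul, mul_assoc]
      congr 1
      rw [Submonoid.smul_def, Algebra.smul_def]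
    apply mul_right_cancel₀ h2
    rw [h1, ← h3, mul_comm]
  -- `R` is not a field
  have hmax : maximalIdeal R ≠ ⊥ := by
    obtain ⟨p, hp, hp0⟩ := Submodule.exists_mem_ne_zero_of_ne_bot hP0
    intro h
    have h1 : algebraMap D R p ∈ maximalIdeal R :=
      (IsLocalization.AtPrime.to_map_mem_maximal_iff R P p).mpr hp
    rw [h, Ideal.mem_bot] at h1
    exact hp0 (hinjR (by rw [h1, map_zero]))
  have htfae := tfae_of_isNoetherianRing_of_isLocalRing_of_isDomain (R := R)
  have h3 : IsIntegrallyClosed R ∧ ∀ Q : Ideal R, Q ≠ ⊥ → Q.IsPrime → Q = maximalIdeal R :=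
    ⟨hic, fun Q hQ0 hQ => IsLocalRing.eq_maximalIdeal (Ring.DimensionLEOne.maximalOfPrime hQ0 hQ)⟩
  have hprinc : (maximalIdeal R).IsPrincipal := (htfae.out 3 4).mp h3
  have hval : ValuationRing R := (htfae.out 3 1).mp h3
  obtain ⟨ϖR, hϖR⟩ := hprinc.principal
  obtain ⟨u, ⟨s0, hs0⟩, hu⟩ := IsLocalization.exists_mk'_eq P.primeCompl ϖR
  have huR : algebraMap D R u = ϖR * algebraMap D R s0 := by
    rw [← hu, IsLocalization.mk'_spec]
  have hs0u : IsUnit (algebraMap D R s0) := IsLocalization.map_units R ⟨s0, hs0⟩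
  have hspan : maximalIdeal R = Ideal.span {algebraMap D R u} := by
    rw [hϖR, huR]
    exact (Ideal.span_singleton_mul_right_unit hs0u ϖR).symm
  have huP : u ∈ P := by
    rw [← IsLocalization.AtPrime.to_map_mem_maximal_iff R P u, hspan]
    exact Ideal.mem_span_singleton_self _
  refine ⟨u, huP, ?_, ?_, ?_⟩
  · rintro rfl
    apply hmax
    rw [hspan, map_zero, Ideal.span_singleton_eq_bot]
  · intro s hs
    have h1 : algebraMap D R s ∈ Ideal.span {algebraMap D R u} := by
      rw [← hspan]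
      exact (IsLocalization.AtPrime.to_map_mem_maximal_iff R P s).mpr hs
    obtain ⟨r, hr⟩ := Ideal.mem_span_singleton'.mp h1
    obtain ⟨t, ⟨d, hd⟩, htd⟩ := IsLocalization.exists_mk'_eq P.primeCompl r
    refine ⟨d, hd, t, hinjR ?_⟩
    rw [map_mul, map_mul, ← hr, ← htd]
    have := IsLocalization.mk'_spec R t ⟨d, hd⟩
    calc algebraMap D R d * (IsLocalization.mk' R t ⟨d, hd⟩ * algebraMap D R u)
        = (IsLocalization.mk' R t ⟨d, hd⟩ * algebraMap D R d) * algebraMap D R u := by ring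
      _ = algebraMap D R t * algebraMap D R u := by rw [this]
  · intro a c
    obtain ⟨r, hr⟩ := ValuationRing.cond (algebraMap D R a) (algebraMap D R c)
    obtain ⟨t, ⟨d, hd⟩, htd⟩ := IsLocalization.exists_mk'_eq P.primeCompl r
    have hspec := IsLocalization.mk'_spec R t ⟨d, hd⟩
    rcases hr with hr | hr
    · right
      refine ⟨t, d, hd, hinjR ?_⟩
      rw [map_mul, map_mul, ← hr, ← htd]
      calc algebraMap D R d * (algebraMap D R a * IsLocalization.mk' R t ⟨d, hd⟩)
          = (IsLocalization.mk' R t ⟨d, hd⟩ * algebraMap D R d) * algebraMap D R a := by ring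
        _ = algebraMap D R t * algebraMap D R a := by rw [hspec]
    · left
      refine ⟨t, d, hd, hinjR ?_⟩
      rw [map_mul, map_mul, ← hr, ← htd]
      calc algebraMap D R d * (algebraMap D R c * IsLocalization.mk' R t ⟨d, hd⟩)
          = (IsLocalization.mk' R t ⟨d, hd⟩ * algebraMap D R d) * algebraMap D R c := by ring
        _ = algebraMap D R t * algebraMap D R c := by rw [hspec]

/-- **Abstract local DVR theorem.** -/
theorem localDVR_abstract {P B O : Type*} [CommRing P] [CommRing B] [CommRing O]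
    [IsDomain B] [IsNoetherianRing B]
    (ev : P →+* B) (incl : B →+* O) (p0 : P) (hp0 : Prime p0)
    [hPID : IsPrincipalIdealRing (P ⧸ Ideal.span {p0})]
    (hev_int : ∀ b : B, ev.IsIntegralElem b)
    (hev_inj : ∀ p : P, ev p ∈ Ideal.span {ev p0} → p0 ∣ p)
    (hIO : (Ideal.span {incl (ev p0)}).IsMaximal)
    (hT : ∀ b : B, incl b ∈ Ideal.span {incl (ev p0)} → b ∈ Ideal.span {ev p0})
    (hfrac : ∀ c : O, ∃ h b : B, incl h ∉ Ideal.span {incl (ev p0)} ∧ incl h * c = incl b)
    (𝔪 : Ideal B) [h𝔪 : 𝔪.IsMaximal] (hπ : ev p0 ∈ 𝔪) (hne : ∃ s ∈ 𝔪, s ∉ Ideal.span {ev p0})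
    (hcl : ∀ c : O, (∃ q : P[X], q.Monic ∧
        eval₂ (incl.comp ev) c q ∈ Ideal.span {incl (ev p0)}) →
      ∃ s : B, s ∉ 𝔪 ∧ ∃ b : B, incl s * c - incl b ∈ Ideal.span {incl (ev p0)}) :
    ∃ U ∈ 𝔪, U ∉ Ideal.span {ev p0} ∧
      (∀ s ∈ 𝔪, ∃ b : B, b ∉ 𝔪 ∧ ∃ c₁ c₂ : B, b * s = ev p0 * c₁ + U * c₂) ∧
      (∀ a c : B, (∃ t d : B, d ∉ 𝔪 ∧ ∃ e : B, d * a = t * c + ev p0 * e) ∨
        (∃ t d : B, d ∉ 𝔪 ∧ ∃ e : B, d * c = t * a + ev p0 * e)) := by
  classical
  let IB : Ideal B := Ideal.span {ev p0}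
  let IO : Ideal O := Ideal.span {incl (ev p0)}
  let J0 : Ideal P := Ideal.span {p0}
  haveI : IO.IsMaximal := hIO
  letI : Field (O ⧸ IO) := Ideal.Quotient.field IO
  have hle : IB ≤ IO.comap incl := by
    rw [Ideal.span_le, Set.singleton_subset_iff]
    exact Ideal.subset_span rfl
  let φ : B ⧸ IB →+* O ⧸ IO := Ideal.quotientMap IO incl hle
  have hφinj : Function.Injective φ := Ideal.quotientMap_injective' (fun b hb => hT b hb)
  letI : Algebra (B ⧸ IB) (O ⧸ IO) := φ.toAlgebra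
  haveI : IsDomain (B ⧸ IB) := hφinj.isDomain φ
  haveI : FaithfulSMul (B ⧸ IB) (O ⧸ IO) :=
    (faithfulSMul_iff_algebraMap_injective _ _).mpr hφinj
  -- fraction field
  haveI : IsFractionRing (B ⧸ IB) (O ⧸ IO) := by
    apply IsFractionRing.of_field
    intro z
    obtain ⟨c, rfl⟩ := Ideal.Quotient.mk_surjective z
    obtain ⟨h, b, hh, hhc⟩ := hfrac c
    refine ⟨Ideal.Quotient.mk IB b, Ideal.Quotient.mk IB h, ?_⟩
    have h1 : algebraMap (B ⧸ IB) (O ⧸ IO) (Ideal.Quotient.mk IB h)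
        = Ideal.Quotient.mk IO (incl h) := rfl
    have h2 : algebraMap (B ⧸ IB) (O ⧸ IO) (Ideal.Quotient.mk IB b)
        = Ideal.Quotient.mk IO (incl b) := rfl
    have h3 : Ideal.Quotient.mk IO (incl h) ≠ 0 := by
      rw [Ne, Ideal.Quotient.eq_zero_iff_mem]
      exact hh
    rw [h1, h2, eq_div_iff h3, ← map_mul, mul_comm, hhc]
  -- dimension
  haveI : J0.IsPrime := (Ideal.span_singleton_prime hp0.ne_zero).mpr hp0
  have hle0 : J0 ≤ IB.comap ev := by
    rw [Ideal.span_le, Set.singleton_subset_iff]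
    exact Ideal.subset_span rfl
  let ψ : P ⧸ J0 →+* B ⧸ IB := Ideal.quotientMap IB ev hle0
  have hψinj : Function.Injective ψ :=
    Ideal.quotientMap_injective' (fun p hp => Ideal.mem_span_singleton.mpr (hev_inj p hp))
  letI : Algebra (P ⧸ J0) (B ⧸ IB) := ψ.toAlgebra
  haveI : FaithfulSMul (P ⧸ J0) (B ⧸ IB) :=
    (faithfulSMul_iff_algebraMap_injective _ _).mpr hψinj
  haveI : Algebra.IsIntegral (P ⧸ J0) (B ⧸ IB) := by
    refine ⟨fun d => ?_⟩
    obtain ⟨b, rfl⟩ := Ideal.Quotient.mk_surjective d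
    obtain ⟨q, hq, hqb⟩ := hev_int b
    refine ⟨q.map (Ideal.Quotient.mk J0), hq.map _, ?_⟩
    rw [Polynomial.eval₂_map]
    have hcomp : (algebraMap (P ⧸ J0) (B ⧸ IB)).comp (Ideal.Quotient.mk J0)
        = (Ideal.Quotient.mk IB).comp ev := by
      ext p
      rfl
    rw [hcomp, ← Polynomial.hom_eval₂, hqb, map_zero]
  haveI : Ring.DimensionLEOne (B ⧸ IB) := Ring.DimensionLEOne.of_isIntegral (P ⧸ J0) (B ⧸ IB)
  letI : Algebra (P ⧸ J0) (O ⧸ IO) := (φ.comp ψ).toAlgebra
  haveI : IsScalarTower (P ⧸ J0) (B ⧸ IB) (O ⧸ IO) :=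
    IsScalarTower.of_algebraMap_eq (fun _ => rfl)
  -- the maximal ideal of `D`
  let Pq : Ideal (B ⧸ IB) := 𝔪.map (Ideal.Quotient.mk IB)
  have hIB𝔪 : IB ≤ 𝔪 := by
    rw [Ideal.span_le, Set.singleton_subset_iff]
    exact hπ
  have hPqmem : ∀ s : B, Ideal.Quotient.mk IB s ∈ Pq ↔ s ∈ 𝔪 := by
    intro s
    constructor
    · intro hs
      obtain ⟨s', hs', hss'⟩ :=
        (Ideal.mem_map_iff_of_surjective _ Ideal.Quotient.mk_surjective).mp hs
      have h1 : s - s' ∈ IB := by
        rw [← Ideal.Quotient.eq_zero_iff_mem, map_sub, hss', sub_self]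
      have h2 : s = (s - s') + s' := by ring
      rw [h2]
      exact 𝔪.add_mem (hIB𝔪 h1) hs'
    · intro hs
      exact Ideal.mem_map_of_mem _ hs
  haveI hPqmax : Pq.IsMaximal :=
    Ideal.IsMaximal.map_of_surjective_of_ker_le Ideal.Quotient.mk_surjective
      (by rw [Ideal.mk_ker]; exact hIB𝔪)
  have hPq0 : Pq ≠ ⊥ := by
    obtain ⟨s, hs, hsI⟩ := hne
    intro h
    have h1 : Ideal.Quotient.mk IB s ∈ Pq := (hPqmem s).mpr hs
    rw [h, Ideal.mem_bot, Ideal.Quotient.eq_zero_iff_mem] at h1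
    exact hsI h1
  -- local integral closedness
  have hclD : ∀ x : O ⧸ IO, IsIntegral (B ⧸ IB) x →
      ∃ s : B ⧸ IB, s ∉ Pq ∧ ∃ b : B ⧸ IB,
        algebraMap (B ⧸ IB) (O ⧸ IO) s * x = algebraMap (B ⧸ IB) (O ⧸ IO) b := by
    intro x hx
    obtain ⟨c, rfl⟩ := Ideal.Quotient.mk_surjective x
    have hx0 : IsIntegral (P ⧸ J0) (Ideal.Quotient.mk IO c) := isIntegral_trans _ hx
    obtain ⟨q0, hq0m, hq0⟩ := hx0
    have hlift : q0 ∈ Polynomial.lifts (Ideal.Quotient.mk J0) := by
      rw [Polynomial.lifts_iff_coeff_lifts]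
      intro n
      exact Ideal.Quotient.mk_surjective _
    obtain ⟨q, hq, -, hqm⟩ := Polynomial.lifts_and_degree_eq_and_monic hlift hq0m
    have hcomp : (algebraMap (P ⧸ J0) (O ⧸ IO)).comp (Ideal.Quotient.mk J0)
        = (Ideal.Quotient.mk IO).comp (incl.comp ev) := by
      ext p
      rfl
    have hmem : eval₂ (incl.comp ev) c q ∈ IO := by
      rw [← Ideal.Quotient.eq_zero_iff_mem, Polynomial.hom_eval₂, ← hcomp, ← hq0, ← hq,
        Polynomial.eval₂_map]
    obtain ⟨s, hs, b, hsb⟩ := hcl c ⟨q, hqm, hmem⟩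
    refine ⟨Ideal.Quotient.mk IB s, fun h => hs ((hPqmem s).mp h), Ideal.Quotient.mk IB b, ?_⟩
    have h1 : algebraMap (B ⧸ IB) (O ⧸ IO) (Ideal.Quotient.mk IB s)
        = Ideal.Quotient.mk IO (incl s) := rfl
    have h2 : algebraMap (B ⧸ IB) (O ⧸ IO) (Ideal.Quotient.mk IB b)
        = Ideal.Quotient.mk IO (incl b) := rfl
    rw [h1, h2, ← map_mul, ← sub_eq_zero, ← map_sub, Ideal.Quotient.eq_zero_iff_mem]
    exact hsb
  obtain ⟨u, hu, hu0, hreg, hval⟩ := exists_localGenerator Pq hPq0 hclD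
  obtain ⟨U, rfl⟩ := Ideal.Quotient.mk_surjective u
  refine ⟨U, (hPqmem U).mp hu, ?_, ?_, ?_⟩
  · intro hU
    exact hu0 (Ideal.Quotient.eq_zero_iff_mem.mpr hU)
  · intro s hs
    obtain ⟨b', hb', t', hbt⟩ := hreg _ ((hPqmem s).mpr hs)
    obtain ⟨b, rfl⟩ := Ideal.Quotient.mk_surjective b'
    obtain ⟨t, rfl⟩ := Ideal.Quotient.mk_surjective t'
    refine ⟨b, fun h => hb' ((hPqmem b).mpr h), ?_⟩
    have h1 : b * s - t * U ∈ IB := by
      rw [← Ideal.Quotient.eq_zero_iff_mem, map_sub, map_mul, map_mul, hbt, sub_self]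
    obtain ⟨c₁, hc₁⟩ := Ideal.mem_span_singleton'.mp h1
    refine ⟨c₁, t, ?_⟩
    linear_combination -hc₁
  · intro a c
    rcases hval (Ideal.Quotient.mk IB a) (Ideal.Quotient.mk IB c) with
      ⟨t', d', hd', h⟩ | ⟨t', d', hd', h⟩
    · left
      obtain ⟨d, rfl⟩ := Ideal.Quotient.mk_surjective d'
      obtain ⟨t, rfl⟩ := Ideal.Quotient.mk_surjective t'
      refine ⟨t, d, fun hd => hd' ((hPqmem d).mpr hd), ?_⟩
      have h1 : d * a - t * c ∈ IB := by
        rw [← Ideal.Quotient.eq_zero_iff_mem, map_sub, map_mul, map_mul, h, sub_self]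
      obtain ⟨e, he⟩ := Ideal.mem_span_singleton'.mp h1
      exact ⟨e, by linear_combination -he⟩
    · right
      obtain ⟨d, rfl⟩ := Ideal.Quotient.mk_surjective d'
      obtain ⟨t, rfl⟩ := Ideal.Quotient.mk_surjective t'
      refine ⟨t, d, fun hd => hd' ((hPqmem d).mpr hd), ?_⟩
      have h1 : d * c - t * a ∈ IB := by
        rw [← Ideal.Quotient.eq_zero_iff_mem, map_sub, map_mul, map_mul, h, sub_self]
      obtain ⟨e, he⟩ := Ideal.mem_span_singleton'.mp h1
      exact ⟨e, by linear_combination -he⟩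

end Fermat.Agent.H67.SS
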