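import Mathlib
import Fermat.Agent.H22.ES.KLSetting
import Fermat.Agent.H22.ES.KLSetting2
import Fermat.Agent.H87.KL.KumGauss
import Fermat.Agent.H34.KL.LemmaT
import Fermat.Agent.H85.KLChart
import Fermat.Agent.H89.KLGauss
import Fermat.Agent.H91.KLNorm.PurityFull
import Fermat.Agent.H67.SS.LocalDVRAbs

/-!
# P-SS row 649 (SSH-8), part 1b (helper67): LOCAL DVR in the chart language of `H22.KL`

Abstract KL setting: `A` a DVR, `E` finite over `K₀(y)`, `B = B(y)`, `C = C(y)`.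
Hypotheses: `hMax` (`C` is a valuation ring with maximal ideal `ϖ C`, i.e. the special fibre of
the chart is irreducible) and `hNorm` (the conclusion of
`Fermat.Agent.H91.KLNorm.NormalityAtFullStatement` at the maximal ideal `(ϖ, g(y))`).
Conclusion (`localDVR`): at every maximal ideal `𝔪` of `B` over `(ϖ, g(y))` there is `U ∈ 𝔪`,
`U ∉ ϖ B`, with `𝔪 B_𝔪 = (ϖ, U)` (`RegParam`), and divisibility modulo `ϖ` is total locally
at `𝔪` (`ValAt`): `(B / ϖ B)_𝔪` is a discrete valuation ring.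
-/

set_option autoImplicit false
set_option linter.style.haveILetI false
set_option linter.unusedSectionVars false

noncomputable section

namespace Fermat.Agent.H67.SS

open Polynomial
open Fermat.Agent.H22.KL
open Fermat.Agent.H67.KLConn (PiDvd)
open Fermat.Agent.H87.KL (evX IntX GC)
open IsLocalRing

section Setup

variable {A : Type} [CommRing A] [IsDomain A] [IsDiscreteValuationRing A]
  {E : Type} [Field E] [Algebra A E] [CharZero E]

/-- evaluation `A[X] → B(y)` -/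
def evB (y : E) : A[X] →+* ↥(chartClosure A E y) :=
  (evX (A := A) y).codRestrict (chartClosure A E y).toSubring (fun p =>
    Fermat.Agent.H89.klg_chartRing_le_chartClosure y (Fermat.Agent.H87.KL.aeval_mem_chartRing y p))

@[simp] theorem evB_coe (y : E) (p : A[X]) : ((evB (A := A) y p : ↥(chartClosure A E y)) : E)
    = aeval y p := rfl

theorem evB_C (y : E) (a : A) : evB (A := A) y (C a) = algebraMap A ↥(chartClosure A E y) a := by
  apply Subtype.ext
  simp

/-- every element of `B(y)` is integral over `A[X]` -/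
theorem evB_isIntegral (y : E) (b : ↥(chartClosure A E y)) :
    (evB (A := A) y).IsIntegralElem b := by
  obtain ⟨p, hp, hpb⟩ := (Fermat.Agent.H87.KL.mem_chartClosure_iff y (b : E)).1 b.2
  refine ⟨p, hp, Subtype.ext ?_⟩
  have : ((Polynomial.eval₂ (evB (A := A) y) b p : ↥(chartClosure A E y)) : E)
      = Polynomial.eval₂ (evX (A := A) y) (b : E) p :=
    Polynomial.hom_eval₂ p (evB (A := A) y) (chartClosure A E y).toSubring.subtype b
  rw [this, hpb]
  rfl

/-- `B(y)` is a noetherian ring. -/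
theorem isNoetherianRing_chartClosure {y : E} (hy : Transcendental A y)
    (hfd : ∃ n : ℕ, Nonempty (Module.Basis (Fin n) (chartField A E y) E)) :
    IsNoetherianRing ↥(chartClosure A E y) := by
  classical
  letI : Algebra A[X] ↥(chartClosure A E y) := (evB (A := A) y).toAlgebra
  obtain ⟨s, hs, hspan⟩ := Fermat.Agent.H85.klc_finite' hy hfd
  have hfin : Module.Finite A[X] ↥(chartClosure A E y) := by
    refine ⟨⟨s.attach.image (fun b => (⟨b.1, hs b.1 b.2⟩ : ↥(chartClosure A E y))), ?_⟩⟩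
    rw [eq_top_iff]
    rintro ⟨r, hr⟩ -
    obtain ⟨p, hp⟩ := hspan r hr
    have hr' : (⟨r, hr⟩ : ↥(chartClosure A E y))
        = ∑ b ∈ s.attach, p b.1 • (⟨b.1, hs b.1 b.2⟩ : ↥(chartClosure A E y)) := by
      apply Subtype.ext
      rw [AddSubmonoidClass.coe_finsetSum]
      show r = _
      rw [hp, ← Finset.sum_attach]
      refine Finset.sum_congr rfl (fun b _ => ?_)
      rfl
    rw [hr']
    refine Submodule.sum_mem _ (fun b hb => Submodule.smul_mem _ _ (Submodule.subset_span ?_))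
    exact Finset.mem_coe.mpr (Finset.mem_image.mpr ⟨b, hb, rfl⟩)
  exact IsNoetherianRing.of_finite A[X] ↥(chartClosure A E y)

/-- `B(y) ∩ ϖ B(y)`, polynomial form: `h(y) ∈ ϖ B(y)` implies `ϖ ∣ h`. -/
theorem C_dvd_of_piDvd {ϖ : A} {y : E} (hy : Transcendental A y) (p : A[X])
    (h : PiDvd ϖ (chartClosure A E y) 1 (aeval y p)) : C ϖ ∣ p := by
  obtain ⟨b, hb, hpb⟩ := h
  rw [pow_one, Algebra.smul_def] at hpb
  by_cases hϖ0 : algebraMap A E ϖ = 0
  · have : aeval y p = aeval y (0 : A[X]) := by rw [hpb, hϖ0, zero_mul, map_zero]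
    have hp0 : p = 0 := transcendental_iff_injective.mp hy this
    rw [hp0]; exact dvd_zero _
  have hbF : b ∈ chartField A E y := by
    have h1 : b = aeval y p / algebraMap A E ϖ := by
      rw [hpb]; field_simp
    rw [h1]
    refine (chartField A E y).div_mem ?_ ?_
    · exact Subfield.subset_closure (Fermat.Agent.H87.KL.aeval_mem_chartRing y p)
    · have : algebraMap A E ϖ = aeval y (C ϖ : A[X]) := by rw [aeval_C]
      rw [this]
      exact Subfield.subset_closure (Fermat.Agent.H87.KL.aeval_mem_chartRing y _)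
  have hbR : b ∈ chartRing A E y :=
    Fermat.Agent.H89.klg_mem_chartRing_of_isIntegral hy hbF hb
  obtain ⟨r, hr⟩ := (Fermat.Agent.H87.KL.mem_chartRing_iff y b).1 hbR
  refine ⟨r, transcendental_iff_injective.mp hy ?_⟩
  rw [hpb, map_mul, aeval_C, hr]

/-- The Gauss closure as a subalgebra. -/
def gaussSub (hinj : Function.Injective (algebraMap A E)) {ϖ : A} (hϖ : Irreducible ϖ)
    {y : E} (hy : Transcendental A y) : Subalgebra A E :=
  let h := Fermat.Agent.H89.gaussClosureStatement A E hinj ϖ hϖ y hy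
  { carrier := gaussClosure A E ϖ y
    mul_mem' := fun {a b} ha hb => (h.2.1 a ha b hb).2.1
    add_mem' := fun {a b} ha hb => (h.2.1 a ha b hb).1
    one_mem' := h.1 1 (chartClosure A E y).one_mem
    zero_mem' := h.1 0 (chartClosure A E y).zero_mem
    algebraMap_mem' := fun a => h.1 _ ((chartClosure A E y).algebraMap_mem a) }

theorem mem_gaussSub (hinj : Function.Injective (algebraMap A E)) {ϖ : A} (hϖ : Irreducible ϖ)
    {y : E} (hy : Transcendental A y) (z : E) :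
    z ∈ gaussSub hinj hϖ hy ↔ z ∈ gaussClosure A E ϖ y := Iff.rfl

theorem chartClosure_le_gaussSub (hinj : Function.Injective (algebraMap A E)) {ϖ : A}
    (hϖ : Irreducible ϖ) {y : E} (hy : Transcendental A y) :
    chartClosure A E y ≤ gaussSub hinj hϖ hy :=
  fun z hz => (Fermat.Agent.H89.gaussClosureStatement A E hinj ϖ hϖ y hy).1 z hz

end Setup

section Main

variable {A : Type} [CommRing A] [IsDomain A] [IsDiscreteValuationRing A]
  {E : Type} [Field E] [Algebra A E] [CharZero E]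

/-- the maximal ideal of `B(y)_𝔪` is `(ϖ, U)` (elementwise form). -/
def RegParam (A : Type) [CommRing A] (E : Type) [Field E] [Algebra A E] (ϖ : A) (y : E)
    (𝔪 : Ideal ↥(chartClosure A E y)) (U : ↥(chartClosure A E y)) : Prop :=
  U ∈ 𝔪 ∧ ∀ s ∈ 𝔪, ∃ b : ↥(chartClosure A E y), b ∉ 𝔪 ∧
    ∃ c₁ c₂ : ↥(chartClosure A E y),
      b * s = algebraMap A ↥(chartClosure A E y) ϖ * c₁ + U * c₂

/-- `(B(y) / ϖ B(y))_𝔪` is a valuation ring (elementwise form): of two elements one divides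
the other, locally at `𝔪` and modulo `ϖ`. -/
def ValAt (A : Type) [CommRing A] (E : Type) [Field E] [Algebra A E] (ϖ : A) (y : E)
    (𝔪 : Ideal ↥(chartClosure A E y)) : Prop :=
  ∀ a c : ↥(chartClosure A E y),
    (∃ t d : ↥(chartClosure A E y), d ∉ 𝔪 ∧ ∃ e : ↥(chartClosure A E y),
      d * a = t * c + algebraMap A ↥(chartClosure A E y) ϖ * e) ∨
    (∃ t d : ↥(chartClosure A E y), d ∉ 𝔪 ∧ ∃ e : ↥(chartClosure A E y),
      d * c = t * a + algebraMap A ↥(chartClosure A E y) ϖ * e)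

theorem mem_span_pi_iff {ϖ : A} {y : E} (b : ↥(chartClosure A E y)) :
    b ∈ Ideal.span {algebraMap A ↥(chartClosure A E y) ϖ}
      ↔ PiDvd ϖ (chartClosure A E y) 1 (b : E) := by
  rw [Ideal.mem_span_singleton']
  constructor
  · rintro ⟨a, rfl⟩
    refine ⟨a, a.2, ?_⟩
    rw [pow_one, Algebra.smul_def, mul_comm]
    rfl
  · rintro ⟨r, hr, hbr⟩
    refine ⟨⟨r, hr⟩, Subtype.ext ?_⟩
    rw [hbr, pow_one, Algebra.smul_def, mul_comm]
    rfl

theorem mem_span_pi_gauss_iff (hinj : Function.Injective (algebraMap A E)) {ϖ : A}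
    (hϖ : Irreducible ϖ) {y : E} (hy : Transcendental A y) (c : ↥(gaussSub hinj hϖ hy)) :
    c ∈ Ideal.span {algebraMap A ↥(gaussSub hinj hϖ hy) ϖ}
      ↔ PiDvdSet A E ϖ (gaussClosure A E ϖ y) (c : E) := by
  rw [Ideal.mem_span_singleton']
  constructor
  · rintro ⟨a, rfl⟩
    refine ⟨a, a.2, ?_⟩
    rw [mul_comm]
    rfl
  · rintro ⟨r, hr, hbr⟩
    refine ⟨⟨r, hr⟩, Subtype.ext ?_⟩
    rw [hbr, mul_comm]
    rfl

theorem not_C_dvd_monic {ϖ : A} (hϖ : Irreducible ϖ) {g : A[X]} (hg : g.Monic) :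
    ¬ (C ϖ ∣ g) := by
  rintro ⟨r, hr⟩
  have h1 := congrArg (fun p : A[X] => p.coeff g.natDegree) hr
  simp only [coeff_C_mul] at h1
  rw [hg.coeff_natDegree] at h1
  exact hϖ.not_isUnit (isUnit_of_dvd_one ⟨_, h1⟩)

/-- **P1: LOCAL DVR.** -/
theorem localDVR (hinj : Function.Injective (algebraMap A E)) {ϖ : A} (hϖ : Irreducible ϖ)
    {y : E} (hy : Transcendental A y)
    (hfd : ∃ n : ℕ, Nonempty (Module.Basis (Fin n) (chartField A E y) E))
    (hMax : ∀ z ∈ gaussClosure A E ϖ y, ¬ PiDvdSet A E ϖ (gaussClosure A E ϖ y) z →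
      z⁻¹ ∈ gaussClosure A E ϖ y)
    (g : A[X]) (hgm : g.Monic) (hgirr : Irreducible (g.map (IsLocalRing.residue A)))
    (hNorm : ∀ z ∈ gaussClosure A E ϖ y, Fermat.Agent.H91.KLNorm.IntModPi A E ϖ y z →
      ∃ s : A[X], OutsideMax A ϖ g s ∧ ∃ b ∈ chartClosure A E y,
        PiDvdSet A E ϖ (gaussClosure A E ϖ y) (aeval y s * z - b))
    (𝔪 : Ideal ↥(chartClosure A E y)) (h𝔪 : 𝔪.IsMaximal)
    (hπ𝔪 : algebraMap A ↥(chartClosure A E y) ϖ ∈ 𝔪) (hg𝔪 : evB (A := A) y g ∈ 𝔪) :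
    ∃ U : ↥(chartClosure A E y), RegParam A E ϖ y 𝔪 U ∧
      ¬ PiDvd ϖ (chartClosure A E y) 1 (U : E) ∧ ValAt A E ϖ y 𝔪 := by
  classical
  have hBO : chartClosure A E y ≤ gaussSub hinj hϖ hy := chartClosure_le_gaussSub hinj hϖ hy
  let incl : ↥(chartClosure A E y) →+* ↥(gaussSub hinj hϖ hy) :=
    (Subalgebra.inclusion hBO).toRingHom
  have hincl : ∀ b : ↥(chartClosure A E y), ((incl b : ↥(gaussSub hinj hϖ hy)) : E) = (b : E) :=
    fun b => rfl
  obtain ⟨-, -, -, hsat⟩ := Fermat.Agent.H85.chartBasics A E hinj ϖ hϖ y hy hfd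
  have hT := Fermat.Agent.H34.lemmaT A E hinj ϖ hϖ y hy
  have hevp0 : evB (A := A) y (C ϖ) = algebraMap A ↥(chartClosure A E y) ϖ := evB_C y ϖ
  have hinclp0 : incl (evB (A := A) y (C ϖ)) = algebraMap A ↥(gaussSub hinj hϖ hy) ϖ := by
    rw [hevp0]
    exact Subtype.ext rfl
  -- `1 ∉ ϖ C`
  have h1 : ¬ PiDvdSet A E ϖ (gaussClosure A E ϖ y) 1 := by
    intro h
    have h2 := hT 1 (chartClosure A E y).one_mem h
    have h3 : ϖ ∣ 1 := hsat 1 (by rwa [map_one])
    exact hϖ.not_isUnit (isUnit_of_dvd_one h3)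
  have hmemO : ∀ c : ↥(gaussSub hinj hϖ hy),
      c ∈ Ideal.span {incl (evB (A := A) y (C ϖ))}
        ↔ PiDvdSet A E ϖ (gaussClosure A E ϖ y) (c : E) := by
    intro c
    rw [hinclp0]
    exact mem_span_pi_gauss_iff hinj hϖ hy c
  have hmemB : ∀ b : ↥(chartClosure A E y), b ∈ Ideal.span {evB (A := A) y (C ϖ)}
      ↔ PiDvd ϖ (chartClosure A E y) 1 (b : E) := by
    intro b
    rw [hevp0]
    exact mem_span_pi_iff b
  -- `ϖ C` is a maximal ideal of `C`
  have hIOmax : (Ideal.span {incl (evB (A := A) y (C ϖ))}).IsMaximal := by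
    rw [Ideal.isMaximal_iff]
    refine ⟨fun h => h1 ((hmemO 1).1 h), fun J x _ hx hxJ => ?_⟩
    have hx' : ¬ PiDvdSet A E ϖ (gaussClosure A E ϖ y) (x : E) := fun h => hx ((hmemO x).2 h)
    have hxinv := hMax x x.2 hx'
    have hx0 : (x : E) ≠ 0 := by
      intro h0
      apply hx'
      rw [h0]
      exact ⟨0, (gaussSub hinj hϖ hy).zero_mem, by rw [mul_zero]⟩
    have : (1 : ↥(gaussSub hinj hϖ hy)) = x * ⟨(x : E)⁻¹, hxinv⟩ :=
      Subtype.ext (by simp [mul_inv_cancel₀ hx0])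
    rw [this]
    exact J.mul_mem_right _ hxJ
  haveI : IsNoetherianRing ↥(chartClosure A E y) := isNoetherianRing_chartClosure hy hfd
  haveI := Fermat.Agent.H91.KLNorm.isPrincipalIdealRing_quot A hϖ
  have hp0 : Prime (C ϖ : A[X]) := Fermat.Agent.H91.KLNorm.prime_C_of_irreducible A hϖ
  have hev_inj : ∀ p : A[X], evB (A := A) y p ∈ Ideal.span {evB (A := A) y (C ϖ)} →
      (C ϖ : A[X]) ∣ p := by
    intro p hp
    exact C_dvd_of_piDvd hy p ((hmemB _).1 hp)
  have hTT : ∀ b : ↥(chartClosure A E y), incl b ∈ Ideal.span {incl (evB (A := A) y (C ϖ))} →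
      b ∈ Ideal.span {evB (A := A) y (C ϖ)} := by
    intro b hb
    rw [hmemO, hincl] at hb
    exact (hmemB b).2 (hT b b.2 hb)
  have hfrac : ∀ c : ↥(gaussSub hinj hϖ hy), ∃ h b : ↥(chartClosure A E y),
      incl h ∉ Ideal.span {incl (evB (A := A) y (C ϖ))} ∧ incl h * c = incl b := by
    intro c
    obtain ⟨h₀, hh₀, hh₀π, hh₀c⟩ := c.2
    obtain ⟨H, hH⟩ := (Fermat.Agent.H87.KL.mem_chartRing_iff y h₀).1 hh₀
    refine ⟨evB (A := A) y H, ⟨h₀ * (c : E), hh₀c⟩, ?_, Subtype.ext ?_⟩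
    · intro hmem
      have h2 := hev_inj H (hTT _ hmem)
      obtain ⟨H', hH'⟩ := h2
      apply hh₀π
      refine ⟨aeval y H', Fermat.Agent.H87.KL.aeval_mem_chartRing y H', ?_⟩
      rw [pow_one, Algebra.smul_def, ← hH, hH', map_mul, aeval_C]
    · show aeval y H * (c : E) = h₀ * (c : E)
      rw [hH]
  have hπ' : evB (A := A) y (C ϖ) ∈ 𝔪 := by rw [hevp0]; exact hπ𝔪
  have hne : ∃ s ∈ 𝔪, s ∉ Ideal.span {evB (A := A) y (C ϖ)} :=
    ⟨evB (A := A) y g, hg𝔪, fun h => not_C_dvd_monic hϖ hgm (hev_inj g h)⟩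
  -- the contraction of `𝔪` to `A[X]` is `(ϖ, g)`
  have hcomap : ∀ s : A[X], OutsideMax A ϖ g s → evB (A := A) y s ∉ 𝔪 := by
    intro s hs hmem
    rw [Fermat.Agent.H91.KLNorm.outsideMax_iff] at hs
    have hmaxpair := Fermat.Agent.H91.KLNorm.isMaximal_span_pair A hϖ hgirr
    have hle : Ideal.span {(C ϖ : A[X]), g} ≤ 𝔪.comap (evB (A := A) y) := by
      rw [Ideal.span_le]
      rintro p (rfl | rfl)
      · exact hπ'
      · exact hg𝔪
    have hne_top : 𝔪.comap (evB (A := A) y) ≠ ⊤ := by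
      intro htop
      have h1' : (1 : A[X]) ∈ 𝔪.comap (evB (A := A) y) := by rw [htop]; trivial
      rw [Ideal.mem_comap, map_one] at h1'
      exact h𝔪.ne_top ((Ideal.eq_top_iff_one _).2 h1')
    have heq := hmaxpair.eq_of_le hne_top hle
    apply hs
    rw [heq]
    exact hmem
  have hcl : ∀ c : ↥(gaussSub hinj hϖ hy), (∃ q : A[X][X], q.Monic ∧
        eval₂ (incl.comp (evB (A := A) y)) c q ∈ Ideal.span {incl (evB (A := A) y (C ϖ))}) →
      ∃ s : ↥(chartClosure A E y), s ∉ 𝔪 ∧ ∃ b : ↥(chartClosure A E y),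
        incl s * c - incl b ∈ Ideal.span {incl (evB (A := A) y (C ϖ))} := by
    rintro c ⟨q, hqm, hq⟩
    rw [hmemO] at hq
    have hcoe : ((eval₂ (incl.comp (evB (A := A) y)) c q : ↥(gaussSub hinj hϖ hy)) : E)
        = eval₂ (evX (A := A) y) (c : E) q :=
      Polynomial.hom_eval₂ q (incl.comp (evB (A := A) y))
        (gaussSub hinj hϖ hy).toSubring.subtype c
    rw [hcoe] at hq
    obtain ⟨s, hs, b, hb, hsb⟩ := hNorm (c : E) c.2 ⟨q, hqm, hq⟩
    refine ⟨evB (A := A) y s, hcomap s hs, ⟨b, hb⟩, ?_⟩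
    rw [hmemO]
    exact hsb
  obtain ⟨U, hU𝔪, hUπ, hreg, hval⟩ :=
    localDVR_abstract (evB (A := A) y) incl (C ϖ) hp0 (evB_isIntegral y) hev_inj hIOmax hTT hfrac
      𝔪 hπ' hne hcl
  refine ⟨U, ⟨hU𝔪, ?_⟩, fun h => hUπ ((hmemB U).2 h), ?_⟩
  · intro s hs
    obtain ⟨b, hb, c₁, c₂, h⟩ := hreg s hs
    exact ⟨b, hb, c₁, c₂, by rw [h, hevp0]⟩
  · intro a c
    rcases hval a c with ⟨t, d, hd, e, h⟩ | ⟨t, d, hd, e, h⟩
    · exact Or.inl ⟨t, d, hd, e, by rw [h, hevp0]⟩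
    · exact Or.inr ⟨t, d, hd, e, by rw [h, hevp0]⟩

end Main

end Fermat.Agent.H67.SS
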