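import Mathlib
import Fermat.Agent.H41.SS.TubeChart
import Fermat.Agent.H67.SS.LocalDVR

/-!
# P-SS row 649 (SSH-8), part 2 (helper67): TRANSFER of a regular point from level `M` to
level `M q` along one component

Abstract setting: `A` a DVR, `ι : E' → E` an embedding of fields over `A` (level `M` into level
`M q`: `α` or `β`), charts `y' ∈ E'`, `y ∈ E`, `B' = B(y')`, `B = B(y)`, `𝔪` a prime ideal of
`B` containing `ϖ`, `V` a valuation subring of `E` (the Gauss valuation along the component)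
such that

* `hBV`   : `B ⊆ V`, `hϖV : ϖ ∈ 𝔪_V`;
* `hιB`   : `ι(B') ⊆ B_𝔪`;
* `hSEP`  : `(B ∩ 𝔪_V) B_𝔪 = ϖ B_𝔪`  (the point `𝔪` does not lie on another component);
* `hFRAC` : every `s ∈ B` is congruent modulo `𝔪_V` to a quotient of elements of `ι(B')`
  (the residue field of `V` is generated by level `M`);
* at the contraction `𝔪' = ι⁻¹(𝔪 B_𝔪) ∩ B'` (`pullIdeal`) the level `M` model is regular with
  parameter `U'` (`RegParam`), `ι U' ∉ 𝔪_V`, and divisibility modulo `ϖ` is total (`ValAt`).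

Then `𝔪` is a regular point of level `M q` with parameters `(ϖ, u)`, `u = b · ι U'`
(`Fermat.Agent.H41.SS.IsRegularAt`).
-/

set_option autoImplicit false
set_option linter.style.haveILetI false
set_option linter.unusedSectionVars false
set_option linter.unusedVariables false

noncomputable section

namespace Fermat.Agent.H67.SS

open Polynomial
open Fermat.Agent.H22.KL Fermat.Agent.H41.SS
open Fermat.Agent.H67.KLConn (PiDvd)

section Nonunits

variable {E : Type} [Field E] (V : ValuationSubring E)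

theorem nu_add {z w : E} (hz : z ∈ V.nonunits) (hw : w ∈ V.nonunits) : z + w ∈ V.nonunits := by
  rw [ValuationSubring.mem_nonunits_iff] at *
  exact Valuation.map_add_lt _ hz hw

theorem nu_neg {z : E} (hz : z ∈ V.nonunits) : -z ∈ V.nonunits := by
  rw [ValuationSubring.mem_nonunits_iff] at *
  rwa [Valuation.map_neg]

theorem nu_sub {z w : E} (hz : z ∈ V.nonunits) (hw : w ∈ V.nonunits) : z - w ∈ V.nonunits := by
  rw [sub_eq_add_neg]
  exact nu_add V hz (nu_neg V hw)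

theorem nu_mul_left {z w : E} (hw : w ∈ V) (hz : z ∈ V.nonunits) : w * z ∈ V.nonunits := by
  rw [ValuationSubring.mem_nonunits_iff] at *
  rw [map_mul]
  have h1 := (V.valuation_le_one_iff w).2 hw
  calc V.valuation w * V.valuation z ≤ 1 * V.valuation z := by gcongr
    _ = V.valuation z := one_mul _
    _ < 1 := hz

theorem nu_mem {z : E} (hz : z ∈ V.nonunits) : z ∈ V := by
  rw [ValuationSubring.mem_nonunits_iff] at hz
  exact (V.valuation_le_one_iff z).1 hz.le

theorem nu_val_eq_one {c : E} (hc : c ∈ V) (hc' : c ∉ V.nonunits) : V.valuation c = 1 := by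
  rw [ValuationSubring.mem_nonunits_iff, not_lt] at hc'
  exact le_antisymm ((V.valuation_le_one_iff c).2 hc) hc'

theorem nu_inv_mem {c : E} (hc : c ∈ V) (hc' : c ∉ V.nonunits) : c⁻¹ ∈ V := by
  rw [← V.valuation_le_one_iff, map_inv₀, nu_val_eq_one V hc hc', inv_one]

theorem nu_cancel {c z : E} (hc : c ∈ V) (hc' : c ∉ V.nonunits) (h : c * z ∈ V.nonunits) :
    z ∈ V.nonunits := by
  rw [ValuationSubring.mem_nonunits_iff] at h ⊢
  rwa [map_mul, nu_val_eq_one V hc hc', one_mul] at h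

end Nonunits

section Transfer

variable {A : Type} [CommRing A] [IsDomain A] [IsDiscreteValuationRing A]
  {E' : Type} [Field E'] [Algebra A E'] [CharZero E']
  {E : Type} [Field E] [Algebra A E] [CharZero E]

/-- The contraction of `𝔪 B_𝔪` to `B'` along `ι`. -/
def pullIdeal (ι : E' →+* E) (y' : E') (y : E) (𝔪 : Ideal ↥(chartClosure A E y)) [h𝔪 : 𝔪.IsPrime]
    (hιB : ∀ s' : ↥(chartClosure A E' y'), ∃ b : ↥(chartClosure A E y), b ∉ 𝔪 ∧
      (b : E) * ι (s' : E') ∈ chartClosure A E y) : Ideal ↥(chartClosure A E' y') where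
  carrier := {s' | ∃ b t : ↥(chartClosure A E y), b ∉ 𝔪 ∧ t ∈ 𝔪 ∧
    (b : E) * ι (s' : E') = (t : E)}
  add_mem' := by
    rintro r s ⟨b₁, t₁, hb₁, ht₁, h₁⟩ ⟨b₂, t₂, hb₂, ht₂, h₂⟩
    refine ⟨b₁ * b₂, b₂ * t₁ + b₁ * t₂, fun h => ?_, ?_, ?_⟩
    · rcases h𝔪.mem_or_mem h with h | h
      · exact hb₁ h
      · exact hb₂ h
    · exact 𝔪.add_mem (𝔪.mul_mem_left _ ht₁) (𝔪.mul_mem_left _ ht₂)
    · push_cast
      rw [map_add]
      linear_combination (b₂ : E) * h₁ + (b₁ : E) * h₂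
  zero_mem' := ⟨1, 0, fun h => h𝔪.ne_top ((Ideal.eq_top_iff_one _).2 h), 𝔪.zero_mem, by simp⟩
  smul_mem' := by
    rintro r s ⟨b, t, hb, ht, h⟩
    obtain ⟨b₁, hb₁, hr⟩ := hιB r
    refine ⟨b₁ * b, ⟨_, hr⟩ * t, fun h' => ?_, 𝔪.mul_mem_left _ ht, ?_⟩
    · rcases h𝔪.mem_or_mem h' with h' | h'
      · exact hb₁ h'
      · exact hb h'
    · rw [smul_eq_mul]
      push_cast
      rw [map_mul]
      linear_combination (b₁ : E) * ι (r : E') * h

theorem mem_pullIdeal (ι : E' →+* E) (y' : E') (y : E) (𝔪 : Ideal ↥(chartClosure A E y))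
    [h𝔪 : 𝔪.IsPrime]
    (hιB : ∀ s' : ↥(chartClosure A E' y'), ∃ b : ↥(chartClosure A E y), b ∉ 𝔪 ∧
      (b : E) * ι (s' : E') ∈ chartClosure A E y) (s' : ↥(chartClosure A E' y')) :
    s' ∈ pullIdeal ι y' y 𝔪 hιB ↔ ∃ b t : ↥(chartClosure A E y), b ∉ 𝔪 ∧ t ∈ 𝔪 ∧
      (b : E) * ι (s' : E') = (t : E) := Iff.rfl

theorem not_mem_pullIdeal (ι : E' →+* E) (y' : E') (y : E) (𝔪 : Ideal ↥(chartClosure A E y))
    [h𝔪 : 𝔪.IsPrime]
    (hιB : ∀ s' : ↥(chartClosure A E' y'), ∃ b : ↥(chartClosure A E y), b ∉ 𝔪 ∧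
      (b : E) * ι (s' : E') ∈ chartClosure A E y) (s' : ↥(chartClosure A E' y'))
    (hs' : s' ∉ pullIdeal ι y' y 𝔪 hιB) :
    ∃ b t : ↥(chartClosure A E y), b ∉ 𝔪 ∧ t ∉ 𝔪 ∧ (b : E) * ι (s' : E') = (t : E) := by
  obtain ⟨b, hb, hbs⟩ := hιB s'
  exact ⟨b, ⟨_, hbs⟩, hb, fun ht => hs' ⟨b, ⟨_, hbs⟩, hb, ht, rfl⟩, rfl⟩

theorem pullIdeal_isPrime (ι : E' →+* E) (y' : E') (y : E) (𝔪 : Ideal ↥(chartClosure A E y))
    [h𝔪 : 𝔪.IsPrime]
    (hιB : ∀ s' : ↥(chartClosure A E' y'), ∃ b : ↥(chartClosure A E y), b ∉ 𝔪 ∧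
      (b : E) * ι (s' : E') ∈ chartClosure A E y) :
    (pullIdeal ι y' y 𝔪 hιB).IsPrime := by
  refine ⟨?_, ?_⟩
  · intro htop
    have h1 : (1 : ↥(chartClosure A E' y')) ∈ pullIdeal ι y' y 𝔪 hιB := by
      rw [htop]; trivial
    obtain ⟨b, t, hb, ht, h⟩ := h1
    apply hb
    have : b = t := Subtype.ext (by simpa using h)
    rw [this]; exact ht
  · intro r s hrs
    by_contra hcon
    push Not at hcon
    obtain ⟨b₁, t₁, hb₁, ht₁, h₁⟩ := not_mem_pullIdeal ι y' y 𝔪 hιB r hcon.1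
    obtain ⟨b₂, t₂, hb₂, ht₂, h₂⟩ := not_mem_pullIdeal ι y' y 𝔪 hιB s hcon.2
    obtain ⟨b, t, hb, ht, h⟩ := hrs
    have h3 : b * (t₁ * t₂) = b₁ * b₂ * t := by
      apply Subtype.ext
      push_cast at h ⊢
      rw [map_mul] at h
      rw [← h₁, ← h₂, ← h]
      ring
    have h4 : b * (t₁ * t₂) ∈ 𝔪 := by
      rw [h3]; exact 𝔪.mul_mem_left _ ht
    rcases h𝔪.mem_or_mem h4 with h5 | h5
    · exact hb h5
    · rcases h𝔪.mem_or_mem h5 with h6 | h6
      · exact ht₁ h6
      · exact ht₂ h6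

/-- **TRANSFER.** -/
theorem isRegularAt_of_level
    (ι : E' →+* E) (hι : ∀ a : A, ι (algebraMap A E' a) = algebraMap A E a)
    (ϖ : A) (y' : E') (y : E)
    (𝔪 : Ideal ↥(chartClosure A E y)) [h𝔪 : 𝔪.IsPrime]
    (hϖ𝔪 : algebraMap A ↥(chartClosure A E y) ϖ ∈ 𝔪)
    (V : ValuationSubring E)
    (hBV : ∀ s : ↥(chartClosure A E y), (s : E) ∈ V)
    (hϖV : algebraMap A E ϖ ∈ V.nonunits)
    (hιB : ∀ s' : ↥(chartClosure A E' y'), ∃ b : ↥(chartClosure A E y), b ∉ 𝔪 ∧
      (b : E) * ι (s' : E') ∈ chartClosure A E y)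
    (hSEP : ∃ e : ↥(chartClosure A E y), e ∉ 𝔪 ∧ ∀ s : ↥(chartClosure A E y),
      (s : E) ∈ V.nonunits → ∃ c : ↥(chartClosure A E y),
        e * s = algebraMap A ↥(chartClosure A E y) ϖ * c)
    (hFRAC : ∀ s : ↥(chartClosure A E y), ∃ a' c' : ↥(chartClosure A E' y'),
      ι (c' : E') ∉ V.nonunits ∧ ι (c' : E') * (s : E) - ι (a' : E') ∈ V.nonunits)
    (U' : ↥(chartClosure A E' y'))
    (hreg : RegParam A E' ϖ y' (pullIdeal ι y' y 𝔪 hιB) U')
    (hUV : ι (U' : E') ∉ V.nonunits)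
    (hval : ValAt A E' ϖ y' (pullIdeal ι y' y 𝔪 hιB)) :
    ∃ u : ↥(chartClosure A E y), IsRegularAt A E ϖ y 𝔪 u := by
  classical
  obtain ⟨e, he, hsep⟩ := hSEP
  obtain ⟨hU'𝔪, hREG'⟩ := hreg
  -- elements outside `𝔪` are units of `V`
  have hA : ∀ b : ↥(chartClosure A E y), b ∉ 𝔪 → (b : E) ∉ V.nonunits := by
    intro b hb hbV
    obtain ⟨c, hc⟩ := hsep b hbV
    have h1 : e * b ∈ 𝔪 := by rw [hc]; exact 𝔪.mul_mem_right _ hϖ𝔪
    rcases h𝔪.mem_or_mem h1 with h | h
    · exact he h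
    · exact hb h
  -- `ι(B') ⊆ V`
  have hB : ∀ s' : ↥(chartClosure A E' y'), ι (s' : E') ∈ V := by
    intro s'
    obtain ⟨b, hb, hbs⟩ := hιB s'
    have hb0 : (b : E) ≠ 0 := by
      intro h0
      apply hb
      have : b = 0 := Subtype.ext h0
      rw [this]; exact 𝔪.zero_mem
    have h1 : ι (s' : E') = (b : E)⁻¹ * ((b : E) * ι (s' : E')) := by
      field_simp
    rw [h1]
    exact V.mul_mem _ _ (nu_inv_mem V (hBV b) (hA b hb)) (hBV ⟨_, hbs⟩)
  have hιϖ : ∀ s' : ↥(chartClosure A E' y'),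
      ι ((algebraMap A ↥(chartClosure A E' y') ϖ * s' : ↥(chartClosure A E' y')) : E')
        = algebraMap A E ϖ * ι (s' : E') := by
    intro s'
    push_cast
    rw [map_mul]
    congr 1
    exact hι ϖ
  -- the parameter
  obtain ⟨βU, u, hβU, hu𝔪, hβu⟩ := hU'𝔪
  have huV : (u : E) ∉ V.nonunits := by
    intro h
    rw [← hβu] at h
    exact hUV (nu_cancel V (hBV βU) (hA βU hβU) h)
  have h𝔪mul : ∀ a b : ↥(chartClosure A E y), a ∉ 𝔪 → b ∉ 𝔪 → a * b ∉ 𝔪 := by
    intro a b ha hb h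
    rcases h𝔪.mem_or_mem h with h | h
    · exact ha h
    · exact hb h
  -- the core step
  have aux : ∀ z ∈ 𝔪, ∀ t d : ↥(chartClosure A E' y'), d ∉ pullIdeal ι y' y 𝔪 hιB →
      ι (d : E') * (z : E) - ι (t : E') ∈ V.nonunits →
      ∃ s, s ∉ 𝔪 ∧ ∃ b₁ b₂ : ↥(chartClosure A E y),
        s * z = algebraMap A ↥(chartClosure A E y) ϖ * b₁ + u * b₂ := by
    intro z hz t d hd hV
    obtain ⟨bd, τd, hbd, hτd, hd'⟩ := not_mem_pullIdeal ι y' y 𝔪 hιB d hd
    obtain ⟨bt, hbt, hbt'⟩ := hιB t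
    set τt : ↥(chartClosure A E y) := ⟨_, hbt'⟩ with hτt
    have hτt' : (bt : E) * ι (t : E') = (τt : E) := rfl
    -- `w = bt τd z - bd τt ∈ B ∩ 𝔪_V`
    have hw : ((bt * τd * z - bd * τt : ↥(chartClosure A E y)) : E) ∈ V.nonunits := by
      have h1 : ((bt * τd * z - bd * τt : ↥(chartClosure A E y)) : E)
          = ((bt : E) * (bd : E)) * (ι (d : E') * (z : E) - ι (t : E')) := by
        push_cast
        rw [← hd', ← hτt']
        ring
      rw [h1]
      exact nu_mul_left V (V.mul_mem _ _ (hBV bt) (hBV bd)) hV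
    obtain ⟨c, hc⟩ := hsep _ hw
    -- `τt ∈ 𝔪`
    have hτt𝔪 : τt ∈ 𝔪 := by
      have h2 : e * bd * τt = e * bt * τd * z - algebraMap A ↥(chartClosure A E y) ϖ * c := by
        rw [← hc]; ring
      have h3 : e * bd * τt ∈ 𝔪 := by
        rw [h2]
        exact 𝔪.sub_mem (𝔪.mul_mem_left _ hz) (𝔪.mul_mem_right _ hϖ𝔪)
      rcases h𝔪.mem_or_mem h3 with h | h
      · exact absurd h (h𝔪mul _ _ he hbd)
      · exact h
    have ht𝔪' : t ∈ pullIdeal ι y' y 𝔪 hιB := ⟨bt, τt, hbt, hτt𝔪, rfl⟩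
    obtain ⟨b'', hb'', c₁, c₂, hreg⟩ := hREG' t ht𝔪'
    obtain ⟨β'', τ'', hβ'', hτ'', hb''e⟩ := not_mem_pullIdeal ι y' y 𝔪 hιB b'' hb''
    obtain ⟨β₁, hβ₁, hc₁⟩ := hιB c₁
    obtain ⟨β₂, hβ₂, hc₂⟩ := hιB c₂
    set τ₁ : ↥(chartClosure A E y) := ⟨_, hc₁⟩ with hτ₁
    set τ₂ : ↥(chartClosure A E y) := ⟨_, hc₂⟩ with hτ₂
    have hτ₁' : (β₁ : E) * ι (c₁ : E') = (τ₁ : E) := rfl
    have hτ₂' : (β₂ : E) * ι (c₂ : E') = (τ₂ : E) := rfl
    have hregE : ι (b'' : E') * ι (t : E') =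
        algebraMap A E ϖ * ι (c₁ : E') + ι (U' : E') * ι (c₂ : E') := by
      have h0 : ι ((b'' * t : ↥(chartClosure A E' y')) : E') = ι ((algebraMap A
          ↥(chartClosure A E' y') ϖ * c₁ + U' * c₂ : ↥(chartClosure A E' y')) : E') := by
        rw [hreg]
      push_cast at h0
      rw [map_mul, map_add, map_mul, map_mul, hι] at h0
      exact h0
    -- the key identity in `B`
    have hkey : τ'' * τt * (β₁ * β₂ * βU) =
        algebraMap A ↥(chartClosure A E y) ϖ * (τ₁ * (β'' * bt * β₂ * βU))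
          + u * (τ₂ * (β'' * bt * β₁)) := by
      apply Subtype.ext
      push_cast
      rw [← hb''e, ← hτt', ← hτ₁', ← hτ₂', ← hβu]
      linear_combination ((β'' : E) * (bt : E) * (β₁ : E) * (β₂ : E) * (βU : E)) * hregE
    refine ⟨e * bt * τd * (τ'' * (β₁ * β₂ * βU)), ?_, ?_⟩
    · exact h𝔪mul _ _ (h𝔪mul _ _ (h𝔪mul _ _ he hbt) hτd)
        (h𝔪mul _ _ hτ'' (h𝔪mul _ _ (h𝔪mul _ _ hβ₁ hβ₂) hβU))
    · refine ⟨c * (τ'' * (β₁ * β₂ * βU)) + e * bd * (τ₁ * (β'' * bt * β₂ * βU)),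
        e * bd * (τ₂ * (β'' * bt * β₁)), ?_⟩
      have hc' : e * bt * τd * z = e * bd * τt + algebraMap A ↥(chartClosure A E y) ϖ * c := by
        rw [← hc]; ring
      linear_combination (τ'' * (β₁ * β₂ * βU)) * hc' + (e * bd) * hkey
  refine ⟨u, hu𝔪, ?_, ?_⟩
  · -- REG
    intro z hz
    obtain ⟨a', c', hc'V, hac⟩ := hFRAC z
    by_cases ha : ι (a' : E') ∈ V.nonunits
    · -- `z ∈ 𝔪_V`
      have h1 : ι (c' : E') * (z : E) ∈ V.nonunits := by
        have := nu_add V hac ha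
        rwa [sub_add_cancel] at this
      have h2 : (z : E) ∈ V.nonunits := nu_cancel V (hB c') hc'V h1
      obtain ⟨c, hc⟩ := hsep z h2
      exact ⟨e, he, c, 0, by rw [hc]; ring⟩
    · rcases hval a' c' with ⟨t, d, hd, e', h⟩ | ⟨t, d, hd, e', h⟩
      · -- `d a' = t c' + ϖ e'`
        have hE : ι (d : E') * ι (a' : E') = ι (t : E') * ι (c' : E')
            + algebraMap A E ϖ * ι (e' : E') := by
          have h0 : ι ((d * a' : ↥(chartClosure A E' y')) : E') = ι ((t * c' + algebraMap A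
              ↥(chartClosure A E' y') ϖ * e' : ↥(chartClosure A E' y')) : E') := by
            rw [h]
          push_cast at h0
          rw [map_mul, map_add, map_mul, map_mul, hι] at h0
          exact h0
        have h1 : ι (c' : E') * (ι (d : E') * (z : E) - ι (t : E')) ∈ V.nonunits := by
          have h2 : ι (c' : E') * (ι (d : E') * (z : E) - ι (t : E'))
              = ι (d : E') * (ι (c' : E') * (z : E) - ι (a' : E'))
                + ι (e' : E') * algebraMap A E ϖ := by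
            linear_combination hE
          rw [h2]
          exact nu_add V (nu_mul_left V (hB d) hac) (nu_mul_left V (hB e') hϖV)
        exact aux z hz t d hd (nu_cancel V (hB c') hc'V h1)
      · -- `d c' = t a' + ϖ e'`
        have hE : ι (d : E') * ι (c' : E') = ι (t : E') * ι (a' : E')
            + algebraMap A E ϖ * ι (e' : E') := by
          have h0 : ι ((d * c' : ↥(chartClosure A E' y')) : E') = ι ((t * a' + algebraMap A
              ↥(chartClosure A E' y') ϖ * e' : ↥(chartClosure A E' y')) : E') := by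
            rw [h]
          push_cast at h0
          rw [map_mul, map_add, map_mul, map_mul, hι] at h0
          exact h0
        have h1 : ι (a' : E') * (ι (t : E') * (z : E) - ι (d : E')) ∈ V.nonunits := by
          have h2 : ι (a' : E') * (ι (t : E') * (z : E) - ι (d : E'))
              = ι (d : E') * (ι (c' : E') * (z : E) - ι (a' : E'))
                + (-(ι (e' : E') * (z : E))) * algebraMap A E ϖ := by
            linear_combination -(z : E) * hE
          rw [h2]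
          exact nu_add V (nu_mul_left V (hB d) hac)
            (nu_mul_left V (V.neg_mem _ (V.mul_mem _ _ (hB e') (hBV z))) hϖV)
        have h3 : ι (t : E') * (z : E) - ι (d : E') ∈ V.nonunits :=
          nu_cancel V (hB a') ha h1
        by_cases ht : t ∈ pullIdeal ι y' y 𝔪 hιB
        · -- contradiction
          exfalso
          obtain ⟨bt, τt, hbt, hτt, ht'⟩ := ht
          obtain ⟨bd, τd, hbd, hτd, hd'⟩ := not_mem_pullIdeal ι y' y 𝔪 hιB d hd
          have hw : ((bd * τt * z - bt * τd : ↥(chartClosure A E y)) : E) ∈ V.nonunits := by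
            have h4 : ((bd * τt * z - bt * τd : ↥(chartClosure A E y)) : E)
                = ((bt : E) * (bd : E)) * (ι (t : E') * (z : E) - ι (d : E')) := by
              push_cast
              rw [← hd', ← ht']
              ring
            rw [h4]
            exact nu_mul_left V (V.mul_mem _ _ (hBV bt) (hBV bd)) h3
          obtain ⟨c, hc⟩ := hsep _ hw
          have h5 : e * bt * τd = e * bd * τt * z - algebraMap A ↥(chartClosure A E y) ϖ * c := by
            rw [← hc]; ring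
          have h6 : e * bt * τd ∈ 𝔪 := by
            rw [h5]
            exact 𝔪.sub_mem (𝔪.mul_mem_left _ hz) (𝔪.mul_mem_right _ hϖ𝔪)
          exact h𝔪mul _ _ (h𝔪mul _ _ he hbt) hτd h6
        · -- swap the roles
          have h4 : ι (c' : E') * (ι (t : E') * (z : E) - ι (d : E')) ∈ V.nonunits :=
            nu_mul_left V (hB c') h3
          have h5 : ι (t : E') * (z : E) - ι (d : E') ∈ V.nonunits := h3
          exact aux z hz d t ht h5
  · -- TF
    rintro n b ⟨b', hb'⟩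
    have h1 : (u : E) ^ n * (b : E) ∈ V.nonunits := by
      have h2 : (u : E) ^ n * (b : E) = (b' : E) * algebraMap A E ϖ := by
        have h0 : ((u ^ n * b : ↥(chartClosure A E y)) : E)
            = ((algebraMap A ↥(chartClosure A E y) ϖ * b' : ↥(chartClosure A E y)) : E) := by
          rw [hb']
        push_cast at h0
        rw [h0]; ring
      rw [h2]
      exact nu_mul_left V (hBV b') hϖV
    have hun : (u : E) ^ n ∉ V.nonunits := by
      rw [ValuationSubring.mem_nonunits_iff, map_pow, nu_val_eq_one V (hBV u) huV, one_pow]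
      exact lt_irrefl _
    have h3 : (b : E) ∈ V.nonunits := nu_cancel V (pow_mem (hBV u) n) hun h1
    obtain ⟨c, hc⟩ := hsep b h3
    exact ⟨e, he, c, hc⟩

end Transfer

end Fermat.Agent.H67.SS
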