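import Mathlib
import Fermat.Agent.H45.SS.TubeAdapter
import Fermat.Agent.H67.SS.Transfer

/-!
# P-SS row 649 (SSH-8), part 3 (helper67): place generators along one component (abstract)

`placeGenAt_of_level` : the level `M` chart is a discrete valuation ring modulo `ϖ` at the
contraction of `𝔪` (from `localDVR`: irreducible special fibre `hMax'` + normality `hNorm'`),
and the hypotheses of the transfer theorem hold for `(ι, V)`.  Then `PlaceGenAt A E y 𝔪`.
-/

set_option autoImplicit false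
set_option linter.style.haveILetI false
set_option linter.unusedSectionVars false
set_option linter.unusedVariables false

noncomputable section

namespace Fermat.Agent.H67.SS

open Polynomial
open Fermat.Agent.H22.KL Fermat.Agent.H41.SS Fermat.Agent.H45
open Fermat.Agent.H67.KLConn (PiDvd)

section

variable {A : Type} [CommRing A] [IsDomain A] [IsDiscreteValuationRing A]
  {E : Type} [Field E] [Algebra A E] [CharZero E]

/-- A prime ideal of `B(y)` containing `ϖ` and `g(y)` (`g` monic with irreducible reduction) is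
maximal. -/
theorem isMaximal_of_isPrime_of_mem {ϖ : A} (hϖ : Irreducible ϖ) {y : E}
    (g : A[X]) (hgirr : Irreducible (g.map (IsLocalRing.residue A)))
    (𝔭 : Ideal ↥(chartClosure A E y)) [h𝔭 : 𝔭.IsPrime]
    (hϖ𝔭 : algebraMap A ↥(chartClosure A E y) ϖ ∈ 𝔭) (hg𝔭 : evB (A := A) y g ∈ 𝔭) :
    𝔭.IsMaximal := by
  letI : Algebra A[X] ↥(chartClosure A E y) := (evB (A := A) y).toAlgebra
  haveI : Algebra.IsIntegral A[X] ↥(chartClosure A E y) := ⟨fun b => evB_isIntegral y b⟩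
  have hmaxpair := Fermat.Agent.H91.KLNorm.isMaximal_span_pair A hϖ hgirr
  have hle : Ideal.span {(C ϖ : A[X]), g} ≤ 𝔭.comap (algebraMap A[X] ↥(chartClosure A E y)) := by
    rw [Ideal.span_le]
    rintro p (rfl | rfl)
    · show evB (A := A) y (C ϖ) ∈ 𝔭
      rw [evB_C]; exact hϖ𝔭
    · exact hg𝔭
  have hne_top : 𝔭.comap (algebraMap A[X] ↥(chartClosure A E y)) ≠ ⊤ := by
    intro htop
    have h1' : (1 : A[X]) ∈ 𝔭.comap (algebraMap A[X] ↥(chartClosure A E y)) := by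
      rw [htop]; trivial
    rw [Ideal.mem_comap, map_one] at h1'
    exact h𝔭.ne_top ((Ideal.eq_top_iff_one _).2 h1')
  have heq := hmaxpair.eq_of_le hne_top hle
  have hmax : (𝔭.comap (algebraMap A[X] ↥(chartClosure A E y))).IsMaximal := by
    rw [← heq]; exact hmaxpair
  exact Ideal.isMaximal_of_isIntegral_of_isMaximal_comap 𝔭 hmax

end

section

variable {A : Type} [CommRing A] [IsDomain A] [IsDiscreteValuationRing A]
  {E' : Type} [Field E'] [Algebra A E'] [CharZero E']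
  {E : Type} [Field E] [Algebra A E] [CharZero E]

/-- **Place generators along one component** (abstract). -/
theorem placeGenAt_of_level
    (hinj' : Function.Injective (algebraMap A E')) (hinj : Function.Injective (algebraMap A E))
    (ι : E' →+* E) (hι : ∀ a : A, ι (algebraMap A E' a) = algebraMap A E a)
    {ϖ : A} (hϖ : Irreducible ϖ) {y' : E'} {y : E}
    (hy' : Transcendental A y') (hy : Transcendental A y)
    (hfd' : ∃ n : ℕ, Nonempty (Module.Basis (Fin n) (chartField A E' y') E'))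
    (hfd : ∃ n : ℕ, Nonempty (Module.Basis (Fin n) (chartField A E y) E))
    (hMax' : ∀ z ∈ gaussClosure A E' ϖ y', ¬ PiDvdSet A E' ϖ (gaussClosure A E' ϖ y') z →
      z⁻¹ ∈ gaussClosure A E' ϖ y')
    (g : A[X]) (hgm : g.Monic) (hgirr : Irreducible (g.map (IsLocalRing.residue A)))
    (hNorm' : ∀ z ∈ gaussClosure A E' ϖ y', Fermat.Agent.H91.KLNorm.IntModPi A E' ϖ y' z →
      ∃ s : A[X], OutsideMax A ϖ g s ∧ ∃ b ∈ chartClosure A E' y',
        PiDvdSet A E' ϖ (gaussClosure A E' ϖ y') (aeval y' s * z - b))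
    (𝔪 : Ideal ↥(chartClosure A E y)) (h𝔪 : 𝔪.IsMaximal)
    (hϖ𝔪 : algebraMap A ↥(chartClosure A E y) ϖ ∈ 𝔪)
    (V : ValuationSubring E)
    (hBV : ∀ s : ↥(chartClosure A E y), (s : E) ∈ V)
    (hϖV : algebraMap A E ϖ ∈ V.nonunits)
    (hιB : ∀ s' : ↥(chartClosure A E' y'), ∃ b : ↥(chartClosure A E y), b ∉ 𝔪 ∧
      (b : E) * ι (s' : E') ∈ chartClosure A E y)
    (hSEP : ∃ e : ↥(chartClosure A E y), e ∉ 𝔪 ∧ ∀ s : ↥(chartClosure A E y),
      (s : E) ∈ V.nonunits → ∃ c : ↥(chartClosure A E y),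
        e * s = algebraMap A ↥(chartClosure A E y) ϖ * c)
    (hFRAC : ∀ s : ↥(chartClosure A E y), ∃ a' c' : ↥(chartClosure A E' y'),
      ι (c' : E') ∉ V.nonunits ∧ ι (c' : E') * (s : E) - ι (a' : E') ∈ V.nonunits)
    (hINJ : ∀ s' : ↥(chartClosure A E' y'), ι (s' : E') ∈ V.nonunits →
      PiDvd ϖ (chartClosure A E' y') 1 (s' : E'))
    (hg𝔪 : ∃ b t : ↥(chartClosure A E y), b ∉ 𝔪 ∧ t ∈ 𝔪 ∧ (b : E) * ι (aeval y' g) = (t : E)) :
    PlaceGenAt A E y 𝔪 := by
  haveI h𝔪p : 𝔪.IsPrime := h𝔪.isPrime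
  haveI hp' := pullIdeal_isPrime ι y' y 𝔪 hιB
  have hϖ' : algebraMap A ↥(chartClosure A E' y') ϖ ∈ pullIdeal ι y' y 𝔪 hιB := by
    refine ⟨1, algebraMap A ↥(chartClosure A E y) ϖ,
      fun h => h𝔪p.ne_top ((Ideal.eq_top_iff_one _).2 h), hϖ𝔪, ?_⟩
    show ((1 : ↥(chartClosure A E y)) : E) * ι (algebraMap A E' ϖ) = algebraMap A E ϖ
    rw [hι]; simp
  have hg' : evB (A := A) y' g ∈ pullIdeal ι y' y 𝔪 hιB := hg𝔪
  have hmax' : (pullIdeal ι y' y 𝔪 hιB).IsMaximal :=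
    isMaximal_of_isPrime_of_mem hϖ g hgirr _ hϖ' hg'
  obtain ⟨U', hreg, hUπ, hval⟩ :=
    localDVR hinj' hϖ hy' hfd' hMax' g hgm hgirr hNorm' _ hmax' hϖ' hg'
  have hUV : ι (U' : E') ∉ V.nonunits := fun h => hUπ (hINJ U' h)
  obtain ⟨u, hu⟩ := isRegularAt_of_level ι hι ϖ y' y 𝔪 hϖ𝔪 V hBV hϖV hιB hSEP hFRAC U'
    hreg hUV hval
  have htube := isTubeCoordAt_of_isRegularAt hinj ϖ hϖ y hy hfd 𝔪 h𝔪p hϖ𝔪 u hu
  exact placeGenAt_of_tube hinj ϖ hϖ y 𝔪 h𝔪 hϖ𝔪 u hu.1 htube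

end

end Fermat.Agent.H67.SS
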