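import Mathlib
import Fermat.Agent.H67.SS.CuspAbs
import Fermat.Agent.H31.SS.Separate
import Fermat.Agent.H70.KL.TameCover
import Fermat.Agent.H34.KL.LemmaT

/-!
# P-SS row 649 (SSH-8), part 4 (helper67): a cuspidal point on ONE component (abstract)

Setting: `A` a DVR, `ι : E' → E` a ring homomorphism of fields over `A` (level `M` into level
`M q`: `α` on the component `∞`, `β` on the component `0`), charts `y' ∈ E'`, `y ∈ E`;
`V₁, V₂` valuation subrings of `E` with `V₁ ∩ V₂ ⊆ C(y)`, both containing `B(y)`, both with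
uniformiser `ϖ`; `ι⁻¹ V₁ = C'(y')`; FRAC for `(ι, V₁)`; good basis and branch hypothesis of level
`M` at the point `y' = 0`.

`placeGenAt_component` : at a maximal ideal `𝔪 ∋ ϖ` of `B(y)` with `ι(B') ⊆ B_𝔪`,
`ι y' ∈ 𝔪 B_𝔪`, and some `e ∈ B ∖ 𝔪` in the centre of `V₂`: `PlaceGenAt A E y 𝔪`.
-/

set_option autoImplicit false
set_option linter.style.haveILetI false
set_option linter.unusedSectionVars false
set_option linter.unusedVariables false

noncomputable section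

namespace Fermat.Agent.H67.SS

open Polynomial
open Fermat.Agent.H22.KL Fermat.Agent.H41.SS Fermat.Agent.H45
open Fermat.Agent.H87.KL (evX IntX)
open Fermat.Agent.H67.KLConn (PiDvd)

section

variable {A : Type} [CommRing A]
  {E' : Type} [Field E'] [Algebra A E']
  {E : Type} [Field E] [Algebra A E]

/-- `ι ∘ ev_{y'} = ev_{ι y'}`. -/
theorem comp_evX (ι : E' →+* E) (hι : ∀ a : A, ι (algebraMap A E' a) = algebraMap A E a)
    (y' : E') : ι.comp (evX (A := A) y') = evX (A := A) (ι y') := by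
  apply Polynomial.ringHom_ext
  · intro a
    show ι (aeval y' (C a)) = aeval (ι y') (C a)
    rw [aeval_C, aeval_C, hι]
  · show ι (aeval y' X) = aeval (ι y') X
    rw [aeval_X, aeval_X]

/-- Integrality over `A[y']` is transported by `ι`. -/
theorem map_mem_chartClosure (ι : E' →+* E)
    (hι : ∀ a : A, ι (algebraMap A E' a) = algebraMap A E a) {y' s' : E'}
    (hs : s' ∈ chartClosure A E' y') : ι s' ∈ chartClosure A E (ι y') := by
  rw [Fermat.Agent.H87.KL.mem_chartClosure_iff] at hs ⊢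
  obtain ⟨p, hpm, hp⟩ := hs
  refine ⟨p, hpm, ?_⟩
  rw [← comp_evX ι hι y', ← Polynomial.hom_eval₂, hp, map_zero]

end

section

variable {A : Type} [CommRing A] [IsDomain A] [IsDiscreteValuationRing A]
  {E' : Type} [Field E'] [Algebra A E'] [CharZero E']
  {E : Type} [Field E] [Algebra A E] [CharZero E]

/-- (MAX) the Gauss closure of level `M` modulo `ϖ` is a field. -/
theorem hMax_of_val (hinj' : Function.Injective (algebraMap A E'))
    (ι : E' →+* E) (hι : ∀ a : A, ι (algebraMap A E' a) = algebraMap A E a)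
    {ϖ : A} (hϖ : Irreducible ϖ) {y' : E'} (V : ValuationSubring E)
    (hdiv : ∀ z ∈ V.nonunits, z / algebraMap A E ϖ ∈ V)
    (hGC' : ∀ z' ∈ gaussClosure A E' ϖ y', ι z' ∈ V)
    (hQ' : ∀ z' : E', ι z' ∈ V → z' ∈ gaussClosure A E' ϖ y')
    (z : E') (hz : z ∈ gaussClosure A E' ϖ y')
    (hnd : ¬ PiDvdSet A E' ϖ (gaussClosure A E' ϖ y') z) :
    z⁻¹ ∈ gaussClosure A E' ϖ y' := by
  have hϖ0 : algebraMap A E' ϖ ≠ 0 := fun h => hϖ.ne_zero (hinj' (by rw [h, map_zero]))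
  have hzV := hGC' z hz
  by_cases hnu : ι z ∈ V.nonunits
  · exfalso
    apply hnd
    refine ⟨z / algebraMap A E' ϖ, hQ' _ ?_, ?_⟩
    · rw [map_div₀, hι]
      exact hdiv _ hnu
    · field_simp
  · apply hQ'
    rw [map_inv₀]
    exact nu_inv_mem V hzV hnu

/-- (INJ) an element of `B(y')` whose image is a non-unit of `V` is divisible by `ϖ`. -/
theorem hINJ_of_val (hinj' : Function.Injective (algebraMap A E'))
    (ι : E' →+* E) (hι : ∀ a : A, ι (algebraMap A E' a) = algebraMap A E a)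
    {ϖ : A} (hϖ : Irreducible ϖ) {y' : E'} (hy' : Transcendental A y')
    (V : ValuationSubring E)
    (hdiv : ∀ z ∈ V.nonunits, z / algebraMap A E ϖ ∈ V)
    (hQ' : ∀ z' : E', ι z' ∈ V → z' ∈ gaussClosure A E' ϖ y')
    (s' : ↥(chartClosure A E' y')) (hs : ι (s' : E') ∈ V.nonunits) :
    PiDvd ϖ (chartClosure A E' y') 1 (s' : E') := by
  have hϖ0 : algebraMap A E' ϖ ≠ 0 := fun h => hϖ.ne_zero (hinj' (by rw [h, map_zero]))
  refine Fermat.Agent.H34.lemmaT A E' hinj' ϖ hϖ y' hy' _ s'.2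
    ⟨(s' : E') / algebraMap A E' ϖ, hQ' _ ?_, ?_⟩
  · rw [map_div₀, hι]
    exact hdiv _ hs
  · field_simp

/-- A primitive element of `A[y']` is mapped to a unit of `V`. -/
theorem unit_of_primitive (ι : E' →+* E) {ϖ : A} {y' : E'} (V : ValuationSubring E)
    (hGC' : ∀ z' ∈ gaussClosure A E' ϖ y', ι z' ∈ V)
    (h : E') (hh : h ∈ chartRing A E' y') (hnd : ¬ PiDvd ϖ (chartRing A E' y') 1 h) :
    ι h ∉ V.nonunits := by
  have hh0 : h ≠ 0 := by
    rintro rfl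
    exact hnd ⟨0, (chartRing A E' y').zero_mem, by simp⟩
  have h1 : h⁻¹ ∈ gaussClosure A E' ϖ y' :=
    ⟨h, hh, hnd, by rw [mul_inv_cancel₀ hh0]; exact (chartClosure A E' y').one_mem⟩
  have h2 := hGC' _ h1
  rw [map_inv₀] at h2
  intro h3
  rw [ValuationSubring.mem_nonunits_iff] at h3
  have h4 := (V.valuation_le_one_iff _).2 h2
  rw [map_inv₀] at h4
  have hne : V.valuation (ι h) ≠ 0 := by
    rw [Ne, map_eq_zero]
    exact fun h0 => hh0 ((map_eq_zero ι).1 h0)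
  have h5 : 1 ≤ V.valuation (ι h) := by
    rwa [inv_le_one₀ (zero_lt_iff.2 hne)] at h4
  exact absurd h3 (not_lt.2 h5)

/-- (FRAC) in the form of the transfer theorem. -/
theorem hFRAC_of_val (ι : E' →+* E) {ϖ : A} (hϖ : Irreducible ϖ) {y' : E'}
    (hy' : Transcendental A y') {y : E} (V : ValuationSubring E)
    (hBV : ∀ s : ↥(chartClosure A E y), (s : E) ∈ V)
    (hGC' : ∀ z' ∈ gaussClosure A E' ϖ y', ι z' ∈ V)
    (hQ' : ∀ z' : E', ι z' ∈ V → z' ∈ gaussClosure A E' ϖ y')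
    (hFR : ∀ z ∈ V, ∃ z' : E', ι z' ∈ V ∧ z - ι z' ∈ V.nonunits)
    (s : ↥(chartClosure A E y)) :
    ∃ a' c' : ↥(chartClosure A E' y'),
      ι (c' : E') ∉ V.nonunits ∧ ι (c' : E') * (s : E) - ι (a' : E') ∈ V.nonunits := by
  obtain ⟨z', hz'V, hzz'⟩ := hFR (s : E) (hBV s)
  obtain ⟨h, hh, hnd, hhz⟩ := hQ' z' hz'V
  have hhB : h ∈ chartClosure A E' y' := by
    obtain ⟨H, rfl⟩ := (Fermat.Agent.H87.KL.mem_chartRing_iff y' h).1 hh
    exact etale_aeval_mem_chartClosure A E' y' H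
  refine ⟨⟨h * z', hhz⟩, ⟨h, hhB⟩, unit_of_primitive ι V hGC' h hh hnd, ?_⟩
  have e1 : ι h * (s : E) - ι (h * z') = ι h * ((s : E) - ι z') := by
    rw [map_mul]; ring
  show ι h * (s : E) - ι (h * z') ∈ V.nonunits
  rw [e1]
  refine nu_mul_left V ?_ hzz'
  exact hGC' h (Fermat.Agent.H89.klg_chartClosure_le_gaussClosure hϖ hy' hhB)

/-- **A cuspidal point on one component** (abstract). -/
theorem placeGenAt_component
    (hinj' : Function.Injective (algebraMap A E')) (hinj : Function.Injective (algebraMap A E))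
    (ι : E' →+* E) (hι : ∀ a : A, ι (algebraMap A E' a) = algebraMap A E a)
    {ϖ : A} (hϖ : Irreducible ϖ) {y' : E'} {y : E}
    (hy' : Transcendental A y') (hy : Transcendental A y)
    (hfd' : ∃ n : ℕ, Nonempty (Module.Basis (Fin n) (chartField A E' y') E'))
    (hfd : ∃ n : ℕ, Nonempty (Module.Basis (Fin n) (chartField A E y) E))
    (hGB' : GoodBasis A E' ϖ y') (hBr' : BranchHypAt A E' ϖ y' (X : A[X]))
    (V₁ V₂ : ValuationSubring E)
    (hC : ∀ z : E, z ∈ V₁ → z ∈ V₂ → z ∈ gaussClosure A E ϖ y)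
    (hϖ₁ : ∀ z ∈ V₁.nonunits, z / algebraMap A E ϖ ∈ V₁)
    (hϖ₂ : ∀ z ∈ V₂.nonunits, z / algebraMap A E ϖ ∈ V₂)
    (hB₁ : ∀ s ∈ chartClosure A E y, s ∈ V₁) (hB₂ : ∀ s ∈ chartClosure A E y, s ∈ V₂)
    (hπ₁ : algebraMap A E ϖ ∈ V₁.nonunits)
    (hGC' : ∀ z' ∈ gaussClosure A E' ϖ y', ι z' ∈ V₁)
    (hQ' : ∀ z' : E', ι z' ∈ V₁ → z' ∈ gaussClosure A E' ϖ y')
    (hFR : ∀ z ∈ V₁, ∃ z' : E', ι z' ∈ V₁ ∧ z - ι z' ∈ V₁.nonunits)
    (𝔪 : Ideal ↥(chartClosure A E y)) (h𝔪 : 𝔪.IsMaximal)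
    (hϖ𝔪 : algebraMap A ↥(chartClosure A E y) ϖ ∈ 𝔪)
    (hιB : ∀ s' : ↥(chartClosure A E' y'), ∃ b : ↥(chartClosure A E y), b ∉ 𝔪 ∧
      (b : E) * ι (s' : E') ∈ chartClosure A E y)
    (e : ↥(chartClosure A E y)) (he : (e : E) ∈ V₂.nonunits) (he𝔪 : e ∉ 𝔪)
    (hy𝔪 : ∃ b t : ↥(chartClosure A E y), b ∉ 𝔪 ∧ t ∈ 𝔪 ∧ (b : E) * ι y' = (t : E)) :
    PlaceGenAt A E y 𝔪 := by
  have hgirr : Irreducible ((X : A[X]).map (IsLocalRing.residue A)) := by
    rw [Polynomial.map_X]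
    exact Polynomial.irreducible_X
  refine placeGenAt_of_level hinj' hinj ι hι hϖ hy' hy hfd' hfd
    (hMax_of_val hinj' ι hι hϖ V₁ hϖ₁ hGC' hQ') X monic_X hgirr
    (Fermat.Agent.H70.KL.normalityAtFull A E' hinj' ϖ hϖ y' hy' hGB' X monic_X hgirr hBr')
    𝔪 h𝔪 hϖ𝔪 V₁ (fun s => hB₁ _ s.2) hπ₁ hιB ?_
    (hFRAC_of_val ι hϖ hy' V₁ (fun s => hB₁ _ s.2) hGC' hQ' hFR)
    (hINJ_of_val hinj' ι hι hϖ hy' V₁ hϖ₁ hQ') ?_
  · refine ⟨e, he𝔪, fun s hs => ?_⟩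
    obtain ⟨r, hr, hsz⟩ := Fermat.Agent.H31.SS.piDvd_mul_of_mem_centres hinj ϖ hϖ y hy V₁ V₂
      hC hϖ₁ hϖ₂ hB₁ hB₂ e s he hs
    refine ⟨⟨r, hr⟩, Subtype.ext ?_⟩
    rw [pow_one, Algebra.smul_def] at hsz
    exact hsz
  · obtain ⟨b, t, hb, ht, hbt⟩ := hy𝔪
    refine ⟨b, t, hb, ht, ?_⟩
    rw [aeval_X]
    exact hbt

end

end Fermat.Agent.H67.SS
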