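import Mathlib
import Fermat.Agent.H67.SS.CuspComp
import Fermat.Agent.H67.SS.CuspInterfaces2

/-!
# P-SS row 649 (SSH-8), part 5 (helper67): the ABSTRACT CUSP THEOREM

Setting: `A` a DVR; `α β : E' → E` (the two degeneracy maps, level `M` into level `M q`),
`W` an automorphism of `E` exchanging them; `x' ∈ E'`, `x = α x'`, `x_q = β x'`, charts
`y' = x'⁻¹`, `y = x⁻¹`; `V` a valuation subring of `E` (Gauss valuation at the cusp `∞`) with
`V ∩ W⁻¹ V = C(y)`, `α⁻¹ V = C'(y')`, uniformiser `ϖ`, Frobenius congruence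
`x_q - x ^ q ∈ 𝔪_V`, FRAC; `x_q` integral over `A[x]`, `ρ = y ^ q x_q` integral over `A[y]`;
good basis and branch hypothesis of level `M` at `y' = 0`.

`cuspPlaceGen_abstract` : `PlaceGenAt A E y 𝔪` at every maximal ideal `𝔪 ∋ ϖ, y` of `B(y)`.

* `ρ - 1 ∈ 𝔪` : the point lies on the component `∞`; `placeGenAt_component` with `(α, V)`.
* `ρ - 1 ∉ 𝔪` : the point lies on the component `0`; `placeGenAt_component` with
  `(β, W⁻¹ V)`; here `β (B') ⊆ B_𝔪` only locally (INT-LOC).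
-/

set_option autoImplicit false
set_option linter.style.haveILetI false
set_option linter.unusedSectionVars false
set_option linter.unusedVariables false

noncomputable section

namespace Fermat.Agent.H67.SS

open Polynomial
open Fermat.Agent.H22.KL Fermat.Agent.H41.SS Fermat.Agent.H45
open Fermat.Agent.H87.KL (evX IntX)
open Fermat.Agent.H67.KLConn (PiDvd)

section

variable {A : Type} [CommRing A] [IsDomain A] [IsDiscreteValuationRing A]
  {E : Type} [Field E] [Algebra A E] [CharZero E]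

/-- `y⁻¹ ∈ C(y)`. -/
theorem inv_mem_gaussClosure {ϖ : A} (hϖ : Irreducible ϖ) {y : E} (hy : Transcendental A y) :
    y⁻¹ ∈ gaussClosure A E ϖ y := by
  have hy0 : y ≠ 0 := Fermat.Agent.H89.klg_ne_zero hy
  refine ⟨y, ?_, ?_, ?_⟩
  · exact (Fermat.Agent.H87.KL.mem_chartRing_iff y y).2 ⟨X, aeval_X y⟩
  · intro h
    have h1 : PiDvd ϖ (chartRing A E y) 1 (aeval y (X : A[X])) := by rwa [aeval_X]
    rw [Fermat.Agent.H87.KL.piDvd_aeval_iff hy] at h1
    rw [Polynomial.C_dvd_iff_dvd_coeff] at h1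
    have h2 := h1 1
    rw [coeff_X_one] at h2
    exact hϖ.not_isUnit (isUnit_of_dvd_one h2)
  · rw [mul_inv_cancel₀ hy0]
    exact (chartClosure A E y).one_mem

end

section

variable {A : Type} [CommRing A] [IsDomain A] [IsDiscreteValuationRing A]
  {E' : Type} [Field E'] [Algebra A E'] [CharZero E']
  {E : Type} [Field E] [Algebra A E] [CharZero E]

/-- The abstract cusp theorem, with names for `x`, `x_q`, `y`. -/
theorem cuspPlaceGen_aux
    (hIL : IntLocLeadingStatement) (hIS : IntLocScaleStatement)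
    (hinj' : Function.Injective (algebraMap A E')) (hinj : Function.Injective (algebraMap A E))
    (α β : E' →+* E) (hα : ∀ a : A, α (algebraMap A E' a) = algebraMap A E a)
    (W : E ≃+* E) (hWA : ∀ a : A, W (algebraMap A E a) = algebraMap A E a)
    (hWα : ∀ f, W (α f) = β f) (hWβ : ∀ f, W (β f) = α f)
    {ϖ : A} (hϖ : Irreducible ϖ) (x' : E') (q : ℕ) (hq : 2 ≤ q)
    (x xq y : E) (hxdef : α x' = x) (hxqdef : β x' = xq) (hydef : y = x⁻¹)
    (hy' : Transcendental A x'⁻¹) (hy : Transcendental A y)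
    (hfd' : ∃ n : ℕ, Nonempty (Module.Basis (Fin n) (chartField A E' x'⁻¹) E'))
    (hfd : ∃ n : ℕ, Nonempty (Module.Basis (Fin n) (chartField A E y) E))
    (hGB' : GoodBasis A E' ϖ x'⁻¹) (hBr' : BranchHypAt A E' ϖ x'⁻¹ (X : A[X]))
    (V : ValuationSubring E)
    (hC : ∀ z : E, z ∈ V → W z ∈ V → z ∈ gaussClosure A E ϖ y)
    (hCV : ∀ z ∈ gaussClosure A E ϖ y, z ∈ V ∧ W z ∈ V)
    (hQ' : ∀ z' : E', α z' ∈ V → z' ∈ gaussClosure A E' ϖ x'⁻¹)
    (hGC' : ∀ z' ∈ gaussClosure A E' ϖ x'⁻¹, α z' ∈ V)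
    (hϖV : algebraMap A E ϖ ∈ V.nonunits)
    (hdiv : ∀ z ∈ V.nonunits, z / algebraMap A E ϖ ∈ V)
    (hFrob : xq - x ^ q ∈ V.nonunits)
    (hInt : xq ∈ chartClosure A E x)
    (hRho : y ^ q * xq ∈ chartClosure A E y)
    (hFR : ∀ z ∈ V, ∃ z' : E', α z' ∈ V ∧ z - α z' ∈ V.nonunits)
    (𝔪 : Ideal ↥(chartClosure A E y)) (h𝔪 : 𝔪.IsMaximal)
    (hϖ𝔪 : algebraMap A ↥(chartClosure A E y) ϖ ∈ 𝔪)
    (hy𝔪 : ∀ s : ↥(chartClosure A E y), (s : E) = y → s ∈ 𝔪) :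
    PlaceGenAt A E y 𝔪 := by
  classical
  haveI h𝔪p : 𝔪.IsPrime := h𝔪.isPrime
  have h1𝔪 : (1 : ↥(chartClosure A E y)) ∉ 𝔪 := fun h =>
    h𝔪p.ne_top ((Ideal.eq_top_iff_one _).2 h)
  have hy0 : y ≠ 0 := Fermat.Agent.H89.klg_ne_zero hy
  have hx0 : x ≠ 0 := fun h => hy0 (by rw [hydef, h, inv_zero])
  have hWx : W x = xq := by rw [← hxdef, ← hxqdef]; exact hWα x'
  have hWxq : W xq = x := by rw [← hxdef, ← hxqdef]; exact hWβ x'
  have hxq0 : xq ≠ 0 := by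
    rw [← hWx]
    exact fun h => hx0 ((map_eq_zero W).1 h)
  have hWy : W y = xq⁻¹ := by rw [hydef, map_inv₀, hWx]
  have hβ : ∀ a : A, β (algebraMap A E' a) = algebraMap A E a := by
    intro a
    rw [← hWα, hα, hWA]
  have hαy : α x'⁻¹ = y := by rw [map_inv₀, hxdef, hydef]
  have hβy : β x'⁻¹ = xq⁻¹ := by rw [map_inv₀, hxqdef]
  -- the second valuation ring
  set V₀ : ValuationSubring E := V.comap (W : E →+* E) with hV₀
  have hmem₀ : ∀ z : E, z ∈ V₀ ↔ W z ∈ V := fun z => Iff.rfl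
  have hnu₀ : ∀ z : E, z ∈ V₀.nonunits ↔ W z ∈ V.nonunits := fun z =>
    ss_mem_nonunits_comap W V z
  have hdiv₀ : ∀ z ∈ V₀.nonunits, z / algebraMap A E ϖ ∈ V₀ := by
    intro z hz
    rw [hmem₀, map_div₀, hWA]
    exact hdiv _ ((hnu₀ z).1 hz)
  have hB₁ : ∀ s ∈ chartClosure A E y, s ∈ V := fun s hs =>
    (hCV s (Fermat.Agent.H89.klg_chartClosure_le_gaussClosure hϖ hy hs)).1
  have hB₂ : ∀ s ∈ chartClosure A E y, s ∈ V₀ := fun s hs =>
    (hCV s (Fermat.Agent.H89.klg_chartClosure_le_gaussClosure hϖ hy hs)).2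
  -- `y`, `ρ` as elements of `B`
  have hyB : y ∈ chartClosure A E y := by
    have := etale_aeval_mem_chartClosure A E y (X : A[X])
    rwa [aeval_X] at this
  set yB : ↥(chartClosure A E y) := ⟨y, hyB⟩ with hyBdef
  have hyB𝔪 : yB ∈ 𝔪 := hy𝔪 yB rfl
  set ρ : ↥(chartClosure A E y) := ⟨y ^ q * xq, hRho⟩ with hρdef
  -- units of `V`
  have hyV : y ∈ V := hB₁ y hyB
  have hyqV : xq⁻¹ ∈ V := by
    rw [← hWy]
    exact hB₂ y hyB
  have hyx : y * x = 1 := by rw [hydef]; exact inv_mul_cancel₀ hx0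
  have hyxq : xq⁻¹ * xq = 1 := inv_mul_cancel₀ hxq0
  by_cases hcase : ρ - 1 ∈ 𝔪
  · ---------------- component `∞`
    have hq2 : 0 < q ^ 2 - 1 := by
      have : 4 ≤ q ^ 2 := by nlinarith
      omega
    set eA : ↥(chartClosure A E y) := ρ ^ q - yB ^ (q ^ 2 - 1) with heA
    have heA𝔪 : eA ∉ 𝔪 := by
      intro h
      apply h1𝔪
      have h2 : ρ ^ q - 1 ∈ 𝔪 := by
        obtain ⟨c, hc⟩ := sub_dvd_pow_sub_pow ρ 1 q
        rw [one_pow] at hc
        rw [hc]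
        exact 𝔪.mul_mem_right _ hcase
      have h3 : yB ^ (q ^ 2 - 1) ∈ 𝔪 := Ideal.pow_mem_of_mem 𝔪 hyB𝔪 _ hq2
      have h4 : (1 : ↥(chartClosure A E y)) = eA - (ρ ^ q - 1) + yB ^ (q ^ 2 - 1) := by
        rw [heA]; ring
      rw [h4]
      exact 𝔪.add_mem (𝔪.sub_mem h h2) h3
    have heAV : (eA : E) ∈ V₀.nonunits := by
      rw [hnu₀]
      have e1 : W (eA : E) = -((xq⁻¹) ^ (q ^ 2) * (xq - x ^ q)) := by
        have e2 : (eA : E) = (y ^ q * xq) ^ q - y ^ (q ^ 2 - 1) := rfl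
        rw [e2, map_sub, map_pow, map_mul, map_pow, map_pow, hWy, hWxq]
        have e3 : (xq⁻¹) ^ (q ^ 2 - 1) = (xq⁻¹) ^ (q ^ 2) * xq := by
          have : q ^ 2 = (q ^ 2 - 1) + 1 := by omega
          conv_rhs => rw [this, pow_succ, mul_assoc, hyxq, mul_one]
        rw [e3]
        ring
      rw [e1]
      exact nu_neg V (nu_mul_left V (V.toSubring.pow_mem hyqV _) hFrob)
    refine placeGenAt_component hinj' hinj α hα hϖ hy' hy hfd' hfd hGB' hBr' V V₀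
      (fun z h1 h2 => hC z h1 h2) hdiv hdiv₀ hB₁ hB₂ hϖV hGC' hQ' hFR 𝔪 h𝔪 hϖ𝔪 ?_
      eA heAV heA𝔪 ?_
    · intro s'
      refine ⟨1, h1𝔪, ?_⟩
      have := map_mem_chartClosure α hα s'.2
      rw [hαy] at this
      simpa using this
    · exact ⟨1, yB, h1𝔪, hyB𝔪, by rw [hαy]; simp [hyBdef]⟩
  · ---------------- component `0`
    have hxInt : x ∈ chartClosure A E xq := by
      have := map_mem_chartClosure (W : E →+* E) hWA hInt
      rw [RingEquiv.coe_toRingHom, hWxq, hWx] at this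
      exact this
    obtain ⟨p, hp⟩ := hIL A E x xq hx0 hxq0 hxInt
    rw [← hydef] at hp
    have hhB : 1 + y * aeval y p ∈ chartClosure A E y :=
      (chartClosure A E y).add_mem (chartClosure A E y).one_mem
        ((chartClosure A E y).mul_mem hyB (etale_aeval_mem_chartClosure A E y p))
    set h : ↥(chartClosure A E y) := ⟨1 + y * aeval y p, hhB⟩ with hhdef
    have hh𝔪 : h ∉ 𝔪 := by
      intro hh
      apply h1𝔪
      have e1 : (1 : ↥(chartClosure A E y)) =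
          h - yB * ⟨aeval y p, etale_aeval_mem_chartClosure A E y p⟩ := by
        apply Subtype.ext
        simp [hhdef, hyBdef]
      rw [e1]
      exact 𝔪.sub_mem hh (𝔪.mul_mem_right _ hyB𝔪)
    set u : ↥(chartClosure A E y) := ⟨(1 + y * aeval y p) * xq⁻¹, hp⟩ with hudef
    have hu𝔪 : u ∈ 𝔪 := by
      have hux : (u : E) * xq ∈ chartClosure A E y := by
        have e1 : (u : E) * xq = 1 + y * aeval y p := by
          show (1 + y * aeval y p) * xq⁻¹ * xq = _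
          rw [mul_assoc, hyxq, mul_one]
        rw [e1]
        exact hhB
      obtain ⟨d, hd⟩ := hIS A E y xq (u : E) x u.2 hux hxInt
      have e2 : u ^ d = ⟨(u : E) ^ d * x, hd⟩ * yB := by
        apply Subtype.ext
        show (u : E) ^ d = (u : E) ^ d * x * y
        rw [mul_assoc, mul_comm x y, hyx, mul_one]
      exact h𝔪p.mem_of_pow_mem d (by rw [e2]; exact 𝔪.mul_mem_left _ hyB𝔪)
    set eB : ↥(chartClosure A E y) := ρ - 1 with heB
    have heBV : (eB : E) ∈ V.nonunits := by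
      have e1 : (eB : E) = y ^ q * (xq - x ^ q) := by
        show y ^ q * xq - 1 = _
        rw [mul_sub, ← mul_pow, hyx, one_pow]
      rw [e1]
      exact nu_mul_left V (V.toSubring.pow_mem hyV _) hFrob
    have hπ₀ : algebraMap A E ϖ ∈ V₀.nonunits := by
      rw [hnu₀, hWA]
      exact hϖV
    refine placeGenAt_component hinj' hinj β hβ hϖ hy' hy hfd' hfd hGB' hBr' V₀ V
      (fun z h1 h2 => hC z h2 h1) hdiv₀ hdiv hB₂ hB₁ hπ₀ ?_ ?_ ?_ 𝔪 h𝔪 hϖ𝔪 ?_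
      eB heBV hcase ?_
    · intro z' hz'
      rw [hmem₀, hWβ]
      exact hGC' z' hz'
    · intro z' hz'
      rw [hmem₀, hWβ] at hz'
      exact hQ' z' hz'
    · intro z hz
      obtain ⟨z', hz'V, hzz'⟩ := hFR (W z) hz
      refine ⟨z', ?_, ?_⟩
      · rw [hmem₀, hWβ]
        exact hz'V
      · rw [hnu₀, map_sub, hWβ]
        exact hzz'
    · intro s'
      have hs := map_mem_chartClosure β hβ s'.2
      rw [hβy] at hs
      have hhy : (h : E) * xq⁻¹ ∈ chartClosure A E y := hp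
      obtain ⟨d, hd⟩ := hIS A E y xq⁻¹ (h : E) (β (s' : E')) h.2 hhy hs
      refine ⟨h ^ d, fun hh => hh𝔪 (h𝔪p.mem_of_pow_mem d hh), ?_⟩
      exact hd
    · exact ⟨h, u, hh𝔪, hu𝔪, by rw [hβy]⟩

/-- **THE ABSTRACT CUSP THEOREM.** -/
theorem cuspPlaceGen_abstract
    (hIL : IntLocLeadingStatement) (hIS : IntLocScaleStatement)
    (hinj' : Function.Injective (algebraMap A E')) (hinj : Function.Injective (algebraMap A E))
    (α β : E' →+* E) (hα : ∀ a : A, α (algebraMap A E' a) = algebraMap A E a)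
    (W : E ≃+* E) (hWA : ∀ a : A, W (algebraMap A E a) = algebraMap A E a)
    (hWα : ∀ f, W (α f) = β f) (hWβ : ∀ f, W (β f) = α f)
    {ϖ : A} (hϖ : Irreducible ϖ) (x' : E') (q : ℕ) (hq : 2 ≤ q)
    (hy' : Transcendental A x'⁻¹) (hy : Transcendental A (α x')⁻¹)
    (hfd' : ∃ n : ℕ, Nonempty (Module.Basis (Fin n) (chartField A E' x'⁻¹) E'))
    (hfd : ∃ n : ℕ, Nonempty (Module.Basis (Fin n) (chartField A E (α x')⁻¹) E))
    (hGB' : GoodBasis A E' ϖ x'⁻¹) (hBr' : BranchHypAt A E' ϖ x'⁻¹ (X : A[X]))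
    (V : ValuationSubring E)
    (hC : ∀ z : E, z ∈ V → W z ∈ V → z ∈ gaussClosure A E ϖ (α x')⁻¹)
    (hCV : ∀ z ∈ gaussClosure A E ϖ (α x')⁻¹, z ∈ V ∧ W z ∈ V)
    (hQ' : ∀ z' : E', α z' ∈ V → z' ∈ gaussClosure A E' ϖ x'⁻¹)
    (hGC' : ∀ z' ∈ gaussClosure A E' ϖ x'⁻¹, α z' ∈ V)
    (hϖV : algebraMap A E ϖ ∈ V.nonunits)
    (hdiv : ∀ z ∈ V.nonunits, z / algebraMap A E ϖ ∈ V)
    (hFrob : β x' - α x' ^ q ∈ V.nonunits)
    (hInt : β x' ∈ chartClosure A E (α x'))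
    (hRho : (α x')⁻¹ ^ q * β x' ∈ chartClosure A E (α x')⁻¹)
    (hFR : ∀ z ∈ V, ∃ z' : E', α z' ∈ V ∧ z - α z' ∈ V.nonunits)
    (𝔪 : Ideal ↥(chartClosure A E (α x')⁻¹)) (h𝔪 : 𝔪.IsMaximal)
    (hϖ𝔪 : algebraMap A ↥(chartClosure A E (α x')⁻¹) ϖ ∈ 𝔪)
    (hy𝔪 : ∀ s : ↥(chartClosure A E (α x')⁻¹), (s : E) = (α x')⁻¹ → s ∈ 𝔪) :
    PlaceGenAt A E (α x')⁻¹ 𝔪 :=
  cuspPlaceGen_aux hIL hIS hinj' hinj α β hα W hWA hWα hWβ hϖ x' q hq (α x') (β x') (α x')⁻¹
    rfl rfl rfl hy' hy hfd' hfd hGB' hBr' V hC hCV hQ' hGC' hϖV hdiv hFrob hInt hRho hFR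
    𝔪 h𝔪 hϖ𝔪 hy𝔪

end

end Fermat.Agent.H67.SS
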