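import Mathlib
import Fermat.Agent.H67.SS.CuspCases
import Fermat.Agent.H67.SS.CuspInterfaces
import Fermat.Agent.H67.SS.CuspInterfaces2

/-!
# P-SS row 649 (SSH-8), part 6 (helper67): the CUSP STATEMENT from the leaves

`ssPlaceGenCusp_of` : for a prime `q` (ANY prime),
`IntLocLeadingStatement → IntLocScaleStatement → ModelCuspChartStatement M q →
 ModelCuspGaussStatement M q → ModelCuspRhoStatement M q →
 Fermat.Agent.H45.SSPlaceGenCuspStatement M q jq M`.
-/

set_option autoImplicit false
set_option linter.style.haveILetI false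
set_option linter.unusedSectionVars false
set_option linter.unusedVariables false

noncomputable section

namespace Fermat.Agent.H67.SS

open Polynomial ModularCurve AlgebraicCurve
open Fermat.Agent.H22.KL Fermat.Agent.H82.SS Fermat.Agent.H45

/-- **SSH-8 (CUSPS) from the leaves.** -/
theorem ssPlaceGenCusp_of (M q : ℕ) [NeZero M] [NeZero q] (hq : q.Prime)
    (hIL : IntLocLeadingStatement) (hIS : IntLocScaleStatement)
    (hChart : ModelCuspChartStatement M q) (hGauss : ModelCuspGaussStatement M q)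
    (hRho : ModelCuspRhoStatement M q) :
    SSPlaceGenCuspStatement M q jq M := by
  intro K₁ _ _ _ A₀ _ _ _ _ _ _ _ hqA hζ ϖ hϖ x hx W hW 𝔪 h𝔪 hϖ𝔪 hy𝔪
  -- the algebra structure of level `M`
  letI algM : Algebra A₀ (ModelField K₁ M) :=
    ((algebraMap K₁ (ModelField K₁ M)).comp (algebraMap A₀ K₁)).toAlgebra
  haveI towM : IsScalarTower A₀ K₁ (ModelField K₁ M) :=
    IsScalarTower.of_algebraMap_eq (fun _ => rfl)
  haveI cz : CharZero K₁ := charZero_of_injective_algebraMap (algebraMap ℚ K₁).injective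
  haveI czM : CharZero (ModelField K₁ M) :=
    charZero_of_injective_algebraMap (algebraMap K₁ (ModelField K₁ M)).injective
  haveI czMq : CharZero (ModelField K₁ (M * q)) :=
    charZero_of_injective_algebraMap (algebraMap K₁ (ModelField K₁ (M * q))).injective
  have hφ : Function.Injective (algebraMap A₀ K₁) := IsFractionRing.injective A₀ K₁
  have hinj' : Function.Injective (algebraMap A₀ (ModelField K₁ M)) := by
    rw [IsScalarTower.algebraMap_eq A₀ K₁ (ModelField K₁ M)]
    exact (algebraMap K₁ (ModelField K₁ M)).injective.comp hφ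
  have hinj : Function.Injective (algebraMap A₀ (ModelField K₁ (M * q))) := by
    rw [IsScalarTower.algebraMap_eq A₀ K₁ (ModelField K₁ (M * q))]
    exact (algebraMap K₁ (ModelField K₁ (M * q))).injective.comp hφ
  -- the coordinate of level `M`
  have hjq : jq ∈ modularFunctionFieldFull M := by
    have h := jqd_mem_full M (one_dvd M)
    rwa [qExpand_one_apply] at h
  set x' : ModelField K₁ M := ⟨coeffEmb K₁ jq, coeffEmb_mem_laurentBaseChange K₁ hjq⟩ with hx'def
  have hx' : (x' : LaurentSeries K₁) = coeffEmb K₁ jq := rfl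
  have hxα : x = heckeAlphaBar K₁ M q x' := by
    apply Subtype.ext
    rw [hx, coe_heckeAlphaBar]
  subst hxα
  -- the leaves
  obtain ⟨hy', hy, hfd', hfd, hGB', hBr', hInt⟩ := hChart K₁ A₀ hqA hζ ϖ hϖ x' hx'
  obtain ⟨V, hC, hCV, hQ', hGC', hϖV, hdiv, hFrob, hFR⟩ :=
    hGauss K₁ A₀ hqA ϖ hϖ x' hx' W hW
  have hρ := hRho K₁ A₀ (heckeAlphaBar K₁ M q x') (heckeBetaBar K₁ M q x')
    (by rw [coe_heckeAlphaBar]) (by rw [coe_heckeBetaBar])
  -- compatibility with `A₀`
  have hα : ∀ a : A₀, (heckeAlphaBar K₁ M q : ModelField K₁ M →+* ModelField K₁ (M * q))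
      (algebraMap A₀ (ModelField K₁ M) a) = algebraMap A₀ (ModelField K₁ (M * q)) a := by
    intro a
    rw [IsScalarTower.algebraMap_apply A₀ K₁ (ModelField K₁ M),
      IsScalarTower.algebraMap_apply A₀ K₁ (ModelField K₁ (M * q))]
    exact (heckeAlphaBar K₁ M q).commutes _
  have hWA : ∀ a : A₀, (W : ModelField K₁ (M * q) ≃+* ModelField K₁ (M * q))
      (algebraMap A₀ (ModelField K₁ (M * q)) a) = algebraMap A₀ (ModelField K₁ (M * q)) a := by
    intro a
    rw [IsScalarTower.algebraMap_apply A₀ K₁ (ModelField K₁ (M * q))]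
    exact W.commutes _
  exact cuspPlaceGen_abstract hIL hIS hinj' hinj
    (heckeAlphaBar K₁ M q : ModelField K₁ M →+* ModelField K₁ (M * q))
    (heckeBetaBar K₁ M q : ModelField K₁ M →+* ModelField K₁ (M * q)) hα
    (W : ModelField K₁ (M * q) ≃+* ModelField K₁ (M * q)) hWA
    (fun f => hW.1 f) (fun f => hW.2 f) hϖ x' q hq.two_le hy' hy hfd' hfd hGB' hBr' V
    hC hCV hQ' hGC' hϖV hdiv hFrob hInt hρ hFR 𝔪 h𝔪 hϖ𝔪 hy𝔪

end Fermat.Agent.H67.SS
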