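import Mathlib
import Fermat.Agent.H67.SS.CuspFinal
import Fermat.Agent.H16.SSIntLoc
import Fermat.Agent.H89.SS.CuspGauss
import Fermat.Agent.H42.SS.CuspChart
import Fermat.Agent.H46.SS.CuspRho

/-!
# P-SS row 649 (SSH-8, CUSPS) : the UNCONDITIONAL theorem (helper67)

`ssPlaceGenCusp` : for every prime `q` not dividing `M` (also `q = 2, 3`),
`Fermat.Agent.H45.SSPlaceGenCuspStatement M q jq M` : place generators at every cuspidal maximal
ideal `𝔪 ∋ ϖ, 1/j` of the chart `1/j` of level `M q`, over every number field `K₁` containing a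
primitive `M`-th root of unity and every discrete valuation ring `A₀` of `K₁` over `q`.

Leaves: `H46.SS.modelCuspRho` (helper46), `H42.SS.modelCuspChart` (helper42),
`H89.SS.modelCuspGauss` (helper89), `H16.intLocLeading`, `H16.intLocScale` (helper16),
FRAC `H66.SS.modelFrac41` (helper66).
-/

set_option autoImplicit false

noncomputable section

namespace Fermat.Agent.H67.SS

open ModularCurve

/-- **SSH-8, CUSPS** (row 649), unconditional, all primes `q ∤ M`, `R = M`. -/
theorem ssPlaceGenCusp (M q : ℕ) [NeZero M] [NeZero q] (hq : q.Prime) (hqM : ¬ q ∣ M) :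
    Fermat.Agent.H45.SSPlaceGenCuspStatement M q jq M :=
  ssPlaceGenCusp_of M q hq Fermat.Agent.H16.intLocLeading Fermat.Agent.H16.intLocScale
    (Fermat.Agent.H42.SS.modelCuspChart M q hq hqM)
    (Fermat.Agent.H89.SS.modelCuspGauss M q hq hqM)
    (Fermat.Agent.H46.SS.modelCuspRho M q hq)

/-- The same in the existential form (`R > 0`, prime to `q`). -/
theorem ssPlaceGenCusp_exists (M q : ℕ) [NeZero M] [NeZero q] (hq : q.Prime) (hqM : ¬ q ∣ M) :
    ∃ R : ℕ, 0 < R ∧ Nat.Coprime R q ∧ Fermat.Agent.H45.SSPlaceGenCuspStatement M q jq R :=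
  ⟨M, Nat.pos_of_ne_zero (NeZero.ne M),
    ((Nat.Prime.coprime_iff_not_dvd hq).2 hqM).symm, ssPlaceGenCusp M q hq hqM⟩

end Fermat.Agent.H67.SS
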