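import Mathlib
import Fermat.Agent.H67.SS.CuspCases

/-!
# P-SS row 649 (SSH-8) / P-SS2 row 900 (REGL), helper67: the cusps are REGULAR POINTS

The regular-point forms of `placeGenAt_of_level`, `placeGenAt_component`, `cuspPlaceGen_aux`
(same hypotheses, same proofs, the conclusion is the intermediate statement
`∃ u, Fermat.Agent.H41.SS.IsRegularAt A E ϖ y 𝔪 u`):

* `isRegularAt_of_level_full`, `isRegularAt_component`;
* `cuspRegular_aux`, `cuspRegular_abstract` : a cuspidal maximal ideal `𝔪 ∋ ϖ, y` of `B(y)` does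
  not lie on both components `V`, `W⁻¹ V`, and `𝔪 B_𝔪 = (ϖ, u)`.
-/

set_option autoImplicit false
set_option linter.style.haveILetI false
set_option linter.unusedSectionVars false
set_option linter.unusedVariables false

noncomputable section

namespace Fermat.Agent.H67.SS

open Polynomial
open Fermat.Agent.H22.KL Fermat.Agent.H41.SS Fermat.Agent.H45
open Fermat.Agent.H87.KL (evX IntX)
open Fermat.Agent.H67.KLConn (PiDvd)

section

variable {A : Type} [CommRing A] [IsDomain A] [IsDiscreteValuationRing A]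
  {E' : Type} [Field E'] [Algebra A E'] [CharZero E']
  {E : Type} [Field E] [Algebra A E] [CharZero E]

/-- **Regular parameters along one component** (abstract; the regular-point form of
`placeGenAt_of_level`). -/
theorem isRegularAt_of_level_full
    (hinj' : Function.Injective (algebraMap A E')) (hinj : Function.Injective (algebraMap A E))
    (ι : E' →+* E) (hι : ∀ a : A, ι (algebraMap A E' a) = algebraMap A E a)
    {ϖ : A} (hϖ : Irreducible ϖ) {y' : E'} {y : E}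
    (hy' : Transcendental A y') (hy : Transcendental A y)
    (hfd' : ∃ n : ℕ, Nonempty (Module.Basis (Fin n) (chartField A E' y') E'))
    (hfd : ∃ n : ℕ, Nonempty (Module.Basis (Fin n) (chartField A E y) E))
    (hMax' : ∀ z ∈ gaussClosure A E' ϖ y', ¬ PiDvdSet A E' ϖ (gaussClosure A E' ϖ y') z →
      z⁻¹ ∈ gaussClosure A E' ϖ y')
    (g : A[X]) (hgm : g.Monic) (hgirr : Irreducible (g.map (IsLocalRing.residue A)))
    (hNorm' : ∀ z ∈ gaussClosure A E' ϖ y', Fermat.Agent.H91.KLNorm.IntModPi A E' ϖ y' z →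
      ∃ s : A[X], OutsideMax A ϖ g s ∧ ∃ b ∈ chartClosure A E' y',
        PiDvdSet A E' ϖ (gaussClosure A E' ϖ y') (aeval y' s * z - b))
    (𝔪 : Ideal ↥(chartClosure A E y)) (h𝔪 : 𝔪.IsMaximal)
    (hϖ𝔪 : algebraMap A ↥(chartClosure A E y) ϖ ∈ 𝔪)
    (V : ValuationSubring E)
    (hBV : ∀ s : ↥(chartClosure A E y), (s : E) ∈ V)
    (hϖV : algebraMap A E ϖ ∈ V.nonunits)
    (hιB : ∀ s' : ↥(chartClosure A E' y'), ∃ b : ↥(chartClosure A E y), b ∉ 𝔪 ∧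
      (b : E) * ι (s' : E') ∈ chartClosure A E y)
    (hSEP : ∃ e : ↥(chartClosure A E y), e ∉ 𝔪 ∧ ∀ s : ↥(chartClosure A E y),
      (s : E) ∈ V.nonunits → ∃ c : ↥(chartClosure A E y),
        e * s = algebraMap A ↥(chartClosure A E y) ϖ * c)
    (hFRAC : ∀ s : ↥(chartClosure A E y), ∃ a' c' : ↥(chartClosure A E' y'),
      ι (c' : E') ∉ V.nonunits ∧ ι (c' : E') * (s : E) - ι (a' : E') ∈ V.nonunits)
    (hINJ : ∀ s' : ↥(chartClosure A E' y'), ι (s' : E') ∈ V.nonunits →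
      PiDvd ϖ (chartClosure A E' y') 1 (s' : E'))
    (hg𝔪 : ∃ b t : ↥(chartClosure A E y), b ∉ 𝔪 ∧ t ∈ 𝔪 ∧ (b : E) * ι (aeval y' g) = (t : E)) :
    ∃ u : ↥(chartClosure A E y), IsRegularAt A E ϖ y 𝔪 u := by
  haveI h𝔪p : 𝔪.IsPrime := h𝔪.isPrime
  haveI hp' := pullIdeal_isPrime ι y' y 𝔪 hιB
  have hϖ' : algebraMap A ↥(chartClosure A E' y') ϖ ∈ pullIdeal ι y' y 𝔪 hιB := by
    refine ⟨1, algebraMap A ↥(chartClosure A E y) ϖ,
      fun h => h𝔪p.ne_top ((Ideal.eq_top_iff_one _).2 h), hϖ𝔪, ?_⟩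
    show ((1 : ↥(chartClosure A E y)) : E) * ι (algebraMap A E' ϖ) = algebraMap A E ϖ
    rw [hι]; simp
  have hg' : evB (A := A) y' g ∈ pullIdeal ι y' y 𝔪 hιB := hg𝔪
  have hmax' : (pullIdeal ι y' y 𝔪 hιB).IsMaximal :=
    isMaximal_of_isPrime_of_mem hϖ g hgirr _ hϖ' hg'
  obtain ⟨U', hreg, hUπ, hval⟩ :=
    localDVR hinj' hϖ hy' hfd' hMax' g hgm hgirr hNorm' _ hmax' hϖ' hg'
  have hUV : ι (U' : E') ∉ V.nonunits := fun h => hUπ (hINJ U' h)
  exact isRegularAt_of_level ι hι ϖ y' y 𝔪 hϖ𝔪 V hBV hϖV hιB hSEP hFRAC U' hreg hUV hval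


/-- **A cuspidal point on one component** (abstract), regular-point form. -/
theorem isRegularAt_component
    (hinj' : Function.Injective (algebraMap A E')) (hinj : Function.Injective (algebraMap A E))
    (ι : E' →+* E) (hι : ∀ a : A, ι (algebraMap A E' a) = algebraMap A E a)
    {ϖ : A} (hϖ : Irreducible ϖ) {y' : E'} {y : E}
    (hy' : Transcendental A y') (hy : Transcendental A y)
    (hfd' : ∃ n : ℕ, Nonempty (Module.Basis (Fin n) (chartField A E' y') E'))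
    (hfd : ∃ n : ℕ, Nonempty (Module.Basis (Fin n) (chartField A E y) E))
    (hGB' : GoodBasis A E' ϖ y') (hBr' : BranchHypAt A E' ϖ y' (X : A[X]))
    (V₁ V₂ : ValuationSubring E)
    (hC : ∀ z : E, z ∈ V₁ → z ∈ V₂ → z ∈ gaussClosure A E ϖ y)
    (hϖ₁ : ∀ z ∈ V₁.nonunits, z / algebraMap A E ϖ ∈ V₁)
    (hϖ₂ : ∀ z ∈ V₂.nonunits, z / algebraMap A E ϖ ∈ V₂)
    (hB₁ : ∀ s ∈ chartClosure A E y, s ∈ V₁) (hB₂ : ∀ s ∈ chartClosure A E y, s ∈ V₂)
    (hπ₁ : algebraMap A E ϖ ∈ V₁.nonunits)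
    (hGC' : ∀ z' ∈ gaussClosure A E' ϖ y', ι z' ∈ V₁)
    (hQ' : ∀ z' : E', ι z' ∈ V₁ → z' ∈ gaussClosure A E' ϖ y')
    (hFR : ∀ z ∈ V₁, ∃ z' : E', ι z' ∈ V₁ ∧ z - ι z' ∈ V₁.nonunits)
    (𝔪 : Ideal ↥(chartClosure A E y)) (h𝔪 : 𝔪.IsMaximal)
    (hϖ𝔪 : algebraMap A ↥(chartClosure A E y) ϖ ∈ 𝔪)
    (hιB : ∀ s' : ↥(chartClosure A E' y'), ∃ b : ↥(chartClosure A E y), b ∉ 𝔪 ∧
      (b : E) * ι (s' : E') ∈ chartClosure A E y)
    (e : ↥(chartClosure A E y)) (he : (e : E) ∈ V₂.nonunits) (he𝔪 : e ∉ 𝔪)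
    (hy𝔪 : ∃ b t : ↥(chartClosure A E y), b ∉ 𝔪 ∧ t ∈ 𝔪 ∧ (b : E) * ι y' = (t : E)) :
    ∃ u : ↥(chartClosure A E y), IsRegularAt A E ϖ y 𝔪 u := by
  have hgirr : Irreducible ((X : A[X]).map (IsLocalRing.residue A)) := by
    rw [Polynomial.map_X]
    exact Polynomial.irreducible_X
  refine isRegularAt_of_level_full hinj' hinj ι hι hϖ hy' hy hfd' hfd
    (hMax_of_val hinj' ι hι hϖ V₁ hϖ₁ hGC' hQ') X monic_X hgirr
    (Fermat.Agent.H70.KL.normalityAtFull A E' hinj' ϖ hϖ y' hy' hGB' X monic_X hgirr hBr')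
    𝔪 h𝔪 hϖ𝔪 V₁ (fun s => hB₁ _ s.2) hπ₁ hιB ?_
    (hFRAC_of_val ι hϖ hy' V₁ (fun s => hB₁ _ s.2) hGC' hQ' hFR)
    (hINJ_of_val hinj' ι hι hϖ hy' V₁ hϖ₁ hQ') ?_
  · refine ⟨e, he𝔪, fun s hs => ?_⟩
    obtain ⟨r, hr, hsz⟩ := Fermat.Agent.H31.SS.piDvd_mul_of_mem_centres hinj ϖ hϖ y hy V₁ V₂
      hC hϖ₁ hϖ₂ hB₁ hB₂ e s he hs
    refine ⟨⟨r, hr⟩, Subtype.ext ?_⟩
    rw [pow_one, Algebra.smul_def] at hsz
    exact hsz
  · obtain ⟨b, t, hb, ht, hbt⟩ := hy𝔪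
    refine ⟨b, t, hb, ht, ?_⟩
    rw [aeval_X]
    exact hbt


/-- The abstract cusp theorem, regular-point form: a cuspidal maximal ideal does not lie on both
components, and it is a regular point with parameters `(ϖ, u)`. -/
theorem cuspRegular_aux
    (hIL : IntLocLeadingStatement) (hIS : IntLocScaleStatement)
    (hinj' : Function.Injective (algebraMap A E')) (hinj : Function.Injective (algebraMap A E))
    (α β : E' →+* E) (hα : ∀ a : A, α (algebraMap A E' a) = algebraMap A E a)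
    (W : E ≃+* E) (hWA : ∀ a : A, W (algebraMap A E a) = algebraMap A E a)
    (hWα : ∀ f, W (α f) = β f) (hWβ : ∀ f, W (β f) = α f)
    {ϖ : A} (hϖ : Irreducible ϖ) (x' : E') (q : ℕ) (hq : 2 ≤ q)
    (x xq y : E) (hxdef : α x' = x) (hxqdef : β x' = xq) (hydef : y = x⁻¹)
    (hy' : Transcendental A x'⁻¹) (hy : Transcendental A y)
    (hfd' : ∃ n : ℕ, Nonempty (Module.Basis (Fin n) (chartField A E' x'⁻¹) E'))
    (hfd : ∃ n : ℕ, Nonempty (Module.Basis (Fin n) (chartField A E y) E))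
    (hGB' : GoodBasis A E' ϖ x'⁻¹) (hBr' : BranchHypAt A E' ϖ x'⁻¹ (X : A[X]))
    (V : ValuationSubring E)
    (hC : ∀ z : E, z ∈ V → W z ∈ V → z ∈ gaussClosure A E ϖ y)
    (hCV : ∀ z ∈ gaussClosure A E ϖ y, z ∈ V ∧ W z ∈ V)
    (hQ' : ∀ z' : E', α z' ∈ V → z' ∈ gaussClosure A E' ϖ x'⁻¹)
    (hGC' : ∀ z' ∈ gaussClosure A E' ϖ x'⁻¹, α z' ∈ V)
    (hϖV : algebraMap A E ϖ ∈ V.nonunits)
    (hdiv : ∀ z ∈ V.nonunits, z / algebraMap A E ϖ ∈ V)
    (hFrob : xq - x ^ q ∈ V.nonunits)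
    (hInt : xq ∈ chartClosure A E x)
    (hRho : y ^ q * xq ∈ chartClosure A E y)
    (hFR : ∀ z ∈ V, ∃ z' : E', α z' ∈ V ∧ z - α z' ∈ V.nonunits)
    (𝔪 : Ideal ↥(chartClosure A E y)) (h𝔪 : 𝔪.IsMaximal)
    (hϖ𝔪 : algebraMap A ↥(chartClosure A E y) ϖ ∈ 𝔪)
    (hy𝔪 : ∀ s : ↥(chartClosure A E y), (s : E) = y → s ∈ 𝔪) :
    ¬ ((∀ s : ↥(chartClosure A E y), (s : E) ∈ V.nonunits → s ∈ 𝔪) ∧
      (∀ s : ↥(chartClosure A E y), (s : E) ∈ (V.comap (W : E →+* E)).nonunits → s ∈ 𝔪)) ∧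
    ∃ u : ↥(chartClosure A E y), IsRegularAt A E ϖ y 𝔪 u := by
  classical
  haveI h𝔪p : 𝔪.IsPrime := h𝔪.isPrime
  have h1𝔪 : (1 : ↥(chartClosure A E y)) ∉ 𝔪 := fun h =>
    h𝔪p.ne_top ((Ideal.eq_top_iff_one _).2 h)
  have hy0 : y ≠ 0 := Fermat.Agent.H89.klg_ne_zero hy
  have hx0 : x ≠ 0 := fun h => hy0 (by rw [hydef, h, inv_zero])
  have hWx : W x = xq := by rw [← hxdef, ← hxqdef]; exact hWα x'
  have hWxq : W xq = x := by rw [← hxdef, ← hxqdef]; exact hWβ x'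
  have hxq0 : xq ≠ 0 := by
    rw [← hWx]
    exact fun h => hx0 ((map_eq_zero W).1 h)
  have hWy : W y = xq⁻¹ := by rw [hydef, map_inv₀, hWx]
  have hβ : ∀ a : A, β (algebraMap A E' a) = algebraMap A E a := by
    intro a
    rw [← hWα, hα, hWA]
  have hαy : α x'⁻¹ = y := by rw [map_inv₀, hxdef, hydef]
  have hβy : β x'⁻¹ = xq⁻¹ := by rw [map_inv₀, hxqdef]
  -- the second valuation ring
  set V₀ : ValuationSubring E := V.comap (W : E →+* E) with hV₀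
  have hmem₀ : ∀ z : E, z ∈ V₀ ↔ W z ∈ V := fun z => Iff.rfl
  have hnu₀ : ∀ z : E, z ∈ V₀.nonunits ↔ W z ∈ V.nonunits := fun z =>
    ss_mem_nonunits_comap W V z
  have hdiv₀ : ∀ z ∈ V₀.nonunits, z / algebraMap A E ϖ ∈ V₀ := by
    intro z hz
    rw [hmem₀, map_div₀, hWA]
    exact hdiv _ ((hnu₀ z).1 hz)
  have hB₁ : ∀ s ∈ chartClosure A E y, s ∈ V := fun s hs =>
    (hCV s (Fermat.Agent.H89.klg_chartClosure_le_gaussClosure hϖ hy hs)).1
  have hB₂ : ∀ s ∈ chartClosure A E y, s ∈ V₀ := fun s hs =>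
    (hCV s (Fermat.Agent.H89.klg_chartClosure_le_gaussClosure hϖ hy hs)).2
  -- `y`, `ρ` as elements of `B`
  have hyB : y ∈ chartClosure A E y := by
    have := etale_aeval_mem_chartClosure A E y (X : A[X])
    rwa [aeval_X] at this
  set yB : ↥(chartClosure A E y) := ⟨y, hyB⟩ with hyBdef
  have hyB𝔪 : yB ∈ 𝔪 := hy𝔪 yB rfl
  set ρ : ↥(chartClosure A E y) := ⟨y ^ q * xq, hRho⟩ with hρdef
  -- units of `V`
  have hyV : y ∈ V := hB₁ y hyB
  have hyqV : xq⁻¹ ∈ V := by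
    rw [← hWy]
    exact hB₂ y hyB
  have hyx : y * x = 1 := by rw [hydef]; exact inv_mul_cancel₀ hx0
  have hyxq : xq⁻¹ * xq = 1 := inv_mul_cancel₀ hxq0
  by_cases hcase : ρ - 1 ∈ 𝔪
  · ---------------- component `∞`
    have hq2 : 0 < q ^ 2 - 1 := by
      have : 4 ≤ q ^ 2 := by nlinarith
      omega
    set eA : ↥(chartClosure A E y) := ρ ^ q - yB ^ (q ^ 2 - 1) with heA
    have heA𝔪 : eA ∉ 𝔪 := by
      intro h
      apply h1𝔪
      have h2 : ρ ^ q - 1 ∈ 𝔪 := by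
        obtain ⟨c, hc⟩ := sub_dvd_pow_sub_pow ρ 1 q
        rw [one_pow] at hc
        rw [hc]
        exact 𝔪.mul_mem_right _ hcase
      have h3 : yB ^ (q ^ 2 - 1) ∈ 𝔪 := Ideal.pow_mem_of_mem 𝔪 hyB𝔪 _ hq2
      have h4 : (1 : ↥(chartClosure A E y)) = eA - (ρ ^ q - 1) + yB ^ (q ^ 2 - 1) := by
        rw [heA]; ring
      rw [h4]
      exact 𝔪.add_mem (𝔪.sub_mem h h2) h3
    have heAV : (eA : E) ∈ V₀.nonunits := by
      rw [hnu₀]
      have e1 : W (eA : E) = -((xq⁻¹) ^ (q ^ 2) * (xq - x ^ q)) := by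
        have e2 : (eA : E) = (y ^ q * xq) ^ q - y ^ (q ^ 2 - 1) := rfl
        rw [e2, map_sub, map_pow, map_mul, map_pow, map_pow, hWy, hWxq]
        have e3 : (xq⁻¹) ^ (q ^ 2 - 1) = (xq⁻¹) ^ (q ^ 2) * xq := by
          have : q ^ 2 = (q ^ 2 - 1) + 1 := by omega
          conv_rhs => rw [this, pow_succ, mul_assoc, hyxq, mul_one]
        rw [e3]
        ring
      rw [e1]
      exact nu_neg V (nu_mul_left V (V.toSubring.pow_mem hyqV _) hFrob)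
    refine ⟨fun hboth => heA𝔪 (hboth.2 eA heAV), ?_⟩
    refine isRegularAt_component hinj' hinj α hα hϖ hy' hy hfd' hfd hGB' hBr' V V₀
      (fun z h1 h2 => hC z h1 h2) hdiv hdiv₀ hB₁ hB₂ hϖV hGC' hQ' hFR 𝔪 h𝔪 hϖ𝔪 ?_
      eA heAV heA𝔪 ?_
    · intro s'
      refine ⟨1, h1𝔪, ?_⟩
      have := map_mem_chartClosure α hα s'.2
      rw [hαy] at this
      simpa using this
    · exact ⟨1, yB, h1𝔪, hyB𝔪, by rw [hαy]; simp [hyBdef]⟩
  · ---------------- component `0`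
    have hxInt : x ∈ chartClosure A E xq := by
      have := map_mem_chartClosure (W : E →+* E) hWA hInt
      rw [RingEquiv.coe_toRingHom, hWxq, hWx] at this
      exact this
    obtain ⟨p, hp⟩ := hIL A E x xq hx0 hxq0 hxInt
    rw [← hydef] at hp
    have hhB : 1 + y * aeval y p ∈ chartClosure A E y :=
      (chartClosure A E y).add_mem (chartClosure A E y).one_mem
        ((chartClosure A E y).mul_mem hyB (etale_aeval_mem_chartClosure A E y p))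
    set h : ↥(chartClosure A E y) := ⟨1 + y * aeval y p, hhB⟩ with hhdef
    have hh𝔪 : h ∉ 𝔪 := by
      intro hh
      apply h1𝔪
      have e1 : (1 : ↥(chartClosure A E y)) =
          h - yB * ⟨aeval y p, etale_aeval_mem_chartClosure A E y p⟩ := by
        apply Subtype.ext
        simp [hhdef, hyBdef]
      rw [e1]
      exact 𝔪.sub_mem hh (𝔪.mul_mem_right _ hyB𝔪)
    set u : ↥(chartClosure A E y) := ⟨(1 + y * aeval y p) * xq⁻¹, hp⟩ with hudef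
    have hu𝔪 : u ∈ 𝔪 := by
      have hux : (u : E) * xq ∈ chartClosure A E y := by
        have e1 : (u : E) * xq = 1 + y * aeval y p := by
          show (1 + y * aeval y p) * xq⁻¹ * xq = _
          rw [mul_assoc, hyxq, mul_one]
        rw [e1]
        exact hhB
      obtain ⟨d, hd⟩ := hIS A E y xq (u : E) x u.2 hux hxInt
      have e2 : u ^ d = ⟨(u : E) ^ d * x, hd⟩ * yB := by
        apply Subtype.ext
        show (u : E) ^ d = (u : E) ^ d * x * y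
        rw [mul_assoc, mul_comm x y, hyx, mul_one]
      exact h𝔪p.mem_of_pow_mem d (by rw [e2]; exact 𝔪.mul_mem_left _ hyB𝔪)
    set eB : ↥(chartClosure A E y) := ρ - 1 with heB
    have heBV : (eB : E) ∈ V.nonunits := by
      have e1 : (eB : E) = y ^ q * (xq - x ^ q) := by
        show y ^ q * xq - 1 = _
        rw [mul_sub, ← mul_pow, hyx, one_pow]
      rw [e1]
      exact nu_mul_left V (V.toSubring.pow_mem hyV _) hFrob
    have hπ₀ : algebraMap A E ϖ ∈ V₀.nonunits := by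
      rw [hnu₀, hWA]
      exact hϖV
    refine ⟨fun hboth => hcase (hboth.1 eB heBV), ?_⟩
    refine isRegularAt_component hinj' hinj β hβ hϖ hy' hy hfd' hfd hGB' hBr' V₀ V
      (fun z h1 h2 => hC z h2 h1) hdiv₀ hdiv hB₂ hB₁ hπ₀ ?_ ?_ ?_ 𝔪 h𝔪 hϖ𝔪 ?_
      eB heBV hcase ?_
    · intro z' hz'
      rw [hmem₀, hWβ]
      exact hGC' z' hz'
    · intro z' hz'
      rw [hmem₀, hWβ] at hz'
      exact hQ' z' hz'
    · intro z hz
      obtain ⟨z', hz'V, hzz'⟩ := hFR (W z) hz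
      refine ⟨z', ?_, ?_⟩
      · rw [hmem₀, hWβ]
        exact hz'V
      · rw [hnu₀, map_sub, hWβ]
        exact hzz'
    · intro s'
      have hs := map_mem_chartClosure β hβ s'.2
      rw [hβy] at hs
      have hhy : (h : E) * xq⁻¹ ∈ chartClosure A E y := hp
      obtain ⟨d, hd⟩ := hIS A E y xq⁻¹ (h : E) (β (s' : E')) h.2 hhy hs
      refine ⟨h ^ d, fun hh => hh𝔪 (h𝔪p.mem_of_pow_mem d hh), ?_⟩
      exact hd
    · exact ⟨h, u, hh𝔪, hu𝔪, by rw [hβy]⟩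


/-- **THE ABSTRACT CUSP THEOREM, regular-point form.** -/
theorem cuspRegular_abstract
    (hIL : IntLocLeadingStatement) (hIS : IntLocScaleStatement)
    (hinj' : Function.Injective (algebraMap A E')) (hinj : Function.Injective (algebraMap A E))
    (α β : E' →+* E) (hα : ∀ a : A, α (algebraMap A E' a) = algebraMap A E a)
    (W : E ≃+* E) (hWA : ∀ a : A, W (algebraMap A E a) = algebraMap A E a)
    (hWα : ∀ f, W (α f) = β f) (hWβ : ∀ f, W (β f) = α f)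
    {ϖ : A} (hϖ : Irreducible ϖ) (x' : E') (q : ℕ) (hq : 2 ≤ q)
    (hy' : Transcendental A x'⁻¹) (hy : Transcendental A (α x')⁻¹)
    (hfd' : ∃ n : ℕ, Nonempty (Module.Basis (Fin n) (chartField A E' x'⁻¹) E'))
    (hfd : ∃ n : ℕ, Nonempty (Module.Basis (Fin n) (chartField A E (α x')⁻¹) E))
    (hGB' : GoodBasis A E' ϖ x'⁻¹) (hBr' : BranchHypAt A E' ϖ x'⁻¹ (X : A[X]))
    (V : ValuationSubring E)
    (hC : ∀ z : E, z ∈ V → W z ∈ V → z ∈ gaussClosure A E ϖ (α x')⁻¹)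
    (hCV : ∀ z ∈ gaussClosure A E ϖ (α x')⁻¹, z ∈ V ∧ W z ∈ V)
    (hQ' : ∀ z' : E', α z' ∈ V → z' ∈ gaussClosure A E' ϖ x'⁻¹)
    (hGC' : ∀ z' ∈ gaussClosure A E' ϖ x'⁻¹, α z' ∈ V)
    (hϖV : algebraMap A E ϖ ∈ V.nonunits)
    (hdiv : ∀ z ∈ V.nonunits, z / algebraMap A E ϖ ∈ V)
    (hFrob : β x' - α x' ^ q ∈ V.nonunits)
    (hInt : β x' ∈ chartClosure A E (α x'))
    (hRho : (α x')⁻¹ ^ q * β x' ∈ chartClosure A E (α x')⁻¹)
    (hFR : ∀ z ∈ V, ∃ z' : E', α z' ∈ V ∧ z - α z' ∈ V.nonunits)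
    (𝔪 : Ideal ↥(chartClosure A E (α x')⁻¹)) (h𝔪 : 𝔪.IsMaximal)
    (hϖ𝔪 : algebraMap A ↥(chartClosure A E (α x')⁻¹) ϖ ∈ 𝔪)
    (hy𝔪 : ∀ s : ↥(chartClosure A E (α x')⁻¹), (s : E) = (α x')⁻¹ → s ∈ 𝔪) :
    ¬ ((∀ s : ↥(chartClosure A E (α x')⁻¹), (s : E) ∈ V.nonunits → s ∈ 𝔪) ∧
      (∀ s : ↥(chartClosure A E (α x')⁻¹),
        (s : E) ∈ (V.comap (W : E →+* E)).nonunits → s ∈ 𝔪)) ∧
    ∃ u : ↥(chartClosure A E (α x')⁻¹), IsRegularAt A E ϖ (α x')⁻¹ 𝔪 u :=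
  cuspRegular_aux hIL hIS hinj' hinj α β hα W hWA hWα hWβ hϖ x' q hq (α x') (β x') (α x')⁻¹
    rfl rfl rfl hy' hy hfd' hfd hGB' hBr' V hC hCV hQ' hGC' hϖV hdiv hFrob hInt hRho hFR
    𝔪 h𝔪 hϖ𝔪 hy𝔪

end

end Fermat.Agent.H67.SS
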