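import Mathlib
import Fermat.Agent.H67.SS.CuspReg
import Fermat.Agent.H67.SS.CuspInterfaces
import Fermat.Agent.H16.SSIntLoc
import Fermat.Agent.H89.SS.CuspGauss
import Fermat.Agent.H42.SS.CuspChart
import Fermat.Agent.H46.SS.CuspRho
import Fermat.Agent.H7.SS2.RegLFinal

/-!
# P-SS2 row 900 (REGL), input (C) (helper67): the cusps of level `M q` are regular points

`cuspGenR M q hq hqM : Fermat.Agent.H7.SS2.CuspGenRStatement M q M` : a maximal ideal
`𝔪 ∋ ϖ, 1/j` of `B(1/j)` does not lie on both components `V_∞`, `V_0`, and `𝔪 B_𝔪 = (ϖ, U)`.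
All primes `q ∤ M`; `R = M` (prime to `q`).

`modelCuspGaussV` is `Fermat.Agent.H89.SS.modelCuspGauss` (helper89) with the valuation ring
`V = gaussValM K₁ A₀ (M q)` made explicit (same proof).
-/

set_option autoImplicit false
set_option linter.style.haveILetI false
set_option linter.unusedSectionVars false
set_option linter.unusedVariables false

noncomputable section

namespace Fermat.Agent.H67.SS

open Polynomial ModularCurve AlgebraicCurve
open Fermat.Agent.H22.KL Fermat.Agent.H45 Fermat.Agent.H7.SS Fermat.Agent.H48.QExp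
open Fermat.Agent.H82.SS Fermat.Agent.H41.SS

/-- **CUSP-GAUSS with explicit valuation ring** (helper89's proof). -/
theorem modelCuspGaussV (M q : ℕ) [NeZero M] [NeZero q] (hq : q.Prime) (hqM : ¬ q ∣ M)
    (K₁ : Type) [Field K₁] [Algebra ℚ K₁] [FiniteDimensional ℚ K₁]
    (A₀ : Type) [CommRing A₀] [IsDomain A₀] [IsDiscreteValuationRing A₀]
    [Algebra A₀ K₁] [IsFractionRing A₀ K₁]
    [Algebra A₀ (ModelField K₁ M)] [IsScalarTower A₀ K₁ (ModelField K₁ M)]
    [Algebra A₀ (ModelField K₁ (M * q))] [IsScalarTower A₀ K₁ (ModelField K₁ (M * q))]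
    (hqA : ¬ IsUnit ((q : ℕ) : A₀)) (ϖ : A₀) (hϖ : Irreducible ϖ)
    (x' : ModelField K₁ M) (hx' : (x' : LaurentSeries K₁) = coeffEmb K₁ jq)
    (W : ModelField K₁ (M * q) ≃ₐ[K₁] ModelField K₁ (M * q)) (hW : IsAtkinLehnerModel K₁ M q W) :
    (∀ z : ModelField K₁ (M * q), z ∈ gaussValM K₁ A₀ (M * q) →
        W z ∈ gaussValM K₁ A₀ (M * q) →
        z ∈ gaussClosure A₀ (ModelField K₁ (M * q)) ϖ (heckeAlphaBar K₁ M q x')⁻¹) ∧
      (∀ z ∈ gaussClosure A₀ (ModelField K₁ (M * q)) ϖ (heckeAlphaBar K₁ M q x')⁻¹,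
        z ∈ gaussValM K₁ A₀ (M * q) ∧ W z ∈ gaussValM K₁ A₀ (M * q)) ∧
      (∀ z' : ModelField K₁ M, heckeAlphaBar K₁ M q z' ∈ gaussValM K₁ A₀ (M * q) →
        z' ∈ gaussClosure A₀ (ModelField K₁ M) ϖ x'⁻¹) ∧
      (∀ z' ∈ gaussClosure A₀ (ModelField K₁ M) ϖ x'⁻¹,
        heckeAlphaBar K₁ M q z' ∈ gaussValM K₁ A₀ (M * q)) ∧
      algebraMap A₀ (ModelField K₁ (M * q)) ϖ ∈ (gaussValM K₁ A₀ (M * q)).nonunits ∧
      (∀ z ∈ (gaussValM K₁ A₀ (M * q)).nonunits,
        z / algebraMap A₀ (ModelField K₁ (M * q)) ϖ ∈ gaussValM K₁ A₀ (M * q)) ∧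
      heckeBetaBar K₁ M q x' - heckeAlphaBar K₁ M q x' ^ q ∈
        (gaussValM K₁ A₀ (M * q)).nonunits ∧
      (∀ z ∈ gaussValM K₁ A₀ (M * q), ∃ z' : ModelField K₁ M,
        heckeAlphaBar K₁ M q z' ∈ gaussValM K₁ A₀ (M * q) ∧
        z - heckeAlphaBar K₁ M q z' ∈ (gaussValM K₁ A₀ (M * q)).nonunits) := by
  haveI : NeZero (M * q) := ⟨Nat.mul_ne_zero (NeZero.ne M) (NeZero.ne q)⟩
  have hinj : Function.Injective (algebraMap A₀ (ModelField K₁ (M * q))) := by
    rw [IsScalarTower.algebraMap_eq A₀ K₁ (ModelField K₁ (M * q))]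
    exact (algebraMap K₁ (ModelField K₁ (M * q))).injective.comp (IsFractionRing.injective A₀ K₁)
  have hinj' : Function.Injective (algebraMap A₀ (ModelField K₁ M)) := by
    rw [IsScalarTower.algebraMap_eq A₀ K₁ (ModelField K₁ M)]
    exact (algebraMap K₁ (ModelField K₁ M)).injective.comp (IsFractionRing.injective A₀ K₁)
  have hx : ((heckeAlphaBar K₁ M q x' : ModelField K₁ (M * q)) : LaurentSeries K₁)
      = coeffEmb K₁ jq := by
    rw [coe_heckeAlphaBar, hx']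
  have hxtr : Transcendental A₀ (heckeAlphaBar K₁ M q x') :=
    Fermat.Agent.H58.modelTranscendental_jq (M * q) K₁ A₀ _ hx
  have hx'tr : Transcendental A₀ x' :=
    Fermat.Agent.H58.modelTranscendental_jq M K₁ A₀ x' hx'
  have hC : gaussClosure A₀ (ModelField K₁ (M * q)) ϖ (heckeAlphaBar K₁ M q x')⁻¹
      = gaussClosure A₀ (ModelField K₁ (M * q)) ϖ (heckeAlphaBar K₁ M q x') :=
    (Fermat.Agent.H89.gaussClosureStatement A₀ (ModelField K₁ (M * q)) hinj ϖ hϖ _ hxtr).2.2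
  have hC' : gaussClosure A₀ (ModelField K₁ M) ϖ x'⁻¹ = gaussClosure A₀ (ModelField K₁ M) ϖ x' :=
    (Fermat.Agent.H89.gaussClosureStatement A₀ (ModelField K₁ M) hinj' ϖ hϖ _ hx'tr).2.2
  refine ⟨?_, ?_, ?_, ?_, ?_, ?_, ?_, ?_⟩
  · -- (1) `V ∩ W⁻¹ V ⊆ C(x⁻¹)`
    intro z hz hWz
    rw [hC]
    exact mem_gaussClosure_of_two M q hq hqM hqA hϖ _ hx W hW z hz
      ((mem_gaussValZero_iff W z).2 hWz)
  · -- (2) `C(x⁻¹) ⊆ V ∩ W⁻¹ V`
    intro z hz
    rw [hC] at hz
    refine ⟨mem_gaussValM_of_mem_gaussClosure (M * q) hϖ _ hx z hz, ?_⟩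
    obtain ⟨-, ⟨a', b', ha', hb', hbu', hab'⟩⟩ :=
      Fermat.Agent.H55.SS.modelGaussConverse M q K₁ A₀ hqA ϖ hϖ _ hx W hW z hz
    rw [mem_gaussValM_iff]
    refine inV_of_quot _ (W a').2 (W b').2 ha' hb' hbu' ?_
    have h1 : W z * W b' = W a' := by rw [← map_mul, hab']
    exact congrArg Subtype.val h1
  · -- (3) `α⁻¹ V ⊆ C'(x'⁻¹)`
    intro z' hz'
    rw [hC']
    exact mem_gaussClosure_of_mem_gaussValM M q hq hqM hqA hϖ x' hx' z'
      ((alpha_mem_gaussValM_iff M q K₁ A₀ z').1 hz')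
  · -- (4) `C'(x'⁻¹) ⊆ α⁻¹ V`
    intro z' hz'
    rw [hC'] at hz'
    exact (alpha_mem_gaussValM_iff M q K₁ A₀ z').2
      (mem_gaussValM_of_mem_gaussClosure M hϖ x' hx' z' hz')
  · -- (5) `ϖ ∈ 𝔪_V`
    exact pi_mem_nonunits_gaussValM hϖ
  · -- (6) `ϖ` generates `𝔪_V`
    intro z hz
    exact div_pi_mem_gaussValM hϖ z hz
  · -- (7) Frobenius congruence
    rw [mem_nonunits_gaussValM_iff]
    have hcoe : ((heckeBetaBar K₁ M q x' - heckeAlphaBar K₁ M q x' ^ q :
        ModelField K₁ (M * q)) : LaurentSeries K₁)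
        = qExpand K₁ q (jqModC K₁) - jqModC K₁ ^ q := by
      have h1 : ((heckeBetaBar K₁ M q x' : ModelField K₁ (M * q)) : LaurentSeries K₁)
          = qExpand K₁ q (jqModC K₁) := by
        rw [coe_heckeBetaBar, hx', coeffEmb_jq]
      have h2 : ((heckeAlphaBar K₁ M q x' : ModelField K₁ (M * q)) : LaurentSeries K₁)
          = jqModC K₁ := by
        rw [hx, coeffEmb_jq]
      rw [← h1, ← h2]
      rfl
    rw [hcoe]
    apply Fermat.Agent.H89.SS.cg_frob_inM q hq hqA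
    rw [← hcoe]
    exact Subtype.mem _
  · -- (8) FRAC
    intro z hz
    obtain ⟨z', hz'V, hz'M⟩ :=
      Fermat.Agent.H66.SS.modelFrac41 M q hq hqM K₁ A₀ hqA (z : LaurentSeries K₁)
        ((mem_gaussValM_iff z).1 hz)
    have hz'E : z' ∈ laurentBaseChange K₁ (modularFunctionFieldFull M) := InV.mem hz'V
    refine ⟨⟨z', hz'E⟩, ?_, ?_⟩
    · rw [alpha_mem_gaussValM_iff, mem_gaussValM_iff]
      exact hz'V
    · rw [mem_nonunits_gaussValM_iff]
      have hcoe : ((z - heckeAlphaBar K₁ M q ⟨z', hz'E⟩ : ModelField K₁ (M * q)) :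
          LaurentSeries K₁) = (z : LaurentSeries K₁) - z' := by
        show (z : LaurentSeries K₁) - ((heckeAlphaBar K₁ M q ⟨z', hz'E⟩ :
          ModelField K₁ (M * q)) : LaurentSeries K₁) = _
        rw [coe_heckeAlphaBar]
      rw [hcoe]
      exact hz'M

/-- **REGL, input (C): the cusps are regular points on exactly one component.** -/
theorem cuspGenR (M q : ℕ) [NeZero M] [NeZero q] (hq : q.Prime) (hqM : ¬ q ∣ M) :
    Fermat.Agent.H7.SS2.CuspGenRStatement M q M := by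
  intro K₁ _ _ _ A₀ _ _ _ _ _ _ _ hqA hζ ϖ hϖ x hx W hW 𝔪 h𝔪 hϖ𝔪 hy𝔪
  -- the algebra structure of level `M`
  letI algM : Algebra A₀ (ModelField K₁ M) :=
    ((algebraMap K₁ (ModelField K₁ M)).comp (algebraMap A₀ K₁)).toAlgebra
  haveI towM : IsScalarTower A₀ K₁ (ModelField K₁ M) :=
    IsScalarTower.of_algebraMap_eq (fun _ => rfl)
  haveI cz : CharZero K₁ := charZero_of_injective_algebraMap (algebraMap ℚ K₁).injective
  haveI czM : CharZero (ModelField K₁ M) :=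
    charZero_of_injective_algebraMap (algebraMap K₁ (ModelField K₁ M)).injective
  haveI czMq : CharZero (ModelField K₁ (M * q)) :=
    charZero_of_injective_algebraMap (algebraMap K₁ (ModelField K₁ (M * q))).injective
  have hφ : Function.Injective (algebraMap A₀ K₁) := IsFractionRing.injective A₀ K₁
  have hinj' : Function.Injective (algebraMap A₀ (ModelField K₁ M)) := by
    rw [IsScalarTower.algebraMap_eq A₀ K₁ (ModelField K₁ M)]
    exact (algebraMap K₁ (ModelField K₁ M)).injective.comp hφ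
  have hinj : Function.Injective (algebraMap A₀ (ModelField K₁ (M * q))) := by
    rw [IsScalarTower.algebraMap_eq A₀ K₁ (ModelField K₁ (M * q))]
    exact (algebraMap K₁ (ModelField K₁ (M * q))).injective.comp hφ
  -- the coordinate of level `M`
  have hjq : jq ∈ modularFunctionFieldFull M := by
    have h := jqd_mem_full M (one_dvd M)
    rwa [qExpand_one_apply] at h
  set x' : ModelField K₁ M := ⟨coeffEmb K₁ jq, coeffEmb_mem_laurentBaseChange K₁ hjq⟩ with hx'def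
  have hx' : (x' : LaurentSeries K₁) = coeffEmb K₁ jq := rfl
  have hxα : x = heckeAlphaBar K₁ M q x' := by
    apply Subtype.ext
    rw [hx, coe_heckeAlphaBar]
  subst hxα
  -- the leaves
  obtain ⟨hy', hy, hfd', hfd, hGB', hBr', hInt⟩ :=
    Fermat.Agent.H42.SS.modelCuspChart M q hq hqM K₁ A₀ hqA hζ ϖ hϖ x' hx'
  obtain ⟨hC, hCV, hQ', hGC', hϖV, hdiv, hFrob, hFR⟩ :=
    modelCuspGaussV M q hq hqM K₁ A₀ hqA ϖ hϖ x' hx' W hW
  have hρ := Fermat.Agent.H46.SS.modelCuspRho M q hq K₁ A₀ (heckeAlphaBar K₁ M q x')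
    (heckeBetaBar K₁ M q x') (by rw [coe_heckeAlphaBar]) (by rw [coe_heckeBetaBar])
  -- compatibility with `A₀`
  have hα : ∀ a : A₀, (heckeAlphaBar K₁ M q : ModelField K₁ M →+* ModelField K₁ (M * q))
      (algebraMap A₀ (ModelField K₁ M) a) = algebraMap A₀ (ModelField K₁ (M * q)) a := by
    intro a
    rw [IsScalarTower.algebraMap_apply A₀ K₁ (ModelField K₁ M),
      IsScalarTower.algebraMap_apply A₀ K₁ (ModelField K₁ (M * q))]
    exact (heckeAlphaBar K₁ M q).commutes _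
  have hWA : ∀ a : A₀, (W : ModelField K₁ (M * q) ≃+* ModelField K₁ (M * q))
      (algebraMap A₀ (ModelField K₁ (M * q)) a) = algebraMap A₀ (ModelField K₁ (M * q)) a := by
    intro a
    rw [IsScalarTower.algebraMap_apply A₀ K₁ (ModelField K₁ (M * q))]
    exact W.commutes _
  obtain ⟨hnot, u, hu𝔪, hreg, -⟩ := cuspRegular_abstract
    Fermat.Agent.H16.intLocLeading Fermat.Agent.H16.intLocScale hinj' hinj
    (heckeAlphaBar K₁ M q : ModelField K₁ M →+* ModelField K₁ (M * q))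
    (heckeBetaBar K₁ M q : ModelField K₁ M →+* ModelField K₁ (M * q)) hα
    (W : ModelField K₁ (M * q) ≃+* ModelField K₁ (M * q)) hWA
    (fun f => hW.1 f) (fun f => hW.2 f) hϖ x' q hq.two_le hy' hy hfd' hfd hGB' hBr'
    (gaussValM K₁ A₀ (M * q))
    hC hCV hQ' hGC' hϖV hdiv hFrob hInt hρ hFR 𝔪 h𝔪 hϖ𝔪 hy𝔪
  refine ⟨fun hboth => hnot ⟨fun s hs => hboth.1 s hs, fun s hs => hboth.2 s ?_⟩,
    u, hu𝔪, hreg⟩
  rw [Fermat.Agent.H7.SS2.mem_nonunits_vZero_iff]
  exact (ss_mem_nonunits_comap (W : ModelField K₁ (M * q) ≃+* ModelField K₁ (M * q))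
    (gaussValM K₁ A₀ (M * q)) (s : ModelField K₁ (M * q))).1 hs

end Fermat.Agent.H67.SS
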