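/-
P-SS2 row 900 (REGL), helper67: monotonicity in the root-of-unity parameter `R`.

All the `…RStatement M q … R` of helper7's `RegLFinal` quantify over the number fields `K₁`
containing a primitive `R`-th root of unity.  If `R ∣ R'`, a primitive `R'`-th root of unity
gives a primitive `R`-th one, hence each statement at `R` implies the statement at `R'`.
-/
import Fermat.Agent.H7.SS2.RegLFinal
import Fermat.Agent.H67.SS.CuspRegFinal

set_option autoImplicit false
set_option linter.style.haveILetI false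
set_option linter.unusedSectionVars false
set_option linter.unusedVariables false

noncomputable section

namespace Fermat.Agent.H67.SS

open Fermat.Agent.H7.SS2

/-- A primitive `R'`-th root of unity gives a primitive `R`-th one when `R ∣ R'`, `0 < R'`. -/
theorem exists_primitiveRoot_of_dvd {K : Type} [Field K] {R R' : ℕ} (hR' : 0 < R')
    (hdvd : R ∣ R') (h : ∃ ζ : K, IsPrimitiveRoot ζ R') : ∃ ζ : K, IsPrimitiveRoot ζ R := by
  obtain ⟨ζ, hζ⟩ := h
  obtain ⟨c, rfl⟩ := hdvd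
  have hc : c ≠ 0 := by
    rintro rfl
    simp at hR'
  have hR : R ≠ 0 := by
    rintro rfl
    simp at hR'
  exact ⟨ζ ^ c, hζ.pow hR' (by ring)⟩

theorem cuspGenR_mono (M q : ℕ) [NeZero M] [NeZero q] {R R' : ℕ} (hR' : 0 < R')
    (hdvd : R ∣ R') (h : CuspGenRStatement M q R) : CuspGenRStatement M q R' := by
  intro K₁ _ _ _ A₀ _ _ _ _ _ _ _ hqA hζ
  exact h K₁ A₀ hqA (exists_primitiveRoot_of_dvd hR' hdvd hζ)

theorem smoothGenR_mono (M q : ℕ) [NeZero M] [NeZero q] {R R' : ℕ} (hR' : 0 < R')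
    (hdvd : R ∣ R') (h : SmoothGenRStatement M q R) : SmoothGenRStatement M q R' := by
  intro K₁ _ _ _ A₀ _ _ _ _ _ _ _ hqA hζ
  exact h K₁ A₀ hqA (exists_primitiveRoot_of_dvd hR' hdvd hζ)

theorem nodeGenR_mono (M q : ℕ) [NeZero M] [NeZero q] (h₀ : LaurentSeries ℚ) {R R' : ℕ}
    (hR' : 0 < R') (hdvd : R ∣ R') (h : NodeGenRStatement M q h₀ R) :
    NodeGenRStatement M q h₀ R' := by
  intro K₁ _ _ _ A₀ _ _ _ _ _ _ _ hqA hζ
  exact h K₁ A₀ hqA (exists_primitiveRoot_of_dvd hR' hdvd hζ)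

theorem regLR_mono (M q : ℕ) [NeZero M] [NeZero q] (h₀ : LaurentSeries ℚ) {R R' : ℕ}
    (hR' : 0 < R') (hdvd : R ∣ R') (h : RegLRStatement M q h₀ R) :
    RegLRStatement M q h₀ R' := by
  intro K₁ _ _ _ A₀ _ _ _ _ _ _ _ hqA hζ
  exact h K₁ A₀ hqA (exists_primitiveRoot_of_dvd hR' hdvd hζ)

theorem regLChartR_mono (M q : ℕ) [NeZero M] [NeZero q] (h₀ : LaurentSeries ℚ) {R R' : ℕ}
    (hR' : 0 < R') (hdvd : R ∣ R') (h : RegLChartRStatement M q h₀ R) :
    RegLChartRStatement M q h₀ R' := by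
  intro K₁ _ _ _ A₀ _ _ _ _ _ _ _ hqA hζ
  exact h K₁ A₀ hqA (exists_primitiveRoot_of_dvd hR' hdvd hζ)

/-- **(C) at every multiple of `M`**. -/
theorem cuspGenR_of_dvd (M q : ℕ) [NeZero M] [NeZero q] (hq : q.Prime) (hqM : ¬ q ∣ M)
    {R : ℕ} (hR : 0 < R) (hMR : M ∣ R) : CuspGenRStatement M q R :=
  cuspGenR_mono M q hR hMR (cuspGenR M q hq hqM)

end Fermat.Agent.H67.SS

end
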