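/-
P-SS2 row 900 (REGL), input (N) = the crossing points: THE ABSTRACT THEOREM.  helper67.

Setting: `E'` (level `M`) `⊆ E` (level `M q`), charts `x'`, `x = ι x'`, two reduced components
`V₁`, `V₂` of the special fibre of `B(x)` (`TwoComp`), a maximal ideal `𝔪 ∋ ϖ` on `V₁`,
functions `X, Y ∈ 𝔪` with `Y ∈ 𝔪_{V₂}` and `d X Y = ϖ ψ`, `ψ ∉ 𝔪`.

* (FRAC-loc) : every `z ∈ B(x)` is `≡ ι a / ι b` modulo `𝔪_{V₁}`, `ι b ∉ 𝔪`;
* (LEV)      : at the point `𝔫 = 𝔪 ∩ B(x')` of level `M`: `𝔫 B'_𝔫 = (ϖ, U')`, and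
  `ι U' = Y + X c`.

Then `𝔪 B_𝔪 = (X, Y)` : `nodeGen_abstract`.

Proof.  `z ∈ 𝔪`; `e := ι b z - ι a ∈ 𝔪_{V₁} ∩ B ⊆ 𝔪`, so `a ∈ 𝔫` and `s' a = ϖ b₁ + U' b₂`.
`e Y ∈ 𝔪_{V₁} ∩ 𝔪_{V₂} ∩ B = ϖ B` (Lemma T), `e Y = ϖ c'`, hence `ψ e Y = d X Y c'` and
`ψ e = d X c'`.  Finally `ψ ι(s') ι(b) z = ι(s') ψ e + ψ ι(s' a) ∈ (X, Y)`.
-/
import Fermat.Agent.H7.SS2.RegLCore
import Fermat.Agent.H41.SS.OrdModel

set_option autoImplicit false
set_option linter.style.haveILetI false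
set_option linter.unusedSectionVars false
set_option linter.unusedVariables false

noncomputable section

namespace Fermat.Agent.H67.SS

open Polynomial
open Fermat.Agent.H22.KL Fermat.Agent.H41.SS Fermat.Agent.H11.SS2 Fermat.Agent.H7.SS2
open Fermat.Agent.H87.KL (evX IntX)

section

variable {A : Type} [CommRing A] [IsDomain A] [IsDiscreteValuationRing A]
variable {E' E : Type} [Field E'] [Field E] [Algebra A E'] [Algebra A E]
  [CharZero E'] [CharZero E] [Algebra E' E] [IsScalarTower A E' E]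

/-- Integrality over `A[x']` descends along the field extension `E' ⊆ E`. -/
theorem intX_of_map_tower {x z : E'}
    (hz : IntX (A := A) (algebraMap E' E x) (algebraMap E' E z)) : IntX (A := A) x z := by
  obtain ⟨p, hp, hpz⟩ := hz
  refine ⟨p, hp, ?_⟩
  rw [Fermat.Agent.H87.KL.evX_algebraMap, ← Polynomial.hom_eval₂] at hpz
  exact (algebraMap E' E).injective (by rw [hpz, map_zero])

/-- `ι a ∈ B(ι x') → a ∈ B(x')`. -/
theorem mem_chartClosure_of_map {x' a : E'}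
    (h : algebraMap E' E a ∈ chartClosure A E (algebraMap E' E x')) :
    a ∈ chartClosure A E' x' := by
  rw [Fermat.Agent.H87.KL.mem_chartClosure_iff] at h ⊢
  exact intX_of_map_tower h

/-- **THE ABSTRACT NODE THEOREM**: `𝔪 B_𝔪 = (X, Y)`. -/
theorem nodeGen_abstract
    (hinj : Function.Injective (algebraMap A E)) {ϖ : A} (hϖ : Irreducible ϖ)
    (x : E) (x' : E') (hx : Transcendental A x) (hxx' : algebraMap E' E x' = x)
    (V₁ V₂ : ValuationSubring E) (hTC : TwoComp A E ϖ x V₁ V₂)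
    (𝔪 : Ideal ↥(chartClosure A E x)) (h𝔪 : 𝔪.IsMaximal)
    (hϖ𝔪 : algebraMap A ↥(chartClosure A E x) ϖ ∈ 𝔪)
    (ht₁ : Through A E x 𝔪 V₁)
    (X Y d ψ : ↥(chartClosure A E x)) (hX𝔪 : X ∈ 𝔪) (hY𝔪 : Y ∈ 𝔪)
    (hY : (Y : E) ∈ V₂.nonunits) (hψ : ψ ∉ 𝔪)
    (hXY : d * (X * Y) = algebraMap A ↥(chartClosure A E x) ϖ * ψ)
    (hFRAC : ∀ z ∈ chartClosure A E x, ∃ a b : E',
      algebraMap E' E a ∈ chartClosure A E x ∧
      (∃ hb : algebraMap E' E b ∈ chartClosure A E x,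
        (⟨algebraMap E' E b, hb⟩ : ↥(chartClosure A E x)) ∉ 𝔪) ∧
      algebraMap E' E b * z - algebraMap E' E a ∈ V₁.nonunits)
    (U' : ↥(chartClosure A E' x')) (c : ↥(chartClosure A E x))
    (hU'c : algebraMap E' E (U' : E') = (Y : E) + (X : E) * (c : E))
    (hLev : ∀ 𝔫 : Ideal ↥(chartClosure A E' x'), 𝔫.IsMaximal →
      algebraMap A ↥(chartClosure A E' x') ϖ ∈ 𝔫 → U' ∈ 𝔫 →
      ∀ z ∈ 𝔫, ∃ s, s ∉ 𝔫 ∧ ∃ b₁ b₂ : ↥(chartClosure A E' x'),
        s * z = algebraMap A ↥(chartClosure A E' x') ϖ * b₁ + U' * b₂) :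
    ∀ z ∈ 𝔪, ∃ s, s ∉ 𝔪 ∧ ∃ b₁ b₂ : ↥(chartClosure A E x), s * z = X * b₁ + Y * b₂ := by
  classical
  haveI h𝔪p : 𝔪.IsPrime := h𝔪.isPrime
  have hιB : ∀ b ∈ chartClosure A E' x', algebraMap E' E b ∈ chartClosure A E x := by
    intro b hb
    rw [← hxx', Fermat.Agent.H87.KL.mem_chartClosure_iff]
    exact Fermat.Agent.H87.KL.IntX.map_tower
      ((Fermat.Agent.H87.KL.mem_chartClosure_iff _ _).1 hb)
  have hxx : x ∈ chartClosure A E (algebraMap E' E x') := by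
    rw [hxx']
    have := etale_aeval_mem_chartClosure A E x (Polynomial.X : A[X])
    rwa [aeval_X] at this
  have hint := ordRestrict_isIntegral x' x hιB hxx
  set ιB := ordRestrict x' x hιB with hιBdef
  have hιπ : ιB (algebraMap A ↥(chartClosure A E' x') ϖ) = algebraMap A ↥(chartClosure A E x) ϖ :=
    ordRestrict_algebraMap x' x hιB ϖ
  set 𝔫 : Ideal ↥(chartClosure A E' x') := 𝔪.comap ιB with h𝔫
  haveI h𝔫max : 𝔫.IsMaximal := Ideal.isMaximal_comap_of_isIntegral_of_isMaximal' ιB hint 𝔪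
  have hπ𝔫 : algebraMap A ↥(chartClosure A E' x') ϖ ∈ 𝔫 := by
    rw [h𝔫, Ideal.mem_comap, hιπ]
    exact hϖ𝔪
  have hU𝔫 : U' ∈ 𝔫 := by
    rw [h𝔫, Ideal.mem_comap]
    have e1 : ιB U' = Y + X * c := Subtype.ext hU'c
    rw [e1]
    exact 𝔪.add_mem hY𝔪 (𝔪.mul_mem_right _ hX𝔪)
  have hLev' := hLev 𝔫 h𝔫max hπ𝔫 hU𝔫
  -- nonvanishing
  have hϖ0 : algebraMap A E ϖ ≠ 0 := hTC.unif₁.1
  have hψ0 : (ψ : E) ≠ 0 := ne_zero_of_not_mem (hinj := hinj) (hϖ := hϖ) (hy := hx) hψ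
  have hXYE : (d : E) * ((X : E) * (Y : E)) = algebraMap A E ϖ * (ψ : E) := by
    have := congrArg (Subtype.val) hXY
    push_cast at this
    exact this
  have hY0 : (Y : E) ≠ 0 := by
    intro h0
    rw [h0, mul_zero, mul_zero] at hXYE
    exact mul_ne_zero hϖ0 hψ0 hXYE.symm
  intro z hz
  obtain ⟨a, b, hαa, ⟨hαb, hb𝔪⟩, he⟩ := hFRAC z z.2
  set bB : ↥(chartClosure A E x) := ⟨algebraMap E' E b, hαb⟩ with hbB
  set aB : ↥(chartClosure A E x) := ⟨algebraMap E' E a, hαa⟩ with haB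
  set e : ↥(chartClosure A E x) := bB * z - aB with hedef
  have heV : (e : E) ∈ V₁.nonunits := he
  have he𝔪 : e ∈ 𝔪 := ht₁ e heV
  have haB𝔪 : aB ∈ 𝔪 := by
    have : aB = bB * z - e := by rw [hedef]; ring
    rw [this]
    exact 𝔪.sub_mem (𝔪.mul_mem_left _ hz) he𝔪
  -- the element of level `M`
  have ha' : a ∈ chartClosure A E' x' := by
    apply mem_chartClosure_of_map (A := A) (E := E)
    rw [hxx']
    exact hαa
  set a' : ↥(chartClosure A E' x') := ⟨a, ha'⟩ with ha'def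
  have hιa : ιB a' = aB := Subtype.ext rfl
  have ha𝔫 : a' ∈ 𝔫 := by
    rw [h𝔫, Ideal.mem_comap, hιa]
    exact haB𝔪
  obtain ⟨s', hs', b₁, b₂, hsab⟩ := hLev' a' ha𝔫
  have hιs' : ιB s' ∉ 𝔪 := fun h => hs' (by rw [h𝔫, Ideal.mem_comap]; exact h)
  -- Lemma T
  have h1 : ((e * Y : ↥(chartClosure A E x)) : E) ∈ V₁.nonunits := by
    push_cast
    exact nonunits_mul_mem (hinj := hinj) (hϖ := hϖ) (hy := hx) heV (hTC.mem₁ hinj hϖ hx Y.2)
  have h2 : ((e * Y : ↥(chartClosure A E x)) : E) ∈ V₂.nonunits := by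
    push_cast
    exact mem_mul_nonunits (hinj := hinj) (hϖ := hϖ) (hy := hx) (hTC.mem₂ hinj hϖ hx e.2) hY
  obtain ⟨c', hc'⟩ := hTC.exists_eq_mul hinj hϖ hx (e * Y).2 h1 h2
  push_cast at hc'
  have hψe : (ψ : E) * (e : E) = (d : E) * (X : E) * (c' : E) := by
    have h4 : (Y : E) * ((ψ : E) * (e : E)) = (Y : E) * ((d : E) * (X : E) * (c' : E)) := by
      calc (Y : E) * ((ψ : E) * (e : E)) = (ψ : E) * ((e : E) * (Y : E)) := by ring
        _ = (ψ : E) * (algebraMap A E ϖ * (c' : E)) := by rw [hc']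
        _ = (algebraMap A E ϖ * (ψ : E)) * (c' : E) := by ring
        _ = ((d : E) * ((X : E) * (Y : E))) * (c' : E) := by rw [hXYE]
        _ = (Y : E) * ((d : E) * (X : E) * (c' : E)) := by ring
    exact mul_left_cancel₀ hY0 h4
  -- the relation of level `M`, transported
  have hsabE : ((ιB s' : ↥(chartClosure A E x)) : E) * (aB : E)
      = algebraMap A E ϖ * ((ιB b₁ : ↥(chartClosure A E x)) : E)
        + ((Y : E) + (X : E) * (c : E)) * ((ιB b₂ : ↥(chartClosure A E x)) : E) := by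
    have h5 := congrArg (fun t : ↥(chartClosure A E' x') => algebraMap E' E (t : E')) hsab
    simp only [Subalgebra.coe_mul, Subalgebra.coe_add, map_mul, map_add] at h5
    rw [hU'c] at h5
    have h6 : algebraMap E' E ((algebraMap A ↥(chartClosure A E' x') ϖ : ↥(chartClosure A E' x')) : E')
        = algebraMap A E ϖ := by
      have := congrArg Subtype.val hιπ
      exact this
    rw [h6] at h5
    exact h5
  refine ⟨ψ * ιB s' * bB, ?_, ιB s' * d * c' + d * Y * ιB b₁ + ψ * c * ιB b₂, ψ * ιB b₂, ?_⟩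
  · intro h
    rcases h𝔪p.mem_or_mem h with h | h
    · rcases h𝔪p.mem_or_mem h with h | h
      · exact hψ h
      · exact hιs' h
    · exact hb𝔪 h
  · apply Subtype.ext
    push_cast
    have hez : (bB : E) * (z : E) = (e : E) + (aB : E) := by
      rw [hedef]
      push_cast
      ring
    linear_combination ((ψ : E) * ((ιB s' : ↥(chartClosure A E x)) : E)) * hez
      + ((ιB s' : ↥(chartClosure A E x)) : E) * hψe + (ψ : E) * hsabE
      - ((ιB b₁ : ↥(chartClosure A E x)) : E) * hXYE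

end

end Fermat.Agent.H67.SS

end
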