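/-
P-SS2 row 900 (REGL), input (N) = the crossing points.  helper67.

`ModelLevelRegFrobStatement M q h₀ R` : THE REGULARITY OF LEVEL `M` WITH THE EXPLICIT PARAMETER
`U' = H' - H' ^ (q ^ 2)` (`H'` with `q`-expansion `h₀`): at a maximal ideal `𝔫 ∋ ϖ` of `B'(j)`
(level `M`) containing `U'`, the maximal ideal of the local ring is generated by `ϖ` and `U'`.
(helper59's `modelLevelReg_h4_frob`, generic in the Hauptmodul `h₀`, roots of unity allowed.)
-/
import Fermat.Agent.H7.SS2.RegLFinal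

set_option autoImplicit false
set_option linter.style.haveILetI false
set_option linter.unusedSectionVars false
set_option linter.unusedVariables false

noncomputable section

namespace Fermat.Agent.H67.SS

open ModularCurve
open Fermat.Agent.H22.KL
open Fermat.Agent.H48.QExp
open Fermat.Agent.H82.SS
open Fermat.Agent.H7.SS

/-- **Level-`M` regularity with the explicit parameter `U' = H' - H'^(q²)`.** -/
def ModelLevelRegFrobStatement (M q : ℕ) [NeZero M] [NeZero q] (h₀ : LaurentSeries ℚ) (R : ℕ) :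
    Prop :=
  ∀ (K₁ : Type) [Field K₁] [Algebra ℚ K₁] [FiniteDimensional ℚ K₁]
    (A₀ : Type) [CommRing A₀] [IsDomain A₀] [IsDiscreteValuationRing A₀]
    [Algebra A₀ K₁] [IsFractionRing A₀ K₁]
    [Algebra A₀ (ModelField K₁ M)] [IsScalarTower A₀ K₁ (ModelField K₁ M)],
    ¬ IsUnit ((q : ℕ) : A₀) →
    (∃ ζ : K₁, IsPrimitiveRoot ζ R) →
    ∀ (ϖ : A₀), Irreducible ϖ →
    ∀ (x : ModelField K₁ M), (x : LaurentSeries K₁) = coeffEmb K₁ jq →
    ∀ 𝔫 : Ideal (chartClosure A₀ (ModelField K₁ M) x), 𝔫.IsMaximal →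
      algebraMap A₀ (chartClosure A₀ (ModelField K₁ M) x) ϖ ∈ 𝔫 →
    ∀ (U : chartClosure A₀ (ModelField K₁ M) x) (H' : ModelField K₁ M),
      (H' : LaurentSeries K₁) = coeffEmb K₁ h₀ →
      (U : ModelField K₁ M) = H' - H' ^ (q ^ 2) → U ∈ 𝔫 →
      ∀ z ∈ 𝔫, ∃ s, s ∉ 𝔫 ∧ ∃ b₁ b₂ : chartClosure A₀ (ModelField K₁ M) x,
        s * z = algebraMap A₀ (chartClosure A₀ (ModelField K₁ M) x) ϖ * b₁ + U * b₂

end Fermat.Agent.H67.SS

end
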