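/-
P-SS2 row 900 (REGL), input (N) = THE CROSSING POINTS, model assembly.  helper67.

`nodeGenR_of` : `NodeGenRStatement M q h₀ R` (helper7's exact input (N) of `regLR_of`) from

* (CROSS)    `Fermat.Agent.H59.SS.SSCrossDataStatementG M q h₀ R` (helper8: `ssCrossData`,
  `ssCrossData9`): supersingular data `D X Y = q Ψ` at the crossing points;
* (FRAC-loc) `Fermat.Agent.H65.SS.ModelFracLocRootsStatement M q R` (helper71 / helper65);
* (LEV)      `ModelLevelRegFrobStatement M q h₀ R` (helper59): regularity of level `M` with the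
  explicit parameter `U' = H' - H'^(q²)`.

The proof is the abstract theorem `nodeGen_abstract`.
-/
import Fermat.Agent.H67.SS.NodeAbs
import Fermat.Agent.H67.SS.NodeDefs
import Fermat.Agent.H7.SS2.RegLFinal
import Fermat.Agent.H59.SS.CrossModelG
import Fermat.Agent.H65.SS.KtFrobPoint
import Fermat.Agent.H34.SS.ModelVal2
import Fermat.Agent.H41.SS.OrdGauss

set_option autoImplicit false
set_option linter.style.haveILetI false
set_option linter.unusedSectionVars false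
set_option linter.unusedVariables false

noncomputable section

namespace Fermat.Agent.H67.SS

open Polynomial ModularCurve
open scoped Polynomial.Bivariate
open Fermat.Agent.H22.KL Fermat.Agent.H48.QExp Fermat.Agent.H82.SS Fermat.Agent.H7.SS
open Fermat.Agent.H7.SS2 Fermat.Agent.H11.SS2 Fermat.Agent.H45 Fermat.Agent.H41.SS
open Fermat.Agent.H59.SS Fermat.Agent.H60.SS Fermat.Agent.H66.CT
open Fermat.Agent.H87.KL (evX IntX)

/-- **INPUT (N) of REGL**: the crossing points are nodes, `𝔪 B_𝔪 = (X, Y)`. -/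
theorem nodeGenR_of (M q R : ℕ) [NeZero M] [NeZero q] (hq : q.Prime) (hqM : ¬ q ∣ M)
    (f : LaurentSeries ℤ)
    (hlev : ∀ (K₁ : Type) [Field K₁] [Algebra ℚ K₁],
      coeffMap (Int.castRingHom K₁) f ∈ laurentBaseChange K₁ (modularFunctionFieldFull M))
    (hCross : SSCrossDataStatementG M q (coeffMap (Int.castRingHom ℚ) f) R)
    (hFrac : Fermat.Agent.H65.SS.ModelFracLocRootsStatement M q R)
    (hLev : ModelLevelRegFrobStatement M q (coeffMap (Int.castRingHom ℚ) f) R) :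
    NodeGenRStatement M q (coeffMap (Int.castRingHom ℚ) f) R := by
  intro K₁ _ _ _ A₀ _ _ _ _ _ _ _ hqirr hζ x hx W hW H Hq hH hHq 𝔪 h𝔪 hq𝔪 hInf hZero
  classical
  have hqA : ¬ IsUnit ((q : ℕ) : A₀) := hqirr.not_isUnit
  haveI : NeZero (M * q) := ⟨Nat.mul_ne_zero (NeZero.ne M) (NeZero.ne q)⟩
  haveI : CharZero K₁ := charZero_of_injective_algebraMap (algebraMap ℚ K₁).injective
  haveI : CharZero (ModelField K₁ (M * q)) :=
    charZero_of_injective_algebraMap (algebraMap K₁ (ModelField K₁ (M * q))).injective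
  haveI : CharZero (ModelField K₁ M) :=
    charZero_of_injective_algebraMap (algebraMap K₁ (ModelField K₁ M)).injective
  -- the level `M`
  letI algE' : Algebra A₀ (ModelField K₁ M) :=
    ((algebraMap K₁ (ModelField K₁ M)).comp (algebraMap A₀ K₁)).toAlgebra
  haveI towE' : IsScalarTower A₀ K₁ (ModelField K₁ M) :=
    IsScalarTower.of_algebraMap_eq (fun _ => rfl)
  letI algT : Algebra (ModelField K₁ M) (ModelField K₁ (M * q)) :=
    (heckeAlphaBar K₁ M q).toRingHom.toAlgebra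
  have halg : ∀ z' : ModelField K₁ M,
      algebraMap (ModelField K₁ M) (ModelField K₁ (M * q)) z' = heckeAlphaBar K₁ M q z' :=
    fun _ => rfl
  haveI towT : IsScalarTower A₀ (ModelField K₁ M) (ModelField K₁ (M * q)) :=
    IsScalarTower.of_algebraMap_eq (fun a => by
      rw [halg, IsScalarTower.algebraMap_apply A₀ K₁ (ModelField K₁ (M * q)),
        IsScalarTower.algebraMap_apply A₀ K₁ (ModelField K₁ M), AlgHom.commutes])
  have hinj := model_algebraMap_injective M q K₁ A₀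
  have hT : Transcendental A₀ x := Fermat.Agent.H58.modelTranscendental_jq (M * q) K₁ A₀ x hx
  have hTC := twoComp_model M q K₁ A₀ hqA _ hqirr x hx W hW hq hqM
  have hjq : jq ∈ modularFunctionFieldFull M := by
    have := jqd_mem_full M (one_dvd M)
    rwa [qExpand_one_apply] at this
  let x' : ModelField K₁ M := ⟨coeffEmb K₁ jq, coeffEmb_mem_laurentBaseChange K₁ hjq⟩
  have hx' : (x' : LaurentSeries K₁) = coeffEmb K₁ jq := rfl
  have hαx : algebraMap (ModelField K₁ M) (ModelField K₁ (M * q)) x' = x := by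
    apply Subtype.ext
    rw [halg, coe_heckeAlphaBar, hx, hx']
  -- the Hauptmodul
  have hcf : coeffEmb K₁ (coeffMap (Int.castRingHom ℚ) f) = coeffMap (Int.castRingHom K₁) f := by
    rw [coeffEmb, coeffMap_coeffMap]
    exact coeffMap_congr (RingHom.ext_int _ _) f
  set H' : ModelField K₁ M := ⟨coeffMap (Int.castRingHom K₁) f, hlev K₁⟩ with hH'
  have hH'e : (H' : LaurentSeries K₁) = coeffEmb K₁ (coeffMap (Int.castRingHom ℚ) f) := by
    rw [hcf]
  have hα : heckeAlphaBar K₁ M q H' = H := Subtype.ext (by rw [coe_heckeAlphaBar, hH, hcf])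
  have hβ : heckeBetaBar K₁ M q H' = Hq := Subtype.ext (by rw [coe_heckeBetaBar, hHq, hcf])
  have hWH : W H = Hq := by rw [← hα, hW.1, hβ]
  have hWHq : W Hq = H := by rw [← hβ, hW.2, hα]
  -- the crossing data
  have hOnInf : SSOnInfty K₁ (M * q) A₀ ((q : ℕ) : A₀) x 𝔪 := by
    intro s hs
    exact hInf s ((ssMaxInfty_iff hqirr _).1 hs)
  have hOnZero : SSOnZero K₁ (M * q) A₀ ((q : ℕ) : A₀) W x 𝔪 := by
    intro s hs
    apply hZero s
    rw [mem_nonunits_vZero_iff]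
    exact (ssMaxInfty_iff hqirr _).1 hs
  obtain ⟨D, Ψ, H₁, Hq₁, hH₁, hHq₁, hs⟩ :=
    hCross K₁ A₀ hqA hζ _ hqirr x hx W hW 𝔪 h𝔪 hq𝔪 hOnInf hOnZero
  have hH₁e : (H₁ : ModelField K₁ (M * q)) = H := Subtype.ext (by rw [hH₁, hH])
  have hHq₁e : (Hq₁ : ModelField K₁ (M * q)) = Hq := Subtype.ext (by rw [hHq₁, hHq])
  set Xn : ↥(chartClosure A₀ (ModelField K₁ (M * q)) x) := Hq₁ - H₁ ^ q with hXdef
  set Yn : ↥(chartClosure A₀ (ModelField K₁ (M * q)) x) := H₁ - Hq₁ ^ q with hYdef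
  set d : ↥(chartClosure A₀ (ModelField K₁ (M * q)) x) :=
    (D.map (mapRingHom (algebraMap A₀ ↥(chartClosure A₀ (ModelField K₁ (M * q)) x)))).evalEval
      H₁ Hq₁ with hddef
  set ψ : ↥(chartClosure A₀ (ModelField K₁ (M * q)) x) :=
    (Ψ.map (mapRingHom (algebraMap A₀ ↥(chartClosure A₀ (ModelField K₁ (M * q)) x)))).evalEval
      H₁ Hq₁ with hψdef
  have hXe : (Xn : ModelField K₁ (M * q)) = Hq - H ^ q := by
    rw [hXdef, ← hH₁e, ← hHq₁e]
    rfl
  have hYe : (Yn : ModelField K₁ (M * q)) = H - Hq ^ q := by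
    rw [hYdef, ← hH₁e, ← hHq₁e]
    rfl
  have hXY : d * (Xn * Yn) = algebraMap A₀ ↥(chartClosure A₀ (ModelField K₁ (M * q)) x)
      ((q : ℕ) : A₀) * ψ := by
    have h1 := hs.curve
    rw [ssp_tubeEq_map, evalEval_sub, evalEval_mul, evalEval_mul, evalEval_tubeKernel,
      evalEval_C, eval_C] at h1
    rw [map_natCast]
    rw [hddef, hψdef, hXdef, hYdef]
    exact sub_eq_zero.1 h1
  have hYV : (Yn : ModelField K₁ (M * q)) ∈ (vZero K₁ A₀ (M * q) W).nonunits := by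
    rw [hYe]
    exact mem_nonunits_vZero_Y M q K₁ A₀ hqA W hW hq f H Hq (by rw [hH, hcf])
      (by rw [hHq, hcf]) hWH hWHq
  -- `H'` and `U'` at level `M`
  have hH'B : H' ∈ chartClosure A₀ (ModelField K₁ M) x' := by
    apply mem_chartClosure_of_map (A := A₀) (E := ModelField K₁ (M * q))
    rw [hαx, halg, hα, ← hH₁e]
    exact H₁.2
  set HB' : ↥(chartClosure A₀ (ModelField K₁ M) x') := ⟨H', hH'B⟩ with hHB'
  set U' : ↥(chartClosure A₀ (ModelField K₁ M) x') := HB' - HB' ^ (q ^ 2) with hU'def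
  have hU'e : (U' : ModelField K₁ M) = H' - H' ^ (q ^ 2) := rfl
  obtain ⟨c, hc⟩ := sub_dvd_pow_sub_pow Hq₁ (H₁ ^ q) q
  have hU'c : algebraMap (ModelField K₁ M) (ModelField K₁ (M * q)) (U' : ModelField K₁ M)
      = (Yn : ModelField K₁ (M * q)) + (Xn : ModelField K₁ (M * q)) * (c : ModelField K₁ (M * q)) := by
    rw [hU'e, map_sub, map_pow, halg, hα]
    have h2 : ((Hq₁ ^ q - (H₁ ^ q) ^ q : ↥(chartClosure A₀ (ModelField K₁ (M * q)) x)) :
        ModelField K₁ (M * q)) = (Xn : ModelField K₁ (M * q)) * (c : ModelField K₁ (M * q)) := by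
      rw [hc]
      rfl
    have h3 : ((Hq₁ ^ q - (H₁ ^ q) ^ q : ↥(chartClosure A₀ (ModelField K₁ (M * q)) x)) :
        ModelField K₁ (M * q)) = Hq ^ q - (H ^ q) ^ q := by
      rw [← hH₁e, ← hHq₁e]
      rfl
    rw [← h2, h3, hYe, sq, pow_mul]
    ring
  -- (FRAC-loc)
  have hFL := hFrac K₁ A₀ hζ hqirr x hx W hW 𝔪 h𝔪 hq𝔪
    (by rw [Fermat.Agent.H34.SS.ktV_eq_vInf]; exact hInf)
    (by rw [Fermat.Agent.H34.SS.ktV0_eq_vZero]; exact hZero)
  rw [Fermat.Agent.H34.SS.ktV_eq_vInf] at hFL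
  have hgen := nodeGen_abstract (A := A₀) (E' := ModelField K₁ M) (E := ModelField K₁ (M * q))
    hinj hqirr x x' hT hαx (vInf K₁ A₀ (M * q)) (vZero K₁ A₀ (M * q) W) hTC 𝔪 h𝔪 hq𝔪 hInf
    Xn Yn d ψ hs.X_mem hs.Y_mem hYV hs.Ψ_not_mem hXY
    (fun z hz => hFL z hz) U' c hU'c
    (fun 𝔫 h𝔫 hϖ𝔫 hU𝔫 =>
      hLev K₁ A₀ hqA hζ _ hqirr x' hx' 𝔫 h𝔫 hϖ𝔫 U' H' hH'e hU'e hU𝔫)
  exact ⟨Xn, Yn, d, ψ, hXe, hYe, hs.D_not_mem, hs.Ψ_not_mem, hXY, hgen⟩

end Fermat.Agent.H67.SS

end
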