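/-
P-SS2 row 900 (REGL), input (N) = THE CROSSING POINTS: the UNCONDITIONAL instances.  helper67.

* `nodeGenR_h4` : `NodeGenRStatement M q (coeffMap (Int.castRingHom ℚ) h4Z) (ktAuxRoot M q)`
  (`q` an odd prime, `q ∤ M`, `4 ∣ M`);
* `nodeGenR_h9` : `NodeGenRStatement M 2 (coeffMap (Int.castRingHom ℚ) h9Z) (ktAuxRoot M 2)`
  (`2 ∤ M`, `9 ∣ M`);
* `nodeGenR_aux4`, `nodeGenR_aux9` : the existential forms (`∃ R, 0 < R ∧ ¬ q ∣ R ∧ …`).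

Inputs (all landed): helper8 `ssCrossData`, `ssCrossData9` (crossing data), helper71
`ktFracLocRoots_aux` (FRAC-loc), helper59 `modelLevelRegFrob_h4Z`, `modelLevelRegFrob_h9Z`
(level-`M` regularity with the explicit parameter), and `nodeGenR_of`.
-/
import Fermat.Agent.H67.SS.NodeGen
import Fermat.Agent.H59.SS.LevelRegFrob
import Fermat.Agent.H59.SS.LevelRegSS9
import Fermat.Agent.H71.SS.KtNodeFinal
import Fermat.Agent.H8.SS.CrossData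
import Fermat.Agent.H8.SS.Cross9Data

set_option autoImplicit false
set_option linter.style.haveILetI false
set_option linter.unusedSectionVars false
set_option linter.unusedVariables false

noncomputable section

namespace Fermat.Agent.H67.SS

open ModularCurve
open Fermat.Agent.H22.KL Fermat.Agent.H48.QExp Fermat.Agent.H82.SS
open Fermat.Agent.H7.SS2 Fermat.Agent.H8.SS Fermat.Agent.H31.SS Fermat.Agent.H71.SS

/-- helper59's interface gives the rooted form used by `nodeGenR_of`. -/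
theorem modelLevelRegFrob_of_h59 (M q R : ℕ) [NeZero M] [NeZero q] (h₀ : LaurentSeries ℚ)
    (h : Fermat.Agent.H59.SS.ModelLevelRegFrobStatement M q h₀) :
    Fermat.Agent.H67.SS.ModelLevelRegFrobStatement M q h₀ R := by
  intro K₁ _ _ _ A₀ _ _ _ _ _ _ _ hqA _ ϖ hϖ x hx 𝔫 h𝔫 hϖ𝔫 U H' hH' hU hU𝔫
  exact h K₁ A₀ hqA ϖ hϖ x hx 𝔫 h𝔫 hϖ𝔫 U H' hH' hU hU𝔫

/-- helper8's crossing data of level `4` in the generic contract. -/
theorem ssCrossDataG_h4Z (M q R : ℕ) [NeZero M] [NeZero q] (h4 : 4 ∣ M) (hq : q.Prime)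
    (hq2 : q ≠ 2) (hqM : ¬ q ∣ M) :
    Fermat.Agent.H59.SS.SSCrossDataStatementG M q (coeffMap (Int.castRingHom ℚ) h4Z) R := by
  intro K₁ _ _ _ A₀ _ _ _ _ _ _ _ hqA _ ϖ hϖ x hx W hW 𝔪 h𝔪 hϖ𝔪 hI hZ
  have hcf : coeffEmb K₁ (coeffMap (Int.castRingHom ℚ) h4Z) = h4S K₁ := by
    rw [coeffEmb, coeffMap_coeffMap]
    exact coeffMap_congr (RingHom.ext_int _ _) h4Z
  obtain ⟨D, Ψ, H, Hq, hH, hHq, hs⟩ :=
    ssCrossData M q h4 hq hq2 hqM K₁ A₀ hqA ϖ hϖ x hx W hW 𝔪 h𝔪 hϖ𝔪 hI hZ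
  exact ⟨D, Ψ, H, Hq, by rw [hH, hcf], by rw [hHq, hcf], hs⟩

/-- helper8's crossing data of level `9` in the generic contract. -/
theorem ssCrossDataG_h9Z (M q R : ℕ) [NeZero M] [NeZero q] (h9 : 9 ∣ M) (hq : q.Prime)
    (hq3 : q ≠ 3) (hqM : ¬ q ∣ M) :
    Fermat.Agent.H59.SS.SSCrossDataStatementG M q (coeffMap (Int.castRingHom ℚ) h9Z) R := by
  intro K₁ _ _ _ A₀ _ _ _ _ _ _ _ hqA _ ϖ hϖ x hx W hW 𝔪 h𝔪 hϖ𝔪 hI hZ
  have hcf : coeffEmb K₁ (coeffMap (Int.castRingHom ℚ) h9Z) = h9S K₁ := by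
    rw [coeffEmb, coeffMap_coeffMap]
    rw [coeffMap_congr (RingHom.ext_int ((algebraMap ℚ K₁).comp (Int.castRingHom ℚ))
      (Int.castRingHom K₁)) h9Z]
    exact coeffMap_h9Z K₁
  obtain ⟨D, Ψ, H, Hq, hH, hHq, hs⟩ :=
    ssCrossData9 M q h9 hq hq3 hqM K₁ A₀ hqA ϖ hϖ x hx W hW 𝔪 h𝔪 hϖ𝔪 hI hZ
  exact ⟨D, Ψ, H, Hq, by rw [hH, hcf], by rw [hHq, hcf], hs⟩

/-- **(N), level `4`, `q` odd: UNCONDITIONAL.** -/
theorem nodeGenR_h4 (M q : ℕ) [NeZero M] [NeZero q] (hq : q.Prime) (hq2 : q ≠ 2)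
    (hqM : ¬ q ∣ M) (h4 : 4 ∣ M) :
    NodeGenRStatement M q (coeffMap (Int.castRingHom ℚ) h4Z) (ktAuxRoot M q) :=
  nodeGenR_of M q (ktAuxRoot M q) hq hqM h4Z
    (fun K₁ _ _ => h4S_mem_laurentBaseChange K₁ M h4)
    (ssCrossDataG_h4Z M q _ h4 hq hq2 hqM)
    (ktFracLocRoots_aux M q hq hqM (fun _ => h4) (fun h => absurd h hq2))
    (modelLevelRegFrob_of_h59 M q _ _
      (Fermat.Agent.H59.SS.modelLevelRegFrob_h4Z M q hq hq2 hqM h4))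

/-- **(N), level `9`, `q = 2`: UNCONDITIONAL.** -/
theorem nodeGenR_h9 (M : ℕ) [NeZero M] (h2M : ¬ 2 ∣ M) (h9 : 9 ∣ M) :
    NodeGenRStatement M 2 (coeffMap (Int.castRingHom ℚ) h9Z) (ktAuxRoot M 2) :=
  nodeGenR_of M 2 (ktAuxRoot M 2) Nat.prime_two h2M h9Z
    (fun K₁ _ _ => by
      rw [coeffMap_h9Z]
      exact h9S_mem_laurentBaseChange K₁ M h9)
    (ssCrossDataG_h9Z M 2 _ h9 Nat.prime_two (by norm_num) h2M)
    (ktFracLocRoots_aux M 2 Nat.prime_two h2M (fun h => absurd rfl h) (fun _ => h9))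
    (modelLevelRegFrob_of_h59 M 2 _ _
      (Fermat.Agent.H59.SS.modelLevelRegFrob_h9Z M 2 Nat.prime_two (by norm_num) h2M h9))

/-- **(N) at the auxiliary pairs with `q` odd** (existential form). -/
theorem nodeGenR_aux4 (M q : ℕ) [NeZero M] [NeZero q] (hq : q.Prime) (hq2 : q ≠ 2)
    (hqM : ¬ q ∣ M) (h4 : 4 ∣ M) :
    ∃ R, 0 < R ∧ ¬ q ∣ R ∧ NodeGenRStatement M q (coeffMap (Int.castRingHom ℚ) h4Z) R :=
  ⟨ktAuxRoot M q, ktAuxRoot_pos M q, not_dvd_ktAuxRoot M q hq hqM, nodeGenR_h4 M q hq hq2 hqM h4⟩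

/-- **(N) at the auxiliary pairs with `q = 2`** (existential form). -/
theorem nodeGenR_aux9 (M : ℕ) [NeZero M] (h2M : ¬ 2 ∣ M) (h9 : 9 ∣ M) :
    ∃ R, 0 < R ∧ ¬ 2 ∣ R ∧ NodeGenRStatement M 2 (coeffMap (Int.castRingHom ℚ) h9Z) R :=
  ⟨ktAuxRoot M 2, ktAuxRoot_pos M 2, not_dvd_ktAuxRoot M 2 Nat.prime_two h2M,
    nodeGenR_h9 M h2M h9⟩

end Fermat.Agent.H67.SS

end
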